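import Fermat.Agent.S55.Coh.Natural

/-!
# S55 (A4b): effaceability of level classes in `Fun(H/N, X)`
TASK S55/A-Efface.

Formulas (blueprint part 1, A4).  `N` normal.
(1) `c ∈ Z^1`, `c (g n) = c g`: in `Fun(H/N,X)`: `const (c g) = -(g F - F)`, `F x := c x`.
(2) `z ∈ Z^2`, right `N`-invariant: values of `z` are `N`-fixed (`Z2.fixed_of_normal`) and
    `const (z (g,h)) = (d1 Y) (g,h)` with `Y g x := x • z (x⁻¹, g)`.
(3) for a subgroup `V ≤ H`: choose a `V`-equivariant map `r : H/N → V/(V ∩ N)`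
    (representatives of `V \ H / N`) and pull back (1), (2) for the group `V`.
-/

set_option autoImplicit false

noncomputable section

namespace Fermat.Agent.S55

variable {k : Type} [CommRing k] {H : Type} [Group H]
variable {X : Type} [AddCommGroup X] [Module k X]
variable {L : Levels H} {ρ : Representation k H X}

theorem efface1 (N : Subgroup H) [N.Normal] (z : ↥(Z1 L ρ))
    (hz : ∀ g, ∀ s ∈ N, (z : H → X) (g * s) = (z : H → X) g) :
    (Pair.const ρ (H ⧸ N) L).map1 (H1.mk L ρ z) = 0 := by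
  rw [Pair.map1_mk, H1.mk_eq_zero_iff]
  have hc := (mem_Z1.1 z.2).1
  -- `F x = - z x`
  let F : H ⧸ N → X := Quotient.lift (fun x : H => - (z : H → X) x) (by
    intro a b hab
    have hab' : a⁻¹ * b ∈ N := QuotientGroup.leftRel_apply.1 hab
    have := hz a _ hab'
    rw [mul_inv_cancel_left] at this
    simp only [this])
  refine ⟨F, fun g => ?_⟩
  funext x
  induction x using QuotientGroup.induction_on with
  | H x =>
    have h1 : F ((g⁻¹ * x : H) : H ⧸ N) = - (z : H → X) (g⁻¹ * x) := rfl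
    have h2 : F ((x : H) : H ⧸ N) = - (z : H → X) x := rfl
    have h3 := hc g (g⁻¹ * x)
    rw [mul_inv_cancel_left] at h3
    change (z : H → X) g = ρ g (F (g⁻¹ • ((x : H) : H ⧸ N))) - F ((x : H) : H ⧸ N)
    rw [show g⁻¹ • ((x : H) : H ⧸ N) = ((g⁻¹ * x : H) : H ⧸ N) from rfl, h1, h2, h3, map_neg]
    abel

theorem efface2 (N : Subgroup H) [N.Normal] (hN : L.IsOpen N) (z : ↥(Z2 L ρ))
    (hz : ∀ g g', ∀ s ∈ N, ∀ s' ∈ N, (z : H × H → X) (g * s, g' * s') = (z : H × H → X) (g, g')) :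
    (Pair.const ρ (H ⧸ N) L).map2 (H2.mk L ρ z) = 0 := by
  rw [Pair.map2_mk, H2.mk_eq_zero_iff]
  have hc := (mem_Z2.1 z.2).1
  have hfix := Z2.fixed_of_normal z.2 hz
  let Y : H → H ⧸ N → X := fun g => Quotient.lift (fun x : H => ρ x ((z : H × H → X) (x⁻¹, g))) (by
    intro a b hab
    have hab' : a⁻¹ * b ∈ N := QuotientGroup.leftRel_apply.1 hab
    -- `b = a * n`
    obtain ⟨n, hn, rfl⟩ : ∃ n ∈ N, b = a * n := ⟨a⁻¹ * b, hab', by group⟩
    have h1 : (a * n)⁻¹ = a⁻¹ * (a * n⁻¹ * a⁻¹) := by group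
    have h2 : a * n⁻¹ * a⁻¹ ∈ N := ‹N.Normal›.conj_mem _ (N.inv_mem hn) a
    have h3 := hz a⁻¹ g _ h2 1 N.one_mem
    rw [mul_one] at h3
    change ρ a _ = ρ (a * n) _
    rw [h1, h3, map_mul, Module.End.mul_apply, hfix _ _ n hn])
  have hY : ∀ g x : H, Y g (x : H ⧸ N) = ρ x ((z : H × H → X) (x⁻¹, g)) := fun _ _ => rfl
  refine ⟨Y, ⟨N, hN, fun g s hs => ?_⟩, fun g h => ?_⟩
  · funext x
    induction x using QuotientGroup.induction_on with
    | H x =>
      rw [hY, hY]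
      have := hz x⁻¹ g 1 N.one_mem s hs
      rw [mul_one] at this
      rw [this]
  · funext x
    induction x using QuotientGroup.induction_on with
    | H x =>
      change (z : H × H → X) (g, h) = ρ g (Y h (g⁻¹ • ((x : H) : H ⧸ N))) - Y (g * h) (x : H ⧸ N)
        + Y g (x : H ⧸ N)
      rw [show g⁻¹ • ((x : H) : H ⧸ N) = ((g⁻¹ * x : H) : H ⧸ N) from rfl, hY, hY, hY]
      have h1 := hc x⁻¹ g h
      have h2 : (g⁻¹ * x)⁻¹ = x⁻¹ * g := by group
      rw [h2, ← Module.End.mul_apply, ← map_mul, mul_inv_cancel_left, ← map_sub, ← map_add]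
      have h3 : (z : H × H → X) (x⁻¹ * g, h) - (z : H × H → X) (x⁻¹, g * h)
          + (z : H × H → X) (x⁻¹, g) = ρ x⁻¹ ((z : H × H → X) (g, h)) := by
        rw [eq_comm, ← sub_eq_zero]
        rw [← sub_eq_zero] at h1
        rw [← h1]; abel
      rw [h3, ← Module.End.mul_apply, ← map_mul, mul_inv_cancel, map_one, Module.End.one_apply]

/-- existential form, stable under shrinking `N`. -/
theorem exists_efface1 (x : H1 L ρ) :
    ∃ N : Subgroup H, L.IsOpen N ∧ ∀ N' : Subgroup H, N' ≤ N → N'.Normal → L.IsOpen N' →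
      (Pair.const ρ (H ⧸ N') L).map1 x = 0 := by
  obtain ⟨z, rfl⟩ := H1.mk_surjective L ρ x
  obtain ⟨U, hU, h⟩ := (mem_Z1.1 z.2).2
  exact ⟨U, hU, fun N' hle hn _ => efface1 N' z (fun g s hs => h g s (hle hs))⟩

theorem exists_efface2 (x : H2 L ρ) :
    ∃ N : Subgroup H, L.IsOpen N ∧ ∀ N' : Subgroup H, N' ≤ N → N'.Normal → L.IsOpen N' →
      (Pair.const ρ (H ⧸ N') L).map2 x = 0 := by
  obtain ⟨z, rfl⟩ := H2.mk_surjective L ρ x
  obtain ⟨U, hU, h⟩ := (mem_Z2.1 z.2).2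
  exact ⟨U, hU, fun N' hle hn hN' =>
    efface2 N' hN' z (fun g g' s hs s' hs' => h g g' s (hle hs) s' (hle hs'))⟩

namespace Efface

/-- common refinement for finitely many "eventually" statements. -/
lemma exists_common {M : Type} [AddCommGroup M] [Module k M]
    (P : Subgroup H → M → Prop)
    (hP : ∀ x : M, ∃ N : Subgroup H, L.IsOpen N ∧ ∀ N' : Subgroup H, N' ≤ N → N'.Normal →
      L.IsOpen N' → P N' x) (s : Finset M) :
    ∃ N : Subgroup H, L.IsOpen N ∧ N.Normal ∧ N.FiniteIndex ∧ ∀ x ∈ s, P N x := by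
  classical
  have key : ∃ U : Subgroup H, L.IsOpen U ∧ ∀ N' : Subgroup H, N' ≤ U → N'.Normal →
      L.IsOpen N' → ∀ x ∈ s, P N' x := by
    induction s using Finset.induction_on with
    | empty => exact ⟨⊤, L.isOpen_top, fun _ _ _ _ x hx => by simp at hx⟩
    | insert a s _ ih =>
      obtain ⟨U, hU, h⟩ := ih
      obtain ⟨U', hU', h'⟩ := hP a
      refine ⟨U ⊓ U', L.isOpen_inf hU hU', fun N' hle hn ho x hx => ?_⟩
      rcases Finset.mem_insert.1 hx with rfl | hx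
      · exact h' N' (hle.trans inf_le_right) hn ho
      · exact h N' (hle.trans inf_le_left) hn ho x hx
  obtain ⟨U, hU, h⟩ := key
  obtain ⟨N, hN, hNU, hn, hf⟩ := L.exists_normal hU
  exact ⟨N, hN, hn, hf, h N hNU hn hN⟩

end Efface

/-- a finitely generated submodule of `H^1` is killed by one `N`. -/
theorem exists_efface1_fg (W : Submodule k (H1 L ρ)) (hW : W.FG) :
    ∃ N : Subgroup H, L.IsOpen N ∧ N.Normal ∧ N.FiniteIndex ∧
      ∀ x ∈ W, (Pair.const ρ (H ⧸ N) L).map1 x = 0 := by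
  obtain ⟨s, rfl⟩ := hW
  obtain ⟨N, hN, hn, hf, h⟩ := Efface.exists_common (L := L) (k := k)
    (fun N x => (Pair.const ρ (H ⧸ N) L).map1 x = 0) exists_efface1 s
  refine ⟨N, hN, hn, hf, fun x hx => ?_⟩
  have : Submodule.span k (s : Set (H1 L ρ)) ≤ LinearMap.ker (Pair.const ρ (H ⧸ N) L).map1 :=
    Submodule.span_le.2 (fun y hy => h y hy)
  exact this hx

theorem exists_efface2_fg (W : Submodule k (H2 L ρ)) (hW : W.FG) :
    ∃ N : Subgroup H, L.IsOpen N ∧ N.Normal ∧ N.FiniteIndex ∧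
      ∀ x ∈ W, (Pair.const ρ (H ⧸ N) L).map2 x = 0 := by
  obtain ⟨s, rfl⟩ := hW
  obtain ⟨N, hN, hn, hf, h⟩ := Efface.exists_common (L := L) (k := k)
    (fun N x => (Pair.const ρ (H ⧸ N) L).map2 x = 0) exists_efface2 s
  refine ⟨N, hN, hn, hf, fun x hx => ?_⟩
  have : Submodule.span k (s : Set (H2 L ρ)) ≤ LinearMap.ker (Pair.const ρ (H ⧸ N) L).map2 :=
    Submodule.span_le.2 (fun y hy => h y hy)
  exact this hx

/-- a level class restricted to a small enough open subgroup vanishes. -/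
theorem exists_res_eq_zero1 (x : H1 L ρ) :
    ∃ N : Subgroup H, L.IsOpen N ∧ N.Normal ∧ N.FiniteIndex ∧ (Pair.res L ρ N).map1 x = 0 := by
  obtain ⟨z, rfl⟩ := H1.mk_surjective L ρ x
  obtain ⟨U, hU, h⟩ := (mem_Z1.1 z.2).2
  obtain ⟨N, hN, hNU, hn, hf⟩ := L.exists_normal hU
  refine ⟨N, hN, hn, hf, ?_⟩
  rw [Pair.map1_mk, H1.mk_eq_zero_iff]
  refine ⟨0, fun g => ?_⟩
  have h1 := h 1 g (hNU g.2)
  rw [one_mul, Z1.map_one z.2] at h1
  change (z : H → X) (g : H) = _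
  rw [h1]; simp

theorem exists_res_eq_zero2 (x : H2 L ρ) :
    ∃ N : Subgroup H, L.IsOpen N ∧ N.Normal ∧ N.FiniteIndex ∧ (Pair.res L ρ N).map2 x = 0 := by
  obtain ⟨z, rfl⟩ := H2.mk_surjective L ρ x
  obtain ⟨U, hU, h⟩ := (mem_Z2.1 z.2).2
  obtain ⟨N, hN, hNU, hn, hf⟩ := L.exists_normal hU
  refine ⟨N, hN, hn, hf, ?_⟩
  have hfix := Z2.fixed_of_normal z.2 (N := N)
    (fun g g' s hs s' hs' => h g g' s (hNU hs) s' (hNU hs'))
  rw [Pair.map2_mk, H2.mk_eq_zero_iff]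
  refine ⟨fun _ => (z : H × H → X) (1, 1), Levels.isLevel₁_const _ _, fun g g' => ?_⟩
  have h1 := h 1 1 g (hNU g.2) g' (hNU g'.2)
  rw [one_mul, one_mul] at h1
  change (z : H × H → X) ((g : H), (g' : H)) = ρ (g : H) _ - _ + _
  rw [h1, hfix 1 1 g g.2]; abel

end Fermat.Agent.S55

end
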