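import Fermat.Agent.S55.Coh.Defs

/-!
# S55 (A1): functoriality of level cohomology for compatible pairs
-/

set_option autoImplicit false

noncomputable section

namespace Fermat.Agent.S55

variable {k : Type} [CommRing k] {H H' H'' : Type} [Group H] [Group H'] [Group H'']
variable {X X' X'' : Type} [AddCommGroup X] [Module k X] [AddCommGroup X'] [Module k X']
  [AddCommGroup X''] [Module k X'']
variable {L : Levels H} {ρ : Representation k H X} {L' : Levels H'}
  {ρ' : Representation k H' X'} {L'' : Levels H''} {ρ'' : Representation k H'' X''}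

namespace Pair

/-- action of a compatible pair on 1-cochains: `z ↦ φ ∘ z ∘ f`. -/
def c1 (P : Pair L ρ L' ρ') : (H → X) →ₗ[k] (H' → X') where
  toFun z h := P.φ (z (P.f h))
  map_add' z z' := by ext h; simp
  map_smul' c z := by ext h; simp

/-- action of a compatible pair on 2-cochains. -/
def c2 (P : Pair L ρ L' ρ') : (H × H → X) →ₗ[k] (H' × H' → X') where
  toFun z h := P.φ (z (P.f h.1, P.f h.2))
  map_add' z z' := by ext h; simp
  map_smul' c z := by ext h; simp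

@[simp] lemma c1_apply (P : Pair L ρ L' ρ') (z : H → X) (h : H') :
    P.c1 z h = P.φ (z (P.f h)) := rfl

@[simp] lemma c2_apply (P : Pair L ρ L' ρ') (z : H × H → X) (h : H' × H') :
    P.c2 z h = P.φ (z (P.f h.1, P.f h.2)) := rfl

lemma c1_isLevel (P : Pair L ρ L' ρ') {z : H → X} (hz : L.IsLevel₁ z) :
    L'.IsLevel₁ (P.c1 z) := by
  obtain ⟨U, hU, h⟩ := hz
  exact ⟨U.comap P.f, P.cont U hU, fun g s hs => by
    simp only [c1_apply, map_mul, h (P.f g) (P.f s) hs]⟩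

lemma c2_isLevel (P : Pair L ρ L' ρ') {z : H × H → X} (hz : L.IsLevel₂ z) :
    L'.IsLevel₂ (P.c2 z) := by
  obtain ⟨U, hU, h⟩ := hz
  exact ⟨U.comap P.f, P.cont U hU, fun g g' s hs s' hs' => by
    simp only [c2_apply, map_mul, h (P.f g) (P.f g') (P.f s) hs (P.f s') hs']⟩

lemma c1_d0 (P : Pair L ρ L' ρ') (x : X) : P.c1 (d0 ρ x) = d0 ρ' (P.φ x) := by
  ext h; simp [P.compat]

lemma c2_d1 (P : Pair L ρ L' ρ') (y : H → X) : P.c2 (d1 ρ y) = d1 ρ' (P.c1 y) := by
  ext h; simp [P.compat]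

lemma c1_mem_Z1 (P : Pair L ρ L' ρ') {z : H → X} (hz : z ∈ Z1 L ρ) : P.c1 z ∈ Z1 L' ρ' := by
  rw [mem_Z1] at hz ⊢
  refine ⟨fun g h => ?_, P.c1_isLevel hz.2⟩
  simp only [c1_apply, map_mul, hz.1, map_add, P.compat]

lemma c2_mem_Z2 (P : Pair L ρ L' ρ') {z : H × H → X} (hz : z ∈ Z2 L ρ) :
    P.c2 z ∈ Z2 L' ρ' := by
  rw [mem_Z2] at hz ⊢
  refine ⟨fun g h j => ?_, P.c2_isLevel hz.2⟩
  simp only [c2_apply, map_mul, ← P.compat, ← map_add, hz.1]

lemma c1_mem_B1 (P : Pair L ρ L' ρ') {z : H → X} (hz : z ∈ B1 ρ) : P.c1 z ∈ B1 ρ' := by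
  obtain ⟨x, rfl⟩ := hz
  exact ⟨P.φ x, (P.c1_d0 x).symm⟩

lemma c2_mem_B2 (P : Pair L ρ L' ρ') {z : H × H → X} (hz : z ∈ B2 L ρ) : P.c2 z ∈ B2 L' ρ' := by
  obtain ⟨y, hy, rfl⟩ := hz
  exact ⟨P.c1 y, P.c1_isLevel hy, (P.c2_d1 y).symm⟩

/-- the map on level 1-cocycles. -/
def z1 (P : Pair L ρ L' ρ') : ↥(Z1 L ρ) →ₗ[k] ↥(Z1 L' ρ') :=
  P.c1.restrict (fun _ hz => P.c1_mem_Z1 hz)

/-- the map on level 2-cocycles. -/
def z2 (P : Pair L ρ L' ρ') : ↥(Z2 L ρ) →ₗ[k] ↥(Z2 L' ρ') :=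
  P.c2.restrict (fun _ hz => P.c2_mem_Z2 hz)

@[simp] lemma z1_coe (P : Pair L ρ L' ρ') (z : ↥(Z1 L ρ)) :
    ((P.z1 z : ↥(Z1 L' ρ')) : H' → X') = P.c1 z := rfl

@[simp] lemma z2_coe (P : Pair L ρ L' ρ') (z : ↥(Z2 L ρ)) :
    ((P.z2 z : ↥(Z2 L' ρ')) : H' × H' → X') = P.c2 z := rfl

/-- the induced map on `H^0`. -/
def map0 (P : Pair L ρ L' ρ') : ↥(H0 ρ) →ₗ[k] ↥(H0 ρ') :=
  P.φ.restrict (fun x hx h => by rw [← P.compat, hx (P.f h)])

/-- the induced map on `H^1`. -/
def map1 (P : Pair L ρ L' ρ') : H1 L ρ →ₗ[k] H1 L' ρ' :=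
  Submodule.mapQ _ _ P.z1 (fun _ hz => P.c1_mem_B1 hz)

/-- the induced map on `H^2`. -/
def map2 (P : Pair L ρ L' ρ') : H2 L ρ →ₗ[k] H2 L' ρ' :=
  Submodule.mapQ _ _ P.z2 (fun _ hz => P.c2_mem_B2 hz)

@[simp] lemma map0_coe (P : Pair L ρ L' ρ') (x : ↥(H0 ρ)) : (P.map0 x : X') = P.φ x := rfl

@[simp] lemma map1_mk (P : Pair L ρ L' ρ') (z : ↥(Z1 L ρ)) :
    P.map1 (H1.mk L ρ z) = H1.mk L' ρ' (P.z1 z) := rfl

@[simp] lemma map2_mk (P : Pair L ρ L' ρ') (z : ↥(Z2 L ρ)) :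
    P.map2 (H2.mk L ρ z) = H2.mk L' ρ' (P.z2 z) := rfl

/-- identity pair. -/
protected def id (L : Levels H) (ρ : Representation k H X) : Pair L ρ L ρ where
  f := MonoidHom.id H
  φ := LinearMap.id
  cont U hU := by simpa using hU
  compat _ _ := rfl

/-- composition of compatible pairs (first `P`, then `Q`). -/
def comp (Q : Pair L' ρ' L'' ρ'') (P : Pair L ρ L' ρ') : Pair L ρ L'' ρ'' where
  f := P.f.comp Q.f
  φ := Q.φ.comp P.φ
  cont U hU := by
    rw [← Subgroup.comap_comap]; exact Q.cont _ (P.cont U hU)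
  compat h x := by
    simp only [MonoidHom.comp_apply, LinearMap.comp_apply, P.compat, Q.compat]

/-- Two pairs with the same underlying maps induce the same maps. -/
lemma map0_congr {P Q : Pair L ρ L' ρ'} (hf : P.f = Q.f) (hφ : P.φ = Q.φ) : P.map0 = Q.map0 := by
  cases P; cases Q; simp only at hf hφ; subst hf; subst hφ; rfl

lemma map1_congr {P Q : Pair L ρ L' ρ'} (hf : P.f = Q.f) (hφ : P.φ = Q.φ) : P.map1 = Q.map1 := by
  cases P; cases Q; simp only at hf hφ; subst hf; subst hφ; rfl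

lemma map2_congr {P Q : Pair L ρ L' ρ'} (hf : P.f = Q.f) (hφ : P.φ = Q.φ) : P.map2 = Q.map2 := by
  cases P; cases Q; simp only at hf hφ; subst hf; subst hφ; rfl

@[simp] lemma map0_id : (Pair.id L ρ).map0 = LinearMap.id := by ext x; rfl

@[simp] lemma map1_id : (Pair.id L ρ).map1 = LinearMap.id := by
  apply Submodule.linearMap_qext; ext z; rfl

@[simp] lemma map2_id : (Pair.id L ρ).map2 = LinearMap.id := by
  apply Submodule.linearMap_qext; ext z; rfl

lemma map0_comp (Q : Pair L' ρ' L'' ρ'') (P : Pair L ρ L' ρ') :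
    (Q.comp P).map0 = Q.map0.comp P.map0 := by ext x; rfl

lemma map1_comp (Q : Pair L' ρ' L'' ρ'') (P : Pair L ρ L' ρ') :
    (Q.comp P).map1 = Q.map1.comp P.map1 := by
  apply Submodule.linearMap_qext; ext z; rfl

lemma map2_comp (Q : Pair L' ρ' L'' ρ'') (P : Pair L ρ L' ρ') :
    (Q.comp P).map2 = Q.map2.comp P.map2 := by
  apply Submodule.linearMap_qext; ext z; rfl

/-! ### the standard pairs -/

/-- coefficient map. -/
def coeff (L : Levels H) {ρ : Representation k H X} {σ : Representation k H X'}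
    (φ : X →ₗ[k] X') (hφ : ∀ (h : H) (x : X), φ (ρ h x) = σ h (φ x)) : Pair L ρ L σ where
  f := MonoidHom.id H
  φ := φ
  cont U hU := by simpa using hU
  compat := hφ

/-- restriction along an arbitrary homomorphism, with the pulled back levels. -/
def pull (L : Levels H) (ρ : Representation k H X) (f : H' →* H) :
    Pair L ρ (L.comap f) (MonoidHom.comp ρ f) where
  f := f
  φ := LinearMap.id
  cont U hU := ⟨U, hU, le_rfl⟩
  compat _ _ := rfl

/-- restriction to a subgroup. -/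
def res (L : Levels H) (ρ : Representation k H X) (V : Subgroup H) :
    Pair L ρ (L.sub V) (rsub ρ V) := pull L ρ V.subtype

/-- restriction from a subgroup to a smaller subgroup. -/
def resLE (L : Levels H) (ρ : Representation k H X) {V' V : Subgroup H} (h : V' ≤ V) :
    Pair (L.sub V) (rsub ρ V) (L.sub V') (rsub ρ V') where
  f := Subgroup.inclusion h
  φ := LinearMap.id
  cont := by
    rintro U ⟨U0, hU0, hle⟩
    refine ⟨U0, hU0, fun x hx => ?_⟩
    exact hle (show ((Subgroup.inclusion h x : V) : H) ∈ U0 from hx)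
  compat _ _ := rfl

/-- change of level structure (inflation from a coarser level structure). -/
def infl {L L' : Levels H} (h : ∀ U : Subgroup H, L.IsOpen U → L'.IsOpen U)
    (ρ : Representation k H X) : Pair L ρ L' ρ where
  f := MonoidHom.id H
  φ := LinearMap.id
  cont U hU := by simpa using h U hU
  compat _ _ := rfl

/-- conjugation: `f v = g v g⁻¹ : V' → V`, `φ = ρ g⁻¹`. -/
def conj (L : Levels H) (ρ : Representation k H X) (g : H) {V V' : Subgroup H}
    (h : ∀ v ∈ V', g * v * g⁻¹ ∈ V) : Pair (L.sub V) (rsub ρ V) (L.sub V') (rsub ρ V') where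
  f :=
    { toFun := fun v => ⟨g * v * g⁻¹, h v v.2⟩
      map_one' := by ext; simp
      map_mul' := fun a b => by ext; simp [mul_assoc] }
  φ := ρ g⁻¹
  cont := by
    rintro U ⟨U0, hU0, hle⟩
    obtain ⟨N, hN, hNU, hNn, -⟩ := L.exists_normal hU0
    refine ⟨N, hN, fun x hx => ?_⟩
    refine hle (hNU ?_)
    exact hNn.conj_mem _ hx g
  compat v x := by
    change ρ g⁻¹ (ρ (g * v * g⁻¹) x) = ρ v (ρ g⁻¹ x)
    rw [← Module.End.mul_apply, ← Module.End.mul_apply, ← map_mul, ← map_mul]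
    congr 2
    group

/-- Shapiro pair: restrict to a subgroup `V` fixing `x : Ω` and evaluate at `x`. -/
def ev (L : Levels H) (ρ : Representation k H X) (Ω : Type) [MulAction H Ω] (V : Subgroup H)
    (x : Ω) (hx : ∀ v ∈ V, v • x = x) : Pair L (Fun ρ Ω) (L.sub V) (rsub ρ V) where
  f := V.subtype
  φ := LinearMap.proj x
  cont U hU := ⟨U, hU, le_rfl⟩
  compat v f := by
    have : (v : H)⁻¹ • x = x := by
      rw [inv_smul_eq_iff]; exact (hx v v.2).symm
    simp [this]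

end Pair

end Fermat.Agent.S55

end
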