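import Fermat.Agent.S55.Coh.All

/-!
# S55 (A): "flat" versions of the restriction theorems
TASK S55/A-Flat.

In the applications all groups are subgroups `W' ≤ W` of one fixed group `H` (`= GQ`), with levels
`L.sub W` and restriction maps `Pair.resLE L ρ h`.  The theorems of (A) are stated for the top group
`↥W` and subgroups `V : Subgroup ↥W`.  This file translates (use `Pair.subOf`, `Pair.subSub`,
`Pair.isDense_subOf`, `Pair.isDense_subSub`, `Pair.IsDense.bijective*`, `Pair.map*_comp`,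
`Pair.map*_congr`).
-/

set_option autoImplicit false

noncomputable section

namespace Fermat.Agent.S55

namespace Flat

variable {k : Type} [CommRing k] {H H' H'' : Type} [Group H] [Group H'] [Group H'']
variable {X X' X'' : Type} [AddCommGroup X] [Module k X] [AddCommGroup X'] [Module k X']
  [AddCommGroup X''] [Module k X'']
variable {L : Levels H} {ρ : Representation k H X} {L' : Levels H'} {ρ' : Representation k H' X'}
  {L'' : Levels H''} {ρ'' : Representation k H'' X''}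

lemma comp0 (Q : Pair L' ρ' L'' ρ'') (P : Pair L ρ L' ρ') (R : Pair L ρ L'' ρ'')
    (hf : (Q.comp P).f = R.f) (hφ : (Q.comp P).φ = R.φ) (x : ↥(H0 ρ)) :
    Q.map0 (P.map0 x) = R.map0 x := by
  rw [← LinearMap.comp_apply, ← Pair.map0_comp, Pair.map0_congr hf hφ]

lemma comp1 (Q : Pair L' ρ' L'' ρ'') (P : Pair L ρ L' ρ') (R : Pair L ρ L'' ρ'')
    (hf : (Q.comp P).f = R.f) (hφ : (Q.comp P).φ = R.φ) (x : H1 L ρ) :
    Q.map1 (P.map1 x) = R.map1 x := by
  rw [← LinearMap.comp_apply, ← Pair.map1_comp, Pair.map1_congr hf hφ]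

lemma comp2 (Q : Pair L' ρ' L'' ρ'') (P : Pair L ρ L' ρ') (R : Pair L ρ L'' ρ'')
    (hf : (Q.comp P).f = R.f) (hφ : (Q.comp P).φ = R.φ) (x : H2 L ρ) :
    Q.map2 (P.map2 x) = R.map2 x := by
  rw [← LinearMap.comp_apply, ← Pair.map2_comp, Pair.map2_congr hf hφ]

end Flat

variable {k : Type} [CommRing k] {H : Type} [Group H]
variable {X : Type} [AddCommGroup X] [Module k X]
variable (L : Levels H) (ρ : Representation k H X)

/-- transitivity of `resLE`. -/
theorem Pair.resLE_resLE_map0 {W'' W' W : Subgroup H} (h' : W'' ≤ W') (h : W' ≤ W)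
    (x : ↥(H0 (rsub ρ W))) :
    (Pair.resLE L ρ h').map0 ((Pair.resLE L ρ h).map0 x) = (Pair.resLE L ρ (h'.trans h)).map0 x :=
  Flat.comp0 _ _ _ rfl rfl x

theorem Pair.resLE_resLE_map1 {W'' W' W : Subgroup H} (h' : W'' ≤ W') (h : W' ≤ W)
    (x : H1 (L.sub W) (rsub ρ W)) :
    (Pair.resLE L ρ h').map1 ((Pair.resLE L ρ h).map1 x) = (Pair.resLE L ρ (h'.trans h)).map1 x :=
  Flat.comp1 _ _ _ rfl rfl x

theorem Pair.resLE_resLE_map2 {W'' W' W : Subgroup H} (h' : W'' ≤ W') (h : W' ≤ W)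
    (x : H2 (L.sub W) (rsub ρ W)) :
    (Pair.resLE L ρ h').map2 ((Pair.resLE L ρ h).map2 x) = (Pair.resLE L ρ (h'.trans h)).map2 x :=
  Flat.comp2 _ _ _ rfl rfl x

/-- `resLE ∘ res = res`. -/
theorem Pair.resLE_res_map1 {W' W : Subgroup H} (h : W' ≤ W) (x : H1 L ρ) :
    (Pair.resLE L ρ h).map1 ((Pair.res L ρ W).map1 x) = (Pair.res L ρ W').map1 x :=
  Flat.comp1 _ _ _ rfl rfl x

theorem Pair.resLE_res_map2 {W' W : Subgroup H} (h : W' ≤ W) (x : H2 L ρ) :
    (Pair.resLE L ρ h).map2 ((Pair.res L ρ W).map2 x) = (Pair.res L ρ W').map2 x :=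
  Flat.comp2 _ _ _ rfl rfl x

namespace Flat

/-- `resLE = subOf ∘ res`. -/
theorem subOf_res_map1 {W' W : Subgroup H} (h : W' ≤ W) (x : H1 (L.sub W) (rsub ρ W)) :
    (Pair.subOf L ρ h).map1 ((Pair.res (L.sub W) (rsub ρ W) (W'.subgroupOf W)).map1 x) =
      (Pair.resLE L ρ h).map1 x :=
  Flat.comp1 _ _ _ rfl rfl x

theorem subOf_res_map2 {W' W : Subgroup H} (h : W' ≤ W) (x : H2 (L.sub W) (rsub ρ W)) :
    (Pair.subOf L ρ h).map2 ((Pair.res (L.sub W) (rsub ρ W) (W'.subgroupOf W)).map2 x) =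
      (Pair.resLE L ρ h).map2 x :=
  Flat.comp2 _ _ _ rfl rfl x

/-- `res = subSub ∘ resLE`. -/
theorem subSub_resLE_map1 {W : Subgroup H} (V : Subgroup ↥W) (x : H1 (L.sub W) (rsub ρ W)) :
    (Pair.subSub L ρ W V).map1 ((Pair.resLE L ρ (Subgroup.map_subtype_le V)).map1 x) =
      (Pair.res (L.sub W) (rsub ρ W) V).map1 x :=
  Flat.comp1 _ _ _ rfl rfl x

theorem subSub_resLE_map2 {W : Subgroup H} (V : Subgroup ↥W) (x : H2 (L.sub W) (rsub ρ W)) :
    (Pair.subSub L ρ W V).map2 ((Pair.resLE L ρ (Subgroup.map_subtype_le V)).map2 x) =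
      (Pair.res (L.sub W) (rsub ρ W) V).map2 x :=
  Flat.comp2 _ _ _ rfl rfl x

end Flat

/-- flat restriction versus restriction to `W'.subgroupOf W` inside the group `↥W`. -/
theorem Pair.resLE_map1_eq_zero_iff [Smooth L ρ] {W' W : Subgroup H} (h : W' ≤ W)
    (x : H1 (L.sub W) (rsub ρ W)) :
    (Pair.resLE L ρ h).map1 x = 0 ↔
      (Pair.res (L.sub W) (rsub ρ W) (W'.subgroupOf W)).map1 x = 0 := by
  rw [← Flat.subOf_res_map1]
  exact map_eq_zero_iff _ (Pair.isDense_subOf L ρ h).bijective1.1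

theorem Pair.resLE_map2_eq_zero_iff [Smooth L ρ] {W' W : Subgroup H} (h : W' ≤ W)
    (x : H2 (L.sub W) (rsub ρ W)) :
    (Pair.resLE L ρ h).map2 x = 0 ↔
      (Pair.res (L.sub W) (rsub ρ W) (W'.subgroupOf W)).map2 x = 0 := by
  rw [← Flat.subOf_res_map2]
  exact map_eq_zero_iff _ (Pair.isDense_subOf L ρ h).bijective2.1

/-- restriction to `V : Subgroup ↥W` versus flat restriction to `V.map W.subtype`. -/
theorem Pair.res_map1_eq_zero_iff_resLE [Smooth L ρ] {W : Subgroup H} (V : Subgroup ↥W)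
    (x : H1 (L.sub W) (rsub ρ W)) :
    (Pair.res (L.sub W) (rsub ρ W) V).map1 x = 0 ↔
      (Pair.resLE L ρ (Subgroup.map_subtype_le V)).map1 x = 0 := by
  rw [← Flat.subSub_resLE_map1]
  exact map_eq_zero_iff _ (Pair.isDense_subSub L ρ W V).bijective1.1

theorem Pair.res_map2_eq_zero_iff_resLE [Smooth L ρ] {W : Subgroup H} (V : Subgroup ↥W)
    (x : H2 (L.sub W) (rsub ρ W)) :
    (Pair.res (L.sub W) (rsub ρ W) V).map2 x = 0 ↔
      (Pair.resLE L ρ (Subgroup.map_subtype_le V)).map2 x = 0 := by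
  rw [← Flat.subSub_resLE_map2]
  exact map_eq_zero_iff _ (Pair.isDense_subSub L ρ W V).bijective2.1

/-- restriction to a relatively open subgroup of index invertible in `k` is injective. -/
theorem Pair.resLE_injective1 [Smooth L ρ] {W' W : Subgroup H} (h : W' ≤ W)
    (ho : (L.sub W).IsOpen (W'.subgroupOf W)) (hu : IsUnit ((W'.subgroupOf W).index : k)) :
    Function.Injective (Pair.resLE L ρ h).map1 := by
  rw [injective_iff_map_eq_zero]
  intro x hx
  rw [Pair.resLE_map1_eq_zero_iff] at hx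
  exact (map_eq_zero_iff _ (res_injective1 (L.sub W) (rsub ρ W) (W'.subgroupOf W) ho hu)).1 hx

theorem Pair.resLE_injective2 [Smooth L ρ] {W' W : Subgroup H} (h : W' ≤ W)
    (ho : (L.sub W).IsOpen (W'.subgroupOf W)) (hu : IsUnit ((W'.subgroupOf W).index : k)) :
    Function.Injective (Pair.resLE L ρ h).map2 := by
  rw [injective_iff_map_eq_zero]
  intro x hx
  rw [Pair.resLE_map2_eq_zero_iff] at hx
  exact (map_eq_zero_iff _ (res_injective2 (L.sub W) (rsub ρ W) (W'.subgroupOf W) ho hu)).1 hx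

/-- every class dies on a relatively open, relatively normal subgroup. -/
theorem exists_resLE_eq_zero1 [Smooth L ρ] {W : Subgroup H} (x : H1 (L.sub W) (rsub ρ W)) :
    ∃ (N : Subgroup H) (h : N ≤ W), (L.sub W).IsOpen (N.subgroupOf W) ∧ (N.subgroupOf W).Normal ∧
      (Pair.resLE L ρ h).map1 x = 0 := by
  obtain ⟨N, hN, hn, -, hx⟩ := exists_res_eq_zero1 (L := L.sub W) (ρ := rsub ρ W) x
  have he : (N.map W.subtype).subgroupOf W = N :=
    Subgroup.comap_map_eq_self_of_injective W.subtype_injective N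
  refine ⟨N.map W.subtype, Subgroup.map_subtype_le N, ?_, ?_, ?_⟩
  · rw [he]; exact hN
  · rw [he]; exact hn
  · exact (Pair.res_map1_eq_zero_iff_resLE L ρ N x).1 hx

theorem exists_resLE_eq_zero2 [Smooth L ρ] {W : Subgroup H} (x : H2 (L.sub W) (rsub ρ W)) :
    ∃ (N : Subgroup H) (h : N ≤ W), (L.sub W).IsOpen (N.subgroupOf W) ∧ (N.subgroupOf W).Normal ∧
      (Pair.resLE L ρ h).map2 x = 0 := by
  obtain ⟨N, hN, hn, -, hx⟩ := exists_res_eq_zero2 (L := L.sub W) (ρ := rsub ρ W) x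
  have he : (N.map W.subtype).subgroupOf W = N :=
    Subgroup.comap_map_eq_self_of_injective W.subtype_injective N
  refine ⟨N.map W.subtype, Subgroup.map_subtype_le N, ?_, ?_, ?_⟩
  · rw [he]; exact hN
  · rw [he]; exact hn
  · exact (Pair.res_map2_eq_zero_iff_resLE L ρ N x).1 hx

/-- relatively open in an open subgroup = open. -/
theorem Levels.isOpen_subgroupOf_iff {W' W : Subgroup H} (h : W' ≤ W) (hW : L.IsOpen W) :
    (L.sub W).IsOpen (W'.subgroupOf W) ↔ L.IsOpen W' := by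
  constructor
  · rintro ⟨U, hU, hle⟩
    refine L.isOpen_mono (L.isOpen_inf hU hW) (fun x hx => ?_)
    have h1 : (⟨x, hx.2⟩ : W) ∈ Subgroup.comap W.subtype U := hx.1
    exact hle h1
  · intro h'
    exact ⟨W', h', le_rfl⟩

end Fermat.Agent.S55

end
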