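import Fermat.Agent.S55.Coh.Flat

/-!
# S55 (A): Sylow devissage for `H²` with `𝔽_p`-coefficients
TASK S55/A-SylowDev.

`Q V x` a property of classes `x ∈ H²(V, ρ)`, `V ≤ H`, stable under restriction.  Suppose that for
open `V ≤ K0` (`K0` a fixed normal open subgroup of index prime to `p`) and `V1 ◁ V` open of index
`p`:  `Q V x`, `res_{V1} x = 0` imply `x = 0`.  Then `Q V x` implies `x = 0` for all open `V`.

PROOF. Step 0: `V' = V ⊓ K0` has index prime to `p` in `V` (`Subgroup.relIndex_dvd_index_of_normal`),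
so `res` is injective (`Pair.resLE_injective2`): wlog `V ≤ K0`.
Step 1: `x` dies on `N0 ≤ V`, relatively open and normal (`exists_resLE_eq_zero2`).  Let `P ≤ V` be the
preimage of a Sylow `p`-subgroup of `V/N0`: `[V:P]` is prime to `p`, `res_P` is injective.
Step 2: induction on `n`, for all open `W` with `N0 ≤ W ≤ K0`, `N0` normal in `W`, `[W:N0] = p^n`:
`Q W y`, `res_{N0} y = 0` imply `y = 0`.  `n = 0`: `W = N0`.  `n+1`: the `p`-group `W/N0` has a normal
subgroup of index `p` (e.g. a maximal subgroup: `IsPGroup`/`Sylow.exists_subgroup_card_pow_prime` +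
`IsPGroup...normal`, or: a nontrivial `p`-group has a surjection to `ℤ/p` because it is nilpotent, its
abelianisation is a nontrivial `p`-group); its preimage `W1` satisfies the induction hypothesis, so
`res_{W1} y = 0`, and `hstep` gives `y = 0`.
-/

set_option autoImplicit false

noncomputable section

namespace Fermat.Agent.S55

namespace SylowDev

/-- a group with a normal subgroup of index `p^(n+1)` has a normal subgroup of index `p` above it. -/
theorem exists_normal_index_p {p : ℕ} [Fact p.Prime] {W : Type} [Group W] (N : Subgroup W)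
    [N.Normal] {n : ℕ} (hN : N.index = p ^ (n + 1)) :
    ∃ M : Subgroup W, N ≤ M ∧ M.Normal ∧ M.index = p := by
  have hp : p.Prime := Fact.out
  have hcard : Nat.card (W ⧸ N) = p ^ (n + 1) := by rw [← hN, Subgroup.index_eq_card]
  have hfin : Finite (W ⧸ N) := Nat.finite_of_card_ne_zero (by rw [hcard]; exact pow_ne_zero _ hp.ne_zero)
  obtain ⟨K, hK⟩ := Sylow.exists_subgroup_card_pow_prime (G := W ⧸ N) p (n := n)
    (by rw [hcard]; exact pow_dvd_pow p (Nat.le_succ n))
  have hKi : K.index = p := by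
    have h := K.card_mul_index
    rw [hK, hcard, pow_succ] at h
    exact Nat.eq_of_mul_eq_mul_left (pow_pos hp.pos n) h
  have hKn : K.Normal := by
    apply Subgroup.normal_of_index_eq_minFac_card
    rw [hKi, hcard, hp.pow_minFac (Nat.succ_ne_zero n)]
  refine ⟨K.comap (QuotientGroup.mk' N), ?_, inferInstance, ?_⟩
  · conv_lhs => rw [← QuotientGroup.ker_mk' N]
    exact Subgroup.ker_le_comap _ _
  · rw [Subgroup.index_comap_of_surjective _ (QuotientGroup.mk'_surjective N), hKi]

/-- preimage of a Sylow subgroup of the quotient. -/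
theorem exists_sylow_preimage {p : ℕ} [Fact p.Prime] {W : Type} [Group W] (N : Subgroup W)
    [N.Normal] (hN : N.index ≠ 0) :
    ∃ P : Subgroup W, N ≤ P ∧ ¬ p ∣ P.index ∧ ∃ n : ℕ, N.relIndex P = p ^ n := by
  have hcard : Nat.card (W ⧸ N) = N.index := by rw [Subgroup.index_eq_card]
  have hfin : Finite (W ⧸ N) := Nat.finite_of_card_ne_zero (by rw [hcard]; exact hN)
  obtain ⟨S⟩ : Nonempty (Sylow p (W ⧸ N)) := inferInstance
  have hle : N ≤ (S : Subgroup (W ⧸ N)).comap (QuotientGroup.mk' N) := by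
    conv_lhs => rw [← QuotientGroup.ker_mk' N]
    exact Subgroup.ker_le_comap _ _
  have hidx : ((S : Subgroup (W ⧸ N)).comap (QuotientGroup.mk' N)).index
      = (S : Subgroup (W ⧸ N)).index :=
    Subgroup.index_comap_of_surjective _ (QuotientGroup.mk'_surjective N)
  refine ⟨(S : Subgroup (W ⧸ N)).comap (QuotientGroup.mk' N), hle, ?_, ?_⟩
  · rw [hidx]
    exact S.not_dvd_index
  · obtain ⟨n, hn⟩ := (IsPGroup.iff_card (p := p) (G := (S : Subgroup (W ⧸ N)))).mp S.isPGroup'
    refine ⟨n, ?_⟩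
    have h1 := Subgroup.relIndex_mul_index hle
    have h2 := (S : Subgroup (W ⧸ N)).card_mul_index
    rw [hidx, ← hcard, ← h2, hn] at h1
    have hpos : 0 < (S : Subgroup (W ⧸ N)).index :=
      Nat.pos_of_ne_zero Subgroup.FiniteIndex.index_ne_zero
    exact Nat.eq_of_mul_eq_mul_right hpos h1

/-- flat version of `exists_normal_index_p`. -/
theorem exists_normal_index_p_flat {p : ℕ} [Fact p.Prime] {H : Type} [Group H] {N W : Subgroup H}
    (hNW : N ≤ W) (hn : (N.subgroupOf W).Normal) {n : ℕ} (hN : N.relIndex W = p ^ (n + 1)) :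
    ∃ W1 : Subgroup H, N ≤ W1 ∧ W1 ≤ W ∧ (W1.subgroupOf W).Normal ∧ (W1.subgroupOf W).index = p ∧
      (N.subgroupOf W1).Normal ∧ N.relIndex W1 = p ^ n := by
  have hp : p.Prime := Fact.out
  obtain ⟨M, hNM, hMn, hMi⟩ := exists_normal_index_p (N.subgroupOf W) hN
  have hM : (M.map W.subtype).subgroupOf W = M :=
    Subgroup.comap_map_eq_self_of_injective W.subtype_injective M
  have hle : M.map W.subtype ≤ W := Subgroup.map_subtype_le M
  have hN1 : N ≤ M.map W.subtype := by
    rw [← Subgroup.map_subgroupOf_eq_of_le hNW]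
    exact Subgroup.map_mono hNM
  refine ⟨M.map W.subtype, hN1, hle, by rw [hM]; exact hMn, by rw [hM]; exact hMi, ?_, ?_⟩
  · rw [Subgroup.normal_subgroupOf_iff_le_normalizer hN1]
    exact hle.trans ((Subgroup.normal_subgroupOf_iff_le_normalizer hNW).mp hn)
  · have h1 := Subgroup.relIndex_mul_relIndex N (M.map W.subtype) W hN1 hle
    have h2 : (M.map W.subtype).relIndex W = p := by
      change ((M.map W.subtype).subgroupOf W).index = p
      rw [hM, hMi]
    rw [h2, hN, pow_succ] at h1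
    exact Nat.eq_of_mul_eq_mul_right hp.pos h1

/-- flat version of `exists_sylow_preimage`. -/
theorem exists_sylow_preimage_flat {p : ℕ} [Fact p.Prime] {H : Type} [Group H] {N V : Subgroup H}
    (hNV : N ≤ V) (hn : (N.subgroupOf V).Normal) (hN : N.relIndex V ≠ 0) :
    ∃ P : Subgroup H, N ≤ P ∧ P ≤ V ∧ ¬ p ∣ (P.subgroupOf V).index ∧ (N.subgroupOf P).Normal ∧
      ∃ n : ℕ, N.relIndex P = p ^ n := by
  obtain ⟨M, hNM, hMi, n, hMn⟩ := exists_sylow_preimage (p := p) (N.subgroupOf V) hN
  have hM : (M.map V.subtype).subgroupOf V = M :=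
    Subgroup.comap_map_eq_self_of_injective V.subtype_injective M
  have hle : M.map V.subtype ≤ V := Subgroup.map_subtype_le M
  have hN1 : N ≤ M.map V.subtype := by
    rw [← Subgroup.map_subgroupOf_eq_of_le hNV]
    exact Subgroup.map_mono hNM
  refine ⟨M.map V.subtype, hN1, hle, by rw [hM]; exact hMi, ?_, n, ?_⟩
  · rw [Subgroup.normal_subgroupOf_iff_le_normalizer hN1]
    exact hle.trans ((Subgroup.normal_subgroupOf_iff_le_normalizer hNV).mp hn)
  · have h1 := Subgroup.relIndex_mul_relIndex N (M.map V.subtype) V hN1 hle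
    have h2 := Subgroup.relIndex_mul_index hNM
    have h3 : (M.map V.subtype).relIndex V = M.index := by
      change ((M.map V.subtype).subgroupOf V).index = M.index
      rw [hM]
    have h4 : (N.subgroupOf V).index = N.relIndex V := rfl
    rw [h3, ← h4, ← h2, hMn] at h1
    have hpos : 0 < M.index := Nat.pos_of_ne_zero (fun h0 => hMi (h0 ▸ dvd_zero p))
    exact Nat.eq_of_mul_eq_mul_right hpos h1

theorem isUnit_natCast_of_not_dvd {p : ℕ} [Fact p.Prime] {n : ℕ} (h : ¬ p ∣ n) :
    IsUnit (n : ZMod p) := by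
  rw [ZMod.isUnit_iff_coprime]
  exact ((Nat.Prime.coprime_iff_not_dvd Fact.out).mpr h).symm

end SylowDev

variable {p : ℕ} [Fact p.Prime] {H : Type} [Group H]
variable {X : Type} [AddCommGroup X] [Module (ZMod p) X]

theorem sylow_devissage (L : Levels H) (ρ : Representation (ZMod p) H X) [Smooth L ρ]
    (K0 : Subgroup H) [K0.Normal] (hK0 : L.IsOpen K0) (hK0i : ¬ p ∣ K0.index)
    (Q : ∀ V : Subgroup H, H2 (L.sub V) (rsub ρ V) → Prop)
    (hres : ∀ (V' V : Subgroup H) (h : V' ≤ V) (x : H2 (L.sub V) (rsub ρ V)),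
      Q V x → Q V' ((Pair.resLE L ρ h).map2 x))
    (hstep : ∀ (V V1 : Subgroup H) (h : V1 ≤ V), L.IsOpen V → L.IsOpen V1 → V ≤ K0 →
      (V1.subgroupOf V).Normal → (V1.subgroupOf V).index = p →
      ∀ x : H2 (L.sub V) (rsub ρ V), Q V x → (Pair.resLE L ρ h).map2 x = 0 → x = 0)
    (V : Subgroup H) (hV : L.IsOpen V) (x : H2 (L.sub V) (rsub ρ V)) (hx : Q V x) : x = 0 := by
  -- open subgroups have nonzero relative index
  have hfin : ∀ (N W : Subgroup H), L.IsOpen N → N.relIndex W ≠ 0 := by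
    intro N W hN
    obtain ⟨M, _, hMN, _, hMf⟩ := L.exists_normal hN
    have : N.FiniteIndex := Subgroup.finiteIndex_of_le hMN
    exact Subgroup.FiniteIndex.index_ne_zero (H := N.subgroupOf W)
  -- Step 2
  have step2 : ∀ (N0 : Subgroup H), L.IsOpen N0 → ∀ (n : ℕ) (W : Subgroup H) (hNW : N0 ≤ W),
      W ≤ K0 → (N0.subgroupOf W).Normal → N0.relIndex W = p ^ n →
      ∀ y : H2 (L.sub W) (rsub ρ W), Q W y → (Pair.resLE L ρ hNW).map2 y = 0 → y = 0 := by
    intro N0 hN0 n
    induction n with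
    | zero =>
      intro W hNW hWK hn hi y hy h0
      have hW : L.IsOpen W := L.isOpen_mono hN0 hNW
      have hinj := Pair.resLE_injective2 L ρ hNW ((L.isOpen_subgroupOf_iff hNW hW).mpr hN0) (by
        have h1 : (N0.subgroupOf W).index = 1 := by simpa using hi
        rw [h1]
        simp)
      exact hinj (by rw [h0, map_zero])
    | succ n ih =>
      intro W hNW hWK hn hi y hy h0
      obtain ⟨W1, hN1, h1W, hW1n, hW1i, hN1n, hN1i⟩ :=
        SylowDev.exists_normal_index_p_flat hNW hn hi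
      have hW : L.IsOpen W := L.isOpen_mono hN0 hNW
      have hW1 : L.IsOpen W1 := L.isOpen_mono hN0 hN1
      apply hstep W W1 h1W hW hW1 hWK hW1n hW1i y hy
      apply ih W1 hN1 (h1W.trans hWK) hN1n hN1i _ (hres W1 W h1W y hy)
      rw [Pair.resLE_resLE_map2]
      exact h0
  -- Step 1
  have step1 : ∀ (V : Subgroup H), L.IsOpen V → V ≤ K0 →
      ∀ x : H2 (L.sub V) (rsub ρ V), Q V x → x = 0 := by
    intro V hV hVK x hx
    obtain ⟨N0, hNV, hNo, hNn, hN0⟩ := exists_resLE_eq_zero2 L ρ x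
    have hN0o : L.IsOpen N0 := (L.isOpen_subgroupOf_iff hNV hV).mp hNo
    obtain ⟨P, hNP, hPV, hPi, hNPn, n, hn⟩ :=
      SylowDev.exists_sylow_preimage_flat (p := p) hNV hNn (hfin N0 V hN0o)
    have hPo : L.IsOpen P := L.isOpen_mono hN0o hNP
    have hinj := Pair.resLE_injective2 L ρ hPV ((L.isOpen_subgroupOf_iff hPV hV).mpr hPo)
      (SylowDev.isUnit_natCast_of_not_dvd hPi)
    apply hinj
    rw [map_zero]
    apply step2 N0 hN0o n P hNP (hPV.trans hVK) hNPn hn _ (hres P V hPV x hx)
    rw [Pair.resLE_resLE_map2]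
    exact hN0
  -- Step 0
  have hle : V ⊓ K0 ≤ V := inf_le_left
  have hVo : L.IsOpen (V ⊓ K0) := L.isOpen_inf hV hK0
  have hidx : ¬ p ∣ ((V ⊓ K0).subgroupOf V).index := by
    change ¬ p ∣ (V ⊓ K0).relIndex V
    rw [Subgroup.inf_relIndex_left]
    exact fun h => hK0i (h.trans (Subgroup.relIndex_dvd_index_of_normal K0 V))
  apply Pair.resLE_injective2 L ρ hle ((L.isOpen_subgroupOf_iff hle hV).mpr hVo)
    (SylowDev.isUnit_natCast_of_not_dvd hidx)
  rw [map_zero]
  exact step1 _ hVo inf_le_right _ (hres _ V hle x hx)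

end Fermat.Agent.S55

end
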