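import Fermat.Agent.S55.Coh.Func

/-!
# S55 (A0a): basic lemmas on levels and level functions
TASK S55/A-Level.
-/

set_option autoImplicit false

noncomputable section

namespace Fermat.Agent.S55

variable {H H' : Type} [Group H] [Group H']

namespace Levels

variable {L : Levels H} {Y Y' : Type}

lemma IsOpen.finiteIndex {U : Subgroup H} (hU : L.IsOpen U) : U.FiniteIndex := by
  obtain ⟨N, -, hNU, -, hNf⟩ := L.exists_normal hU
  exact Subgroup.finiteIndex_of_le hNU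

lemma IsOpen.conj {U : Subgroup H} (hU : L.IsOpen U) (g : H) :
    L.IsOpen (U.map (MulAut.conj g).toMonoidHom) := by
  obtain ⟨N, hN, hNU, hNn, -⟩ := L.exists_normal hU
  refine L.isOpen_mono hN (fun x hx => ?_)
  refine ⟨g⁻¹ * x * g, hNU ?_, ?_⟩
  · simpa using hNn.conj_mem x hx g⁻¹
  · simp [mul_assoc]

lemma IsOpen.normalCore {U : Subgroup H} (hU : L.IsOpen U) : L.IsOpen U.normalCore := by
  obtain ⟨N, hN, hNU, hNn, -⟩ := L.exists_normal hU
  exact L.isOpen_mono hN ((Subgroup.normal_le_normalCore).2 hNU)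

lemma isOpen_iInf {ι : Type} [Finite ι] {U : ι → Subgroup H} (hU : ∀ i, L.IsOpen (U i)) :
    L.IsOpen (⨅ i, U i) := by
  induction ι using Finite.induction_empty_option with
  | of_equiv e ih =>
    rw [← e.iInf_comp]
    exact ih (fun i => hU (e i))
  | h_empty => rw [iInf_of_empty]; exact L.isOpen_top
  | h_option ih =>
    rw [iInf_option]
    exact L.isOpen_inf (hU none) (ih (fun i => hU (some i)))

/-- open subgroups of a subgroup `V`, in terms of subgroups of `H`. -/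
lemma isOpen_sub_iff {V : Subgroup H} {W : Subgroup V} :
    (L.sub V).IsOpen W ↔ ∃ U : Subgroup H, L.IsOpen U ∧ U.subgroupOf V ≤ W := Iff.rfl

lemma IsOpen.subgroupOf {U : Subgroup H} (hU : L.IsOpen U) (V : Subgroup H) :
    (L.sub V).IsOpen (U.subgroupOf V) := ⟨U, hU, le_rfl⟩

/-- if `V` is open in `H`, then an open subgroup of `V` is open in `H`. -/
lemma IsOpen.map_subtype {V : Subgroup H} (hV : L.IsOpen V) {W : Subgroup V}
    (hW : (L.sub V).IsOpen W) : L.IsOpen (W.map V.subtype) := by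
  obtain ⟨U, hU, hle⟩ := hW
  refine L.isOpen_mono (L.isOpen_inf hU hV) (fun x hx => ?_)
  exact ⟨⟨x, hx.2⟩, hle (show ((⟨x, hx.2⟩ : V) : H) ∈ U from hx.1), rfl⟩

lemma IsLevel₁.exists_normal {f : H → Y} (hf : L.IsLevel₁ f) :
    ∃ N : Subgroup H, L.IsOpen N ∧ N.Normal ∧ N.FiniteIndex ∧
      (∀ g, ∀ s ∈ N, f (g * s) = f g) ∧ (∀ g, ∀ s ∈ N, f (s * g) = f g) := by
  obtain ⟨U, hU, h⟩ := hf
  obtain ⟨N, hN, hNU, hNn, hNf⟩ := L.exists_normal hU
  refine ⟨N, hN, hNn, hNf, fun g s hs => h g s (hNU hs), fun g s hs => ?_⟩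
  have : s * g = g * (g⁻¹ * s * g) := by group
  rw [this]
  exact h g _ (hNU (by simpa using hNn.conj_mem s hs g⁻¹))

lemma IsLevel₂.exists_normal {f : H × H → Y} (hf : L.IsLevel₂ f) :
    ∃ N : Subgroup H, L.IsOpen N ∧ N.Normal ∧ N.FiniteIndex ∧
      (∀ g g', ∀ s ∈ N, ∀ s' ∈ N, f (g * s, g' * s') = f (g, g')) ∧
      (∀ g g', ∀ s ∈ N, ∀ s' ∈ N, f (s * g, s' * g') = f (g, g')) := by
  obtain ⟨U, hU, h⟩ := hf
  obtain ⟨N, hN, hNU, hNn, hNf⟩ := L.exists_normal hU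
  refine ⟨N, hN, hNn, hNf, fun g g' s hs s' hs' => h g g' s (hNU hs) s' (hNU hs'),
    fun g g' s hs s' hs' => ?_⟩
  have e1 : s * g = g * (g⁻¹ * s * g) := by group
  have e2 : s' * g' = g' * (g'⁻¹ * s' * g') := by group
  rw [e1, e2]
  exact h g g' _ (hNU (by simpa using hNn.conj_mem s hs g⁻¹)) _
    (hNU (by simpa using hNn.conj_mem s' hs' g'⁻¹))

lemma IsLevel₁.finite_range {f : H → Y} (hf : L.IsLevel₁ f) : (Set.range f).Finite := by
  obtain ⟨N, -, -, hNf, h, -⟩ := hf.exists_normal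
  have : Finite (H ⧸ N) := Subgroup.finite_quotient_of_finiteIndex
  refine (Set.finite_range (fun q : H ⧸ N => f q.out)).subset ?_
  rintro _ ⟨g, rfl⟩
  obtain ⟨u, hu⟩ := QuotientGroup.mk_out_eq_mul N g
  exact ⟨(g : H ⧸ N), by simp only [hu, h g u u.2]⟩

lemma IsLevel₂.finite_range {f : H × H → Y} (hf : L.IsLevel₂ f) : (Set.range f).Finite := by
  obtain ⟨N, -, -, hNf, h, -⟩ := hf.exists_normal
  have : Finite (H ⧸ N) := Subgroup.finite_quotient_of_finiteIndex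
  refine (Set.finite_range (fun q : (H ⧸ N) × (H ⧸ N) => f (q.1.out, q.2.out))).subset ?_
  rintro _ ⟨⟨g, g'⟩, rfl⟩
  obtain ⟨u, hu⟩ := QuotientGroup.mk_out_eq_mul N g
  obtain ⟨u', hu'⟩ := QuotientGroup.mk_out_eq_mul N g'
  exact ⟨((g : H ⧸ N), (g' : H ⧸ N)), by simp only [hu, hu', h g g' u u.2 u' u'.2]⟩

lemma IsLevel₁.comp {f : H → Y} (hf : L.IsLevel₁ f) (φ : Y → Y') : L.IsLevel₁ (φ ∘ f) := by
  obtain ⟨U, hU, h⟩ := hf
  exact ⟨U, hU, fun g s hs => by simp only [Function.comp_apply, h g s hs]⟩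

lemma IsLevel₂.comp {f : H × H → Y} (hf : L.IsLevel₂ f) (φ : Y → Y') : L.IsLevel₂ (φ ∘ f) := by
  obtain ⟨U, hU, h⟩ := hf
  exact ⟨U, hU, fun g g' s hs s' hs' => by simp only [Function.comp_apply, h g g' s hs s' hs']⟩

lemma IsLevel₁.of_comp {f : H → Y} {φ : Y → Y'} (hφ : Function.Injective φ)
    (hf : L.IsLevel₁ (φ ∘ f)) : L.IsLevel₁ f := by
  obtain ⟨U, hU, h⟩ := hf
  exact ⟨U, hU, fun g s hs => hφ (h g s hs)⟩

lemma IsLevel₂.of_comp {f : H × H → Y} {φ : Y → Y'} (hφ : Function.Injective φ)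
    (hf : L.IsLevel₂ (φ ∘ f)) : L.IsLevel₂ f := by
  obtain ⟨U, hU, h⟩ := hf
  exact ⟨U, hU, fun g g' s hs s' hs' => hφ (h g g' s hs s' hs')⟩

lemma isLevel₁_const (L : Levels H) (y : Y) : L.IsLevel₁ (fun _ : H => y) :=
  ⟨⊤, L.isOpen_top, fun _ _ _ => rfl⟩

lemma isLevel₂_const (L : Levels H) (y : Y) : L.IsLevel₂ (fun _ : H × H => y) :=
  ⟨⊤, L.isOpen_top, fun _ _ _ _ _ _ => rfl⟩

/-- two level functions are level with respect to a common open normal subgroup: pairing. -/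
lemma IsLevel₁.prodMk {f : H → Y} {f' : H → Y'} (hf : L.IsLevel₁ f) (hf' : L.IsLevel₁ f') :
    L.IsLevel₁ (fun g => (f g, f' g)) := by
  obtain ⟨U, hU, h⟩ := hf
  obtain ⟨U', hU', h'⟩ := hf'
  exact ⟨U ⊓ U', L.isOpen_inf hU hU', fun g s hs => by
    simp only [h g s hs.1, h' g s hs.2]⟩

lemma IsLevel₂.prodMk {f : H × H → Y} {f' : H × H → Y'} (hf : L.IsLevel₂ f)
    (hf' : L.IsLevel₂ f') : L.IsLevel₂ (fun g => (f g, f' g)) := by
  obtain ⟨U, hU, h⟩ := hf
  obtain ⟨U', hU', h'⟩ := hf'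
  exact ⟨U ⊓ U', L.isOpen_inf hU hU', fun g g' s hs s' hs' => by
    simp only [h g g' s hs.1 s' hs'.1, h' g g' s hs.2 s' hs'.2]⟩

/-- 2-variable functions built from level 1-variable functions. -/
lemma IsLevel₁.fst {f : H → Y} (hf : L.IsLevel₁ f) : L.IsLevel₂ (fun g : H × H => f g.1) := by
  obtain ⟨U, hU, h⟩ := hf
  exact ⟨U, hU, fun g _ s hs _ _ => h g s hs⟩

lemma IsLevel₁.snd {f : H → Y} (hf : L.IsLevel₁ f) : L.IsLevel₂ (fun g : H × H => f g.2) := by
  obtain ⟨U, hU, h⟩ := hf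
  exact ⟨U, hU, fun _ g' _ _ s' hs' => h g' s' hs'⟩

lemma IsLevel₁.mul {f : H → Y} (hf : L.IsLevel₁ f) :
    L.IsLevel₂ (fun g : H × H => f (g.1 * g.2)) := by
  obtain ⟨N, hN, hNn, -, h, -⟩ := hf.exists_normal
  refine ⟨N, hN, fun g g' s hs s' hs' => ?_⟩
  have : g * s * (g' * s') = g * g' * ((g'⁻¹ * s * g') * s') := by group
  simp only [this]
  exact h _ _ (N.mul_mem (by simpa using hNn.conj_mem s hs g'⁻¹) hs')

/-- a group homomorphism to any group is level iff its kernel is open. -/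
lemma isLevel₁_monoidHom_iff {K : Type} [Group K] (χ : H →* K) :
    L.IsLevel₁ χ ↔ L.IsOpen χ.ker := by
  constructor
  · rintro ⟨U, hU, h⟩
    refine L.isOpen_mono hU (fun s hs => ?_)
    have := h 1 s hs
    rw [MonoidHom.mem_ker]
    simpa using this
  · intro h
    exact ⟨χ.ker, h, fun g s hs => by rw [map_mul, MonoidHom.mem_ker.1 hs, mul_one]⟩

instance smoothSet_quotient (N : Subgroup H) [hN : Fact (L.IsOpen N)] : L.SmoothSet (H ⧸ N) := by
  constructor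
  intro w
  obtain ⟨M, hM, hMN, hMn, -⟩ := L.exists_normal hN.out
  refine L.isOpen_mono hM (fun s hs => ?_)
  obtain ⟨g, rfl⟩ := QuotientGroup.mk_surjective w
  rw [MulAction.mem_stabilizer_iff]
  change ((s * g : H) : H ⧸ N) = g
  rw [eq_comm, QuotientGroup.eq]
  refine hMN ?_
  have : g⁻¹ * (s * g) = g⁻¹ * s * g := by group
  rw [this]
  simpa using hMn.conj_mem s hs g⁻¹

lemma smoothSet_quotient' {N : Subgroup H} (hN : L.IsOpen N) : L.SmoothSet (H ⧸ N) :=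
  haveI : Fact (L.IsOpen N) := ⟨hN⟩; inferInstance

lemma finite_quotient {N : Subgroup H} (hN : L.IsOpen N) : Finite (H ⧸ N) :=
  haveI := hN.finiteIndex
  Subgroup.finite_quotient_of_finiteIndex

/-- a smooth `H`-set restricted to a subgroup is smooth. -/
instance smoothSet_sub (Ω : Type) [MulAction H Ω] [L.SmoothSet Ω] (V : Subgroup H) :
    (L.sub V).SmoothSet Ω := by
  constructor
  intro w
  refine ⟨MulAction.stabilizer H w, SmoothSet.isOpen_stabilizer w, fun s hs => ?_⟩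
  exact hs

end Levels

end Fermat.Agent.S55

end
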