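import Fermat.Agent.S55.Coh.Natural

/-!
# S55 (A1''): change of the coefficient ring `k ↝ ℤ`
TASK S55/A-IntCoeff.
The level cohomology groups of `ρ : Representation k H X` and of the same action seen as a
`ℤ`-representation are the same additive groups (needed for `ι : μ_p → Qbar^×`).
-/

set_option autoImplicit false

noncomputable section

namespace Fermat.Agent.S55

variable {k : Type} [CommRing k] {H H' : Type} [Group H] [Group H']
variable {X X' : Type} [AddCommGroup X] [Module k X] [AddCommGroup X'] [Module k X']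

/-- the same action, seen as a `ℤ`-linear representation. -/
def toInt (ρ : Representation k H X) : Representation ℤ H X where
  toFun g := (ρ g).toAddMonoidHom.toIntLinearMap
  map_one' := by ext x; simp
  map_mul' g h := by ext x; simp

@[simp] lemma toInt_apply (ρ : Representation k H X) (g : H) (x : X) : toInt ρ g x = ρ g x := rfl

variable (L : Levels H) (ρ : Representation k H X)

instance Smooth.toInt [Smooth L ρ] : Smooth L (toInt ρ) :=
  ⟨fun x => Smooth.exists_isOpen (ρ := ρ) x⟩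

lemma mem_H0_toInt {x : X} : x ∈ H0 (toInt ρ) ↔ x ∈ H0 ρ := Iff.rfl

lemma mem_Z1_toInt {z : H → X} : z ∈ Z1 L (toInt ρ) ↔ z ∈ Z1 L ρ := by
  rw [mem_Z1, mem_Z1]; rfl

lemma mem_Z2_toInt {z : H × H → X} : z ∈ Z2 L (toInt ρ) ↔ z ∈ Z2 L ρ := by
  rw [mem_Z2, mem_Z2]; rfl

/-- quotients of modules over different rings by "the same" submodule. -/
lemma IntCoeff.exists_quot_equiv {R S M M' : Type} [Ring R] [Ring S] [AddCommGroup M] [Module R M]
    [AddCommGroup M'] [Module S M'] (p : Submodule R M) (q : Submodule S M') (e : M ≃+ M')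
    (h : ∀ x, x ∈ p ↔ e x ∈ q) :
    ∃ E : (M ⧸ p) ≃+ (M' ⧸ q), ∀ x, E (p.mkQ x) = q.mkQ (e x) := by
  have he : p.toAddSubgroup.map (e : M →+ M') = q.toAddSubgroup := by
    ext y
    constructor
    · rintro ⟨x, hx, rfl⟩
      exact (h x).1 hx
    · intro hy
      refine ⟨e.symm y, (h _).2 ?_, by simp⟩
      rw [e.apply_symm_apply]
      exact hy
  exact ⟨QuotientAddGroup.congr p.toAddSubgroup q.toAddSubgroup e he, fun x => rfl⟩

theorem exists_intEquiv1 : ∃ e : H1 L ρ ≃+ H1 L (toInt ρ), ∀ z : ↥(Z1 L ρ),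
    e (H1.mk L ρ z) = H1.mk L (toInt ρ) ⟨z, (mem_Z1_toInt L ρ).2 z.2⟩ := by
  let e : ↥(Z1 L ρ) ≃+ ↥(Z1 L (toInt ρ)) :=
    { toFun := fun z => ⟨z, (mem_Z1_toInt L ρ).2 z.2⟩
      invFun := fun z => ⟨z, (mem_Z1_toInt L ρ).1 z.2⟩
      left_inv := fun _ => rfl
      right_inv := fun _ => rfl
      map_add' := fun _ _ => rfl }
  refine IntCoeff.exists_quot_equiv _ _ e (fun z => ?_)
  rw [Submodule.mem_comap, Submodule.mem_comap]
  change (z : H → X) ∈ B1 ρ ↔ (z : H → X) ∈ B1 (toInt ρ)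
  rw [mem_B1, mem_B1]
  rfl

theorem exists_intEquiv2 : ∃ e : H2 L ρ ≃+ H2 L (toInt ρ), ∀ z : ↥(Z2 L ρ),
    e (H2.mk L ρ z) = H2.mk L (toInt ρ) ⟨z, (mem_Z2_toInt L ρ).2 z.2⟩ := by
  let e : ↥(Z2 L ρ) ≃+ ↥(Z2 L (toInt ρ)) :=
    { toFun := fun z => ⟨z, (mem_Z2_toInt L ρ).2 z.2⟩
      invFun := fun z => ⟨z, (mem_Z2_toInt L ρ).1 z.2⟩
      left_inv := fun _ => rfl
      right_inv := fun _ => rfl
      map_add' := fun _ _ => rfl }
  refine IntCoeff.exists_quot_equiv _ _ e (fun z => ?_)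
  rw [Submodule.mem_comap, Submodule.mem_comap]
  change (z : H × H → X) ∈ B2 L ρ ↔ (z : H × H → X) ∈ B2 L (toInt ρ)
  rw [mem_B2, mem_B2]
  rfl

/-- `H^0` over `k` and over `ℤ`. -/
def intEquiv0 : ↥(H0 ρ) ≃+ ↥(H0 (toInt ρ)) where
  toFun x := ⟨x, x.2⟩
  invFun x := ⟨x, x.2⟩
  left_inv _ := rfl
  right_inv _ := rfl
  map_add' _ _ := rfl

/-- `H^1` over `k` and over `ℤ`. -/
def intEquiv1 : H1 L ρ ≃+ H1 L (toInt ρ) := Classical.choose (exists_intEquiv1 L ρ)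

/-- `H^2` over `k` and over `ℤ`. -/
def intEquiv2 : H2 L ρ ≃+ H2 L (toInt ρ) := Classical.choose (exists_intEquiv2 L ρ)

lemma intEquiv1_mk (z : ↥(Z1 L ρ)) :
    intEquiv1 L ρ (H1.mk L ρ z) = H1.mk L (toInt ρ) ⟨z, (mem_Z1_toInt L ρ).2 z.2⟩ :=
  Classical.choose_spec (exists_intEquiv1 L ρ) z

lemma intEquiv2_mk (z : ↥(Z2 L ρ)) :
    intEquiv2 L ρ (H2.mk L ρ z) = H2.mk L (toInt ρ) ⟨z, (mem_Z2_toInt L ρ).2 z.2⟩ :=
  Classical.choose_spec (exists_intEquiv2 L ρ) z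

variable {L ρ}

/-- a compatible pair, seen over `ℤ`. -/
def Pair.toInt {L' : Levels H'} {ρ' : Representation k H' X'} (P : Pair L ρ L' ρ') :
    Pair L (Fermat.Agent.S55.toInt ρ) L' (Fermat.Agent.S55.toInt ρ') where
  f := P.f
  φ := P.φ.toAddMonoidHom.toIntLinearMap
  cont := P.cont
  compat := P.compat

lemma Pair.toInt_map0 {L' : Levels H'} {ρ' : Representation k H' X'} (P : Pair L ρ L' ρ')
    (x : ↥(H0 ρ)) : P.toInt.map0 (intEquiv0 ρ x) = intEquiv0 ρ' (P.map0 x) := rfl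

lemma Pair.toInt_map1 {L' : Levels H'} {ρ' : Representation k H' X'} (P : Pair L ρ L' ρ')
    (x : H1 L ρ) : P.toInt.map1 (intEquiv1 L ρ x) = intEquiv1 L' ρ' (P.map1 x) := by
  obtain ⟨z, rfl⟩ := H1.mk_surjective L ρ x
  rw [intEquiv1_mk, Pair.map1_mk, Pair.map1_mk, intEquiv1_mk]
  rfl

lemma Pair.toInt_map2 {L' : Levels H'} {ρ' : Representation k H' X'} (P : Pair L ρ L' ρ')
    (x : H2 L ρ) : P.toInt.map2 (intEquiv2 L ρ x) = intEquiv2 L' ρ' (P.map2 x) := by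
  obtain ⟨z, rfl⟩ := H2.mk_surjective L ρ x
  rw [intEquiv2_mk, Pair.map2_mk, Pair.map2_mk, intEquiv2_mk]
  rfl

section SES
variable {A B C : Type} [AddCommGroup A] [Module k A] [AddCommGroup B] [Module k B]
  [AddCommGroup C] [Module k C]
variable {ρA : Representation k H A} {ρB : Representation k H B} {ρC : Representation k H C}

/-- a SES seen over `ℤ`. -/
def SES.toInt (E : SES ρA ρB ρC) :
    SES (Fermat.Agent.S55.toInt ρA) (Fermat.Agent.S55.toInt ρB) (Fermat.Agent.S55.toInt ρC) where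
  i := E.i.toAddMonoidHom.toIntLinearMap
  π := E.π.toAddMonoidHom.toIntLinearMap
  i_comm := E.i_comm
  π_comm := E.π_comm
  inj := E.inj
  surj := E.surj
  exact := E.exact

lemma SES.toInt_δ0 (E : SES ρA ρB ρC) (L : Levels H) [Smooth L ρB] (c : ↥(H0 ρC)) :
    E.toInt.δ0 L (intEquiv0 ρC c) = intEquiv1 L ρA (E.δ0 L c) := by
  obtain ⟨b, hb⟩ := E.surj c
  obtain ⟨z, hz⟩ := E.exists_δ0 L c b hb
  rw [E.δ0_eq L c b hb z hz, intEquiv1_mk]
  exact E.toInt.δ0_eq L (intEquiv0 ρC c) b hb ⟨z, (mem_Z1_toInt L ρA).2 z.2⟩ hz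

lemma SES.toInt_δ1 (E : SES ρA ρB ρC) (L : Levels H) [Smooth L ρB] (c : H1 L ρC) :
    E.toInt.δ1 L (intEquiv1 L ρC c) = intEquiv2 L ρA (E.δ1 L c) := by
  obtain ⟨c, rfl⟩ := H1.mk_surjective L ρC c
  obtain ⟨y, hy, hyc⟩ := E.exists_lift₁ L (c : H → C) ((mem_Z1.1 c.2).2)
  obtain ⟨z, hz⟩ := E.exists_δ1 L c y hy hyc
  rw [E.δ1_eq L c y hy hyc z hz, intEquiv2_mk, intEquiv1_mk]
  exact E.toInt.δ1_eq L ⟨c, (mem_Z1_toInt L ρC).2 c.2⟩ y hy hyc
    ⟨z, (mem_Z2_toInt L ρA).2 z.2⟩ hz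

end SES

end Fermat.Agent.S55

end
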