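import Fermat.Agent.S55.Coh.Shapiro

/-!
# S55 (A5a): inner conjugation acts trivially on level cohomology
TASK S55/A-Conj.
i=0 trivial; i=1: `g⁻¹ z(g h g⁻¹) = z h - (h m - m)`-type formula with `m = g⁻¹ z(g)`;
i=2: dimension shifting (`exists_efface2`, `constSES`, naturality) or the explicit homotopy.
-/

set_option autoImplicit false

noncomputable section

namespace Fermat.Agent.S55

variable {k : Type} [CommRing k] {H : Type} [Group H]
variable {X : Type} [AddCommGroup X] [Module k X]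
variable (L : Levels H) (ρ : Representation k H X)

/-- conjugation by `g` on the whole group: `f h = g h g⁻¹`, `φ = ρ g⁻¹`. -/
def Pair.conjTop (g : H) : Pair L ρ L ρ where
  f := (MulAut.conj g).toMonoidHom
  φ := ρ g⁻¹
  cont := by
    intro U hU
    obtain ⟨N, hN, hNU, hNn, -⟩ := L.exists_normal hU
    refine L.isOpen_mono hN (fun x hx => hNU ?_)
    simpa using hNn.conj_mem _ hx g
  compat v x := by
    change ρ g⁻¹ (ρ (g * v * g⁻¹) x) = ρ v (ρ g⁻¹ x)
    rw [← Module.End.mul_apply, ← Module.End.mul_apply, ← map_mul, ← map_mul]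
    congr 2
    group


namespace Conj

variable {L ρ}

lemma z1_one {z : H → X} (hz : z ∈ Z1 L ρ) : z 1 = 0 := by
  have h := (mem_Z1.1 hz).1 1 1
  simpa using h

lemma z1_inv {z : H → X} (hz : z ∈ Z1 L ρ) (g : H) : z g⁻¹ = - ρ g⁻¹ (z g) := by
  have h := (mem_Z1.1 hz).1 g⁻¹ g
  rw [inv_mul_cancel, z1_one hz] at h
  rw [eq_neg_iff_add_eq_zero, add_comm]
  exact h.symm

lemma rho_inv_rho (g : H) (x : X) : ρ g⁻¹ (ρ g x) = x := by
  rw [← Module.End.mul_apply, ← map_mul, inv_mul_cancel, map_one, Module.End.one_apply]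

lemma rho_mul_apply (g h : H) (x : X) : ρ (g * h) x = ρ g (ρ h x) := by
  rw [map_mul, Module.End.mul_apply]

/-- degree one formula. -/
lemma z1_conj {z : H → X} (hz : z ∈ Z1 L ρ) (g a : H) :
    ρ g⁻¹ (z (g * a * g⁻¹)) = z a - (ρ a (ρ g⁻¹ (z g)) - ρ g⁻¹ (z g)) := by
  have h := (mem_Z1.1 hz).1
  rw [h (g * a) g⁻¹, h g a, z1_inv hz, map_add, map_add, map_neg, map_neg, rho_inv_rho,
    ← rho_mul_apply, ← rho_mul_apply, ← rho_mul_apply]
  have e : g⁻¹ * (g * a) * g⁻¹ = a * g⁻¹ := by group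
  rw [e]
  abel

/-- the homotopy in degree two. -/
def hty (ρ : Representation k H X) (g : H) (z : H × H → X) : H → X :=
  fun a => ρ g⁻¹ (z (g * a * g⁻¹, g) - z (g, a))

lemma hty_isLevel (g : H) {z : H × H → X} (hz : L.IsLevel₂ z) : L.IsLevel₁ (hty ρ g z) := by
  obtain ⟨U, hU, h⟩ := hz
  obtain ⟨N, hN, hNU, hNn, -⟩ := L.exists_normal hU
  refine ⟨N, hN, fun a s hs => ?_⟩
  have h1 : z (g * (a * s) * g⁻¹, g) = z (g * a * g⁻¹, g) := by
    have := h (g * a * g⁻¹) g (g * s * g⁻¹) (hNU (hNn.conj_mem _ hs g)) 1 U.one_mem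
    rw [mul_one] at this
    rw [← this]
    congr 2
    group
  have h2 : z (g, a * s) = z (g, a) := by
    have := h g a 1 U.one_mem s (hNU hs)
    rwa [mul_one] at this
  simp only [hty, h1, h2]

lemma z2_conj {z : H × H → X} (hz : z ∈ Z2 L ρ) (g a b : H) :
    ρ g⁻¹ (z (g * a * g⁻¹, g * b * g⁻¹)) - z (a, b) =
      ρ a (hty ρ g z b) - hty ρ g z (a * b) + hty ρ g z a := by
  have h := (mem_Z2.1 hz).1
  have h1 := h g a b
  have h2 := h (g * a * g⁻¹) g b
  have h3 := h (g * a * g⁻¹) (g * b * g⁻¹) g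
  have e1 : g * a * g⁻¹ * g = g * a := by group
  have e2 : g * b * g⁻¹ * g = g * b := by group
  have e3 : g * a * g⁻¹ * (g * b * g⁻¹) = g * (a * b) * g⁻¹ := by group
  rw [e1] at h2
  rw [e2, e3] at h3
  -- apply `ρ g` to both sides
  have inj : Function.Injective (ρ g) := by
    intro x y hxy
    have := congrArg (ρ g⁻¹) hxy
    rwa [rho_inv_rho, rho_inv_rho] at this
  apply inj
  have hg : ∀ x : X, ρ g (ρ g⁻¹ x) = x := by
    intro x
    have := rho_inv_rho (ρ := ρ) g⁻¹ x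
    rwa [inv_inv] at this
  have hga : ∀ x : X, ρ g (ρ a (ρ g⁻¹ x)) = ρ (g * a * g⁻¹) x := by
    intro x
    rw [rho_mul_apply, rho_mul_apply]
  simp only [hty, map_sub, map_add, hg, hga]
  have h1' : ρ g (z (a, b)) = z (g * a, b) + z (g, a) - z (g, a * b) := by
    rw [← h1]; abel
  have h2' : ρ (g * a * g⁻¹) (z (g, b)) = z (g * a, b) + z (g * a * g⁻¹, g)
      - z (g * a * g⁻¹, g * b) := by
    rw [← h2]; abel
  have h3' : ρ (g * a * g⁻¹) (z (g * b * g⁻¹, g)) = z (g * (a * b) * g⁻¹, g)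
      + z (g * a * g⁻¹, g * b * g⁻¹) - z (g * a * g⁻¹, g * b) := by
    rw [← h3]; abel
  rw [h1', h2', h3']
  abel

end Conj

/-- degree two without smoothness. -/
theorem Conj.conjTop_map2' (g : H) : (Pair.conjTop L ρ g).map2 = LinearMap.id := by
  apply Submodule.linearMap_qext
  ext z
  simp only [LinearMap.comp_apply, LinearMap.id_apply]
  change H2.mk L ρ ((Pair.conjTop L ρ g).z2 z) = H2.mk L ρ z
  rw [← sub_eq_zero, ← map_sub, H2.mk_eq_zero_iff]
  refine ⟨Conj.hty ρ g z, Conj.hty_isLevel g (mem_Z2.1 z.2).2, fun a b => ?_⟩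
  exact Conj.z2_conj z.2 g a b

theorem conjTop_map0 (g : H) : (Pair.conjTop L ρ g).map0 = LinearMap.id := by
  ext x
  have hx : ρ g⁻¹ (x : X) = x := x.2 g⁻¹
  simpa [Pair.conjTop] using hx

theorem conjTop_map1 (g : H) : (Pair.conjTop L ρ g).map1 = LinearMap.id := by
  apply Submodule.linearMap_qext
  ext z
  simp only [LinearMap.comp_apply, LinearMap.id_apply]
  change H1.mk L ρ ((Pair.conjTop L ρ g).z1 z) = H1.mk L ρ z
  rw [← sub_eq_zero, ← map_sub, H1.mk_eq_zero_iff]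
  refine ⟨- ρ g⁻¹ ((z : H → X) g), fun a => ?_⟩
  have h := Conj.z1_conj z.2 g a
  change ρ g⁻¹ ((z : H → X) (g * a * g⁻¹)) - (z : H → X) a = _
  rw [h, map_neg]
  abel

theorem conjTop_map2 [Smooth L ρ] (g : H) : (Pair.conjTop L ρ g).map2 = LinearMap.id := by
  exact Conj.conjTop_map2' L ρ g

/-- conjugation by an element of `V` is trivial on `H^i(V;X)`. -/
theorem conj_self_map0 {V : Subgroup H} (g : H) (hg : g ∈ V) :
    (Pair.conj L ρ g (V := V) (V' := V)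
      (fun v hv => V.mul_mem (V.mul_mem hg hv) (V.inv_mem hg))).map0 = LinearMap.id := by
  rw [← conjTop_map0 (L.sub V) (rsub ρ V) ⟨g, hg⟩]
  exact Pair.map0_congr (by ext _; rfl) rfl

theorem conj_self_map1 {V : Subgroup H} (g : H) (hg : g ∈ V) :
    (Pair.conj L ρ g (V := V) (V' := V)
      (fun v hv => V.mul_mem (V.mul_mem hg hv) (V.inv_mem hg))).map1 = LinearMap.id := by
  rw [← conjTop_map1 (L.sub V) (rsub ρ V) ⟨g, hg⟩]
  exact Pair.map1_congr (by ext _; rfl) rfl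

theorem conj_self_map2 [Smooth L ρ] {V : Subgroup H} (g : H) (hg : g ∈ V) :
    (Pair.conj L ρ g (V := V) (V' := V)
      (fun v hv => V.mul_mem (V.mul_mem hg hv) (V.inv_mem hg))).map2 = LinearMap.id := by
  rw [← Conj.conjTop_map2' (L.sub V) (rsub ρ V) ⟨g, hg⟩]
  exact Pair.map2_congr (by ext _; rfl) rfl

variable (Ω : Type) [MulAction H Ω]

/-- `c_g ∘ sh_{g x} = sh_x`. -/
theorem conj_ev0 (g : H) {V V' : Subgroup H} (h : ∀ v ∈ V', g * v * g⁻¹ ∈ V) (x : Ω)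
    (hx : ∀ v ∈ V, v • (g • x) = g • x) (hx' : ∀ v ∈ V', v • x = x)
    (y : ↥(H0 (Fun ρ Ω))) :
    (Pair.conj L ρ g h).map0 ((Pair.ev L ρ Ω V (g • x) hx).map0 y) =
      (Pair.ev L ρ Ω V' x hx').map0 y := by
  have e : ((Pair.conj L ρ g h).comp (Pair.ev L ρ Ω V (g • x) hx)).map0 =
      ((Pair.ev L ρ Ω V' x hx').comp (Pair.conjTop L (Fun ρ Ω) g)).map0 :=
    Pair.map0_congr (by ext _; rfl) (by ext F; simp [Pair.comp, Pair.conj, Pair.ev, Pair.conjTop])
  rw [Pair.map0_comp, Pair.map0_comp, conjTop_map0] at e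
  exact congrArg (fun F => F y) e

theorem conj_ev1 (g : H) {V V' : Subgroup H} (h : ∀ v ∈ V', g * v * g⁻¹ ∈ V) (x : Ω)
    (hx : ∀ v ∈ V, v • (g • x) = g • x) (hx' : ∀ v ∈ V', v • x = x)
    (y : H1 L (Fun ρ Ω)) :
    (Pair.conj L ρ g h).map1 ((Pair.ev L ρ Ω V (g • x) hx).map1 y) =
      (Pair.ev L ρ Ω V' x hx').map1 y := by
  have e : ((Pair.conj L ρ g h).comp (Pair.ev L ρ Ω V (g • x) hx)).map1 =
      ((Pair.ev L ρ Ω V' x hx').comp (Pair.conjTop L (Fun ρ Ω) g)).map1 :=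
    Pair.map1_congr (by ext _; rfl) (by ext F; simp [Pair.comp, Pair.conj, Pair.ev, Pair.conjTop])
  rw [Pair.map1_comp, Pair.map1_comp, conjTop_map1] at e
  exact congrArg (fun F => F y) e

theorem conj_ev2 [Smooth L ρ] [Finite Ω] [L.SmoothSet Ω] (g : H) {V V' : Subgroup H}
    (h : ∀ v ∈ V', g * v * g⁻¹ ∈ V) (x : Ω)
    (hx : ∀ v ∈ V, v • (g • x) = g • x) (hx' : ∀ v ∈ V', v • x = x)
    (y : H2 L (Fun ρ Ω)) :
    (Pair.conj L ρ g h).map2 ((Pair.ev L ρ Ω V (g • x) hx).map2 y) =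
      (Pair.ev L ρ Ω V' x hx').map2 y := by
  have e : ((Pair.conj L ρ g h).comp (Pair.ev L ρ Ω V (g • x) hx)).map2 =
      ((Pair.ev L ρ Ω V' x hx').comp (Pair.conjTop L (Fun ρ Ω) g)).map2 :=
    Pair.map2_congr (by ext _; rfl) (by ext F; simp [Pair.comp, Pair.conj, Pair.ev, Pair.conjTop])
  rw [Pair.map2_comp, Pair.map2_comp, Conj.conjTop_map2'] at e
  exact congrArg (fun F => F y) e

/-- `c_g ∘ res_V = res_{V'}`. -/
theorem conj_res0 (g : H) {V V' : Subgroup H} (h : ∀ v ∈ V', g * v * g⁻¹ ∈ V) (y : ↥(H0 ρ)) :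
    (Pair.conj L ρ g h).map0 ((Pair.res L ρ V).map0 y) = (Pair.res L ρ V').map0 y := by
  have e : ((Pair.conj L ρ g h).comp (Pair.res L ρ V)).map0 =
      ((Pair.res L ρ V').comp (Pair.conjTop L ρ g)).map0 :=
    Pair.map0_congr (by ext _; rfl) (by ext F; rfl)
  rw [Pair.map0_comp, Pair.map0_comp, conjTop_map0] at e
  exact congrArg (fun F => F y) e

theorem conj_res1 (g : H) {V V' : Subgroup H} (h : ∀ v ∈ V', g * v * g⁻¹ ∈ V) (y : H1 L ρ) :
    (Pair.conj L ρ g h).map1 ((Pair.res L ρ V).map1 y) = (Pair.res L ρ V').map1 y := by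
  have e : ((Pair.conj L ρ g h).comp (Pair.res L ρ V)).map1 =
      ((Pair.res L ρ V').comp (Pair.conjTop L ρ g)).map1 :=
    Pair.map1_congr (by ext _; rfl) (by ext F; rfl)
  rw [Pair.map1_comp, Pair.map1_comp, conjTop_map1] at e
  exact congrArg (fun F => F y) e

theorem conj_res2 [Smooth L ρ] (g : H) {V V' : Subgroup H} (h : ∀ v ∈ V', g * v * g⁻¹ ∈ V)
    (y : H2 L ρ) :
    (Pair.conj L ρ g h).map2 ((Pair.res L ρ V).map2 y) = (Pair.res L ρ V').map2 y := by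
  have e : ((Pair.conj L ρ g h).comp (Pair.res L ρ V)).map2 =
      ((Pair.res L ρ V').comp (Pair.conjTop L ρ g)).map2 :=
    Pair.map2_congr (by ext _; rfl) (by ext F; rfl)
  rw [Pair.map2_comp, Pair.map2_comp, Conj.conjTop_map2'] at e
  exact congrArg (fun F => F y) e

end Fermat.Agent.S55

end
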