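import Fermat.Agent.S55.Coh.Prod
import Fermat.Agent.S55.Coh.Conj

/-!
# S55 (A5c): Shapiro for non transitive sets, Mackey decomposition
TASK S55/A-Mackey.
`Fun(Ω,X) = ∏_{orbits O} Fun(O,X)`; `H^i` commutes with finite products (`pi_bijective*`);
Shapiro on every orbit (`ev_bijective*`); for a subgroup `D` apply this to the group `↥D` and
translate subgroups of `↥D` into subgroups of `H` with `Pair.subOf`, `Pair.isDense_subOf`.
-/

set_option autoImplicit false

noncomputable section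

namespace Fermat.Agent.S55

variable {k : Type} [CommRing k] {H : Type} [Group H]
variable {X X' : Type} [AddCommGroup X] [Module k X] [AddCommGroup X'] [Module k X']

namespace Mackey

section coeffEquiv
variable (L : Levels H) {ρ : Representation k H X} {σ : Representation k H X'}
  (e : X ≃ₗ[k] X') (he : ∀ h x, e (ρ h x) = σ h (e x))

include he in
lemma symm_comm (h : H) (x : X') : e.symm (σ h x) = ρ h (e.symm x) := by
  apply e.injective; rw [he]; simp

lemma coeff_equiv_bijective0 : Function.Bijective (Pair.coeff L e.toLinearMap he).map0 := by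
  refine Function.bijective_iff_has_inverse.2
    ⟨(Pair.coeff L e.symm.toLinearMap (symm_comm e he)).map0, fun x => ?_, fun x => ?_⟩
  · rw [← LinearMap.comp_apply, ← Pair.map0_comp]
    have : ((Pair.coeff L e.symm.toLinearMap (symm_comm e he)).comp
        (Pair.coeff L e.toLinearMap he)).map0 = (Pair.id L ρ).map0 :=
      Pair.map0_congr rfl (by ext; simp [Pair.comp, Pair.coeff, Pair.id])
    rw [this]; simp
  · rw [← LinearMap.comp_apply, ← Pair.map0_comp]
    have : ((Pair.coeff L e.toLinearMap he).comp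
        (Pair.coeff L e.symm.toLinearMap (symm_comm e he))).map0 = (Pair.id L σ).map0 :=
      Pair.map0_congr rfl (by ext; simp [Pair.comp, Pair.coeff, Pair.id])
    rw [this]; simp

lemma coeff_equiv_bijective1 : Function.Bijective (Pair.coeff L e.toLinearMap he).map1 := by
  refine Function.bijective_iff_has_inverse.2
    ⟨(Pair.coeff L e.symm.toLinearMap (symm_comm e he)).map1, fun x => ?_, fun x => ?_⟩
  · rw [← LinearMap.comp_apply, ← Pair.map1_comp]
    have : ((Pair.coeff L e.symm.toLinearMap (symm_comm e he)).comp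
        (Pair.coeff L e.toLinearMap he)).map1 = (Pair.id L ρ).map1 :=
      Pair.map1_congr rfl (by ext; simp [Pair.comp, Pair.coeff, Pair.id])
    rw [this]; simp
  · rw [← LinearMap.comp_apply, ← Pair.map1_comp]
    have : ((Pair.coeff L e.toLinearMap he).comp
        (Pair.coeff L e.symm.toLinearMap (symm_comm e he))).map1 = (Pair.id L σ).map1 :=
      Pair.map1_congr rfl (by ext; simp [Pair.comp, Pair.coeff, Pair.id])
    rw [this]; simp

lemma coeff_equiv_bijective2 : Function.Bijective (Pair.coeff L e.toLinearMap he).map2 := by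
  refine Function.bijective_iff_has_inverse.2
    ⟨(Pair.coeff L e.symm.toLinearMap (symm_comm e he)).map2, fun x => ?_, fun x => ?_⟩
  · rw [← LinearMap.comp_apply, ← Pair.map2_comp]
    have : ((Pair.coeff L e.symm.toLinearMap (symm_comm e he)).comp
        (Pair.coeff L e.toLinearMap he)).map2 = (Pair.id L ρ).map2 :=
      Pair.map2_congr rfl (by ext; simp [Pair.comp, Pair.coeff, Pair.id])
    rw [this]; simp
  · rw [← LinearMap.comp_apply, ← Pair.map2_comp]
    have : ((Pair.coeff L e.toLinearMap he).comp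
        (Pair.coeff L e.symm.toLinearMap (symm_comm e he))).map2 = (Pair.id L σ).map2 :=
      Pair.map2_congr rfl (by ext; simp [Pair.comp, Pair.coeff, Pair.id])
    rw [this]; simp

end coeffEquiv

section orb
variable (Ω : Type) [MulAction H Ω] {ι : Type} (x : ι → Ω)
  (hx : ∀ w : Ω, ∃! j, ∃ h : H, h • x j = w)

/-- restriction to the orbits. -/
def orbEquiv : (Ω → X) ≃ₗ[k] (∀ j, MulAction.orbit H (x j) → X) where
  toFun f j w := f w
  invFun F w := F (hx w).choose ⟨w, (hx w).choose_spec.1⟩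
  map_add' _ _ := rfl
  map_smul' _ _ := rfl
  left_inv f := rfl
  right_inv F := by
    ext j ⟨w, hw⟩
    have h1 : (hx w).choose = j := ((hx w).choose_spec.2 j hw).symm
    have aux : ∀ (j' : ι) (h : j' = j) (hw' : w ∈ MulAction.orbit H (x j')),
        F j' ⟨w, hw'⟩ = F j ⟨w, hw⟩ := by
      intro j' h hw'; subst h; rfl
    exact aux _ h1 _

lemma orbEquiv_comm (ρ : Representation k H X) (h : H) (f : Ω → X) :
    orbEquiv (k := k) Ω x hx (Fun ρ Ω h f) =
      piRep (fun j => Fun ρ (MulAction.orbit H (x j))) h (orbEquiv (k := k) Ω x hx f) := by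
  ext j w
  rfl

instance smoothSet_orbit (L : Levels H) [L.SmoothSet Ω] (w : Ω) :
    L.SmoothSet (MulAction.orbit H w) := by
  constructor
  intro u
  refine L.isOpen_mono (Levels.SmoothSet.isOpen_stabilizer (u : Ω)) (fun s hs => ?_)
  rw [MulAction.mem_stabilizer_iff] at hs ⊢
  exact Subtype.ext hs

end orb

end Mackey

variable (L : Levels H) (ρ : Representation k H X) (Ω : Type) [MulAction H Ω]

section Orbits
variable {ι : Type} [Finite ι] (x : ι → Ω) (V : ι → Subgroup H)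
  (hV : ∀ j v, v ∈ V j ↔ v • x j = x j) (hx : ∀ w : Ω, ∃! j, ∃ h : H, h • x j = w)

include hx in
theorem ev_pi_bijective0 :
    Function.Bijective (LinearMap.pi (fun j =>
      (Pair.ev L ρ Ω (V j) (x j) (fun v hv => (hV j v).1 hv)).map0) :
      ↥(H0 (Fun ρ Ω)) →ₗ[k] ∀ j, ↥(H0 (rsub ρ (V j)))) := by
  have hV' : ∀ j v, v ∈ V j ↔ v • (⟨x j, MulAction.mem_orbit_self _⟩ : MulAction.orbit H (x j))
      = ⟨x j, MulAction.mem_orbit_self _⟩ := fun j v => by
    rw [hV j v, Subtype.ext_iff]; rfl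
  have b1 := Mackey.coeff_equiv_bijective0 L (Mackey.orbEquiv (k := k) (X := X) Ω x hx)
    (Mackey.orbEquiv_comm Ω x hx ρ)
  have b2 := pi_bijective0 L (fun j => Fun ρ (MulAction.orbit H (x j)))
  have b3 : ∀ j, Function.Bijective (Pair.ev L ρ (MulAction.orbit H (x j)) (V j)
      ⟨x j, MulAction.mem_orbit_self _⟩ (fun v hv => (hV' j v).1 hv)).map0 :=
    fun j => ev_bijective0 L ρ (MulAction.orbit H (x j)) (V j) _ (hV' j)
  have b := (Function.Bijective.piMap b3).comp (b2.comp b1)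
  convert b using 1
  funext y j
  simp only [LinearMap.pi_apply, Function.comp_apply, Pi.map_apply]
  rw [← LinearMap.comp_apply, ← LinearMap.comp_apply, ← Pair.map0_comp, ← Pair.map0_comp]
  exact congrFun (congrArg DFunLike.coe (Pair.map0_congr rfl rfl)) y

include hx in
theorem ev_pi_bijective1 [Smooth L ρ] [Finite Ω] [L.SmoothSet Ω] :
    Function.Bijective (LinearMap.pi (fun j =>
      (Pair.ev L ρ Ω (V j) (x j) (fun v hv => (hV j v).1 hv)).map1) :
      H1 L (Fun ρ Ω) →ₗ[k] ∀ j, H1 (L.sub (V j)) (rsub ρ (V j))) := by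
  have hV' : ∀ j v, v ∈ V j ↔ v • (⟨x j, MulAction.mem_orbit_self _⟩ : MulAction.orbit H (x j))
      = ⟨x j, MulAction.mem_orbit_self _⟩ := fun j v => by
    rw [hV j v, Subtype.ext_iff]; rfl
  have b1 := Mackey.coeff_equiv_bijective1 L (Mackey.orbEquiv (k := k) (X := X) Ω x hx)
    (Mackey.orbEquiv_comm Ω x hx ρ)
  have b2 := pi_bijective1 L (fun j => Fun ρ (MulAction.orbit H (x j)))
  have b3 : ∀ j, Function.Bijective (Pair.ev L ρ (MulAction.orbit H (x j)) (V j)
      ⟨x j, MulAction.mem_orbit_self _⟩ (fun v hv => (hV' j v).1 hv)).map1 :=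
    fun j => ev_bijective1 L ρ (MulAction.orbit H (x j)) (V j) _ (hV' j)
  have b := (Function.Bijective.piMap b3).comp (b2.comp b1)
  convert b using 1
  funext y j
  simp only [LinearMap.pi_apply, Function.comp_apply, Pi.map_apply]
  rw [← LinearMap.comp_apply, ← LinearMap.comp_apply, ← Pair.map1_comp, ← Pair.map1_comp]
  exact congrFun (congrArg DFunLike.coe (Pair.map1_congr rfl rfl)) y

include hx in
theorem ev_pi_bijective2 [Smooth L ρ] [Finite Ω] [L.SmoothSet Ω] :
    Function.Bijective (LinearMap.pi (fun j =>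
      (Pair.ev L ρ Ω (V j) (x j) (fun v hv => (hV j v).1 hv)).map2) :
      H2 L (Fun ρ Ω) →ₗ[k] ∀ j, H2 (L.sub (V j)) (rsub ρ (V j))) := by
  have hV' : ∀ j v, v ∈ V j ↔ v • (⟨x j, MulAction.mem_orbit_self _⟩ : MulAction.orbit H (x j))
      = ⟨x j, MulAction.mem_orbit_self _⟩ := fun j v => by
    rw [hV j v, Subtype.ext_iff]; rfl
  have b1 := Mackey.coeff_equiv_bijective2 L (Mackey.orbEquiv (k := k) (X := X) Ω x hx)
    (Mackey.orbEquiv_comm Ω x hx ρ)
  have b2 := pi_bijective2 L (fun j => Fun ρ (MulAction.orbit H (x j)))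
  have b3 : ∀ j, Function.Bijective (Pair.ev L ρ (MulAction.orbit H (x j)) (V j)
      ⟨x j, MulAction.mem_orbit_self _⟩ (fun v hv => (hV' j v).1 hv)).map2 :=
    fun j => ev_bijective2 L ρ (MulAction.orbit H (x j)) (V j) _ (hV' j)
  have b := (Function.Bijective.piMap b3).comp (b2.comp b1)
  convert b using 1
  funext y j
  simp only [LinearMap.pi_apply, Function.comp_apply, Pi.map_apply]
  rw [← LinearMap.comp_apply, ← LinearMap.comp_apply, ← Pair.map2_comp, ← Pair.map2_comp]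
  exact congrFun (congrArg DFunLike.coe (Pair.map2_congr rfl rfl)) y

end Orbits

/-- evaluation pair for a subgroup `D`: from `H^i(D; Fun(Ω,X))` to `H^i(W; X)`, `W ≤ D`
fixing `x`. -/
def Pair.evSub (D W : Subgroup H) (hWD : W ≤ D) (x : Ω) (hx : ∀ v ∈ W, v • x = x) :
    Pair (L.sub D) (rsub (Fun ρ Ω) D) (L.sub W) (rsub ρ W) where
  f := Subgroup.inclusion hWD
  φ := LinearMap.proj x
  cont := (Pair.resLE L (Fun ρ Ω) hWD).cont
  compat v f := (Pair.ev L ρ Ω W x hx).compat v f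

/-- `sh^D_x ∘ res^H_D = sh_x^{W}` (on the nose). -/
lemma evSub_res0 (D W : Subgroup H) (hWD : W ≤ D) (x : Ω) (hx : ∀ v ∈ W, v • x = x) :
    (Pair.evSub L ρ Ω D W hWD x hx).map0 ∘ₗ (Pair.res L (Fun ρ Ω) D).map0 =
      (Pair.ev L ρ Ω W x hx).map0 := by
  rw [← Pair.map0_comp]; exact Pair.map0_congr rfl rfl

lemma evSub_res1 (D W : Subgroup H) (hWD : W ≤ D) (x : Ω) (hx : ∀ v ∈ W, v • x = x) :
    (Pair.evSub L ρ Ω D W hWD x hx).map1 ∘ₗ (Pair.res L (Fun ρ Ω) D).map1 =
      (Pair.ev L ρ Ω W x hx).map1 := by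
  rw [← Pair.map1_comp]; exact Pair.map1_congr rfl rfl

lemma evSub_res2 (D W : Subgroup H) (hWD : W ≤ D) (x : Ω) (hx : ∀ v ∈ W, v • x = x) :
    (Pair.evSub L ρ Ω D W hWD x hx).map2 ∘ₗ (Pair.res L (Fun ρ Ω) D).map2 =
      (Pair.ev L ρ Ω W x hx).map2 := by
  rw [← Pair.map2_comp]; exact Pair.map2_congr rfl rfl

/-- `sh_x^{W} = res^{V}_{W} ∘ sh_x^{V}` for `W ≤ V` (on the nose). -/
lemma resLE_ev0 {W V : Subgroup H} (hWV : W ≤ V) (x : Ω) (hx : ∀ v ∈ V, v • x = x) :
    (Pair.resLE L ρ hWV).map0 ∘ₗ (Pair.ev L ρ Ω V x hx).map0 =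
      (Pair.ev L ρ Ω W x (fun v hv => hx v (hWV hv))).map0 := by
  rw [← Pair.map0_comp]; exact Pair.map0_congr rfl rfl

lemma resLE_ev1 {W V : Subgroup H} (hWV : W ≤ V) (x : Ω) (hx : ∀ v ∈ V, v • x = x) :
    (Pair.resLE L ρ hWV).map1 ∘ₗ (Pair.ev L ρ Ω V x hx).map1 =
      (Pair.ev L ρ Ω W x (fun v hv => hx v (hWV hv))).map1 := by
  rw [← Pair.map1_comp]; exact Pair.map1_congr rfl rfl

lemma resLE_ev2 {W V : Subgroup H} (hWV : W ≤ V) (x : Ω) (hx : ∀ v ∈ V, v • x = x) :
    (Pair.resLE L ρ hWV).map2 ∘ₗ (Pair.ev L ρ Ω V x hx).map2 =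
      (Pair.ev L ρ Ω W x (fun v hv => hx v (hWV hv))).map2 := by
  rw [← Pair.map2_comp]; exact Pair.map2_congr rfl rfl

section Mackey
variable (D : Subgroup H) {ι : Type} [Finite ι] (x : ι → Ω) (W : ι → Subgroup H)
  (hW : ∀ j v, v ∈ W j ↔ v ∈ D ∧ v • x j = x j) (hx : ∀ w : Ω, ∃! j, ∃ d ∈ D, d • x j = w)

omit [Finite ι] in
include hx in
lemma Mackey.hx' : ∀ w : Ω, ∃! j, ∃ h : ↥D, h • x j = w := by
  intro w
  obtain ⟨j, ⟨d, hd, hj⟩, huniq⟩ := hx w
  refine ⟨j, ⟨⟨d, hd⟩, hj⟩, ?_⟩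
  rintro j' ⟨d', hj'⟩
  exact huniq j' ⟨d', d'.2, hj'⟩

omit [Finite ι] in
include hW in
lemma Mackey.hV' (j : ι) (v : ↥D) : v ∈ (W j).subgroupOf D ↔ v • x j = x j := by
  rw [Subgroup.mem_subgroupOf, hW]
  exact ⟨fun h => h.2, fun h => ⟨v.2, h⟩⟩

lemma Mackey.subOf_bijective0 {W V : Subgroup H} (h : W ≤ V) :
    Function.Bijective (Pair.subOf L ρ h).map0 := by
  constructor
  · intro a b hab
    have := congrArg (fun t : ↥(H0 (rsub ρ W)) => (t : X)) hab
    exact Subtype.ext this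
  · intro y
    exact ⟨⟨(y : X), fun g => y.2 ⟨((g : V) : H), g.2⟩⟩, rfl⟩

include hx in
/-- MACKEY: `H^i(D; Fun(Ω,X)) = ∏_j H^i(D ∩ Stab x_j; X)`, `x_j` representatives of the
`D`-orbits on `Ω`. -/
theorem evSub_pi_bijective0 :
    Function.Bijective (LinearMap.pi (fun j =>
      (Pair.evSub L ρ Ω D (W j) (fun v hv => ((hW j v).1 hv).1) (x j)
        (fun v hv => ((hW j v).1 hv).2)).map0) :
      ↥(H0 (rsub (Fun ρ Ω) D)) →ₗ[k] ∀ j, ↥(H0 (rsub ρ (W j)))) := by
  have b0 := Mackey.coeff_equiv_bijective0 (L.sub D) (ρ := rsub (Fun ρ Ω) D)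
    (σ := Fun (rsub ρ D) Ω) (LinearEquiv.refl k (Ω → X)) (fun _ _ => rfl)
  have b1 := ev_pi_bijective0 (L.sub D) (rsub ρ D) Ω x (fun j => (W j).subgroupOf D)
    (Mackey.hV' Ω D x W hW) (Mackey.hx' Ω D x hx)
  have b2 : ∀ j, Function.Bijective
      (Pair.subOf L ρ (W := W j) (V := D) (fun v hv => ((hW j v).1 hv).1)).map0 :=
    fun j => Mackey.subOf_bijective0 L ρ _
  have b := (Function.Bijective.piMap b2).comp (b1.comp b0)
  convert b using 1
  funext y j
  simp only [LinearMap.pi_apply, Function.comp_apply, Pi.map_apply]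
  rw [← LinearMap.comp_apply, ← LinearMap.comp_apply, ← Pair.map0_comp, ← Pair.map0_comp]
  exact congrFun (congrArg DFunLike.coe (Pair.map0_congr rfl rfl)) y

include hx in
theorem evSub_pi_bijective1 [Smooth L ρ] [Finite Ω] [L.SmoothSet Ω] :
    Function.Bijective (LinearMap.pi (fun j =>
      (Pair.evSub L ρ Ω D (W j) (fun v hv => ((hW j v).1 hv).1) (x j)
        (fun v hv => ((hW j v).1 hv).2)).map1) :
      H1 (L.sub D) (rsub (Fun ρ Ω) D) →ₗ[k] ∀ j, H1 (L.sub (W j)) (rsub ρ (W j))) := by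
  have b0 := Mackey.coeff_equiv_bijective1 (L.sub D) (ρ := rsub (Fun ρ Ω) D)
    (σ := Fun (rsub ρ D) Ω) (LinearEquiv.refl k (Ω → X)) (fun _ _ => rfl)
  have b1 := ev_pi_bijective1 (L.sub D) (rsub ρ D) Ω x (fun j => (W j).subgroupOf D)
    (Mackey.hV' Ω D x W hW) (Mackey.hx' Ω D x hx)
  have b2 : ∀ j, Function.Bijective
      (Pair.subOf L ρ (W := W j) (V := D) (fun v hv => ((hW j v).1 hv).1)).map1 :=
    fun j => (Pair.isDense_subOf L ρ _).bijective1
  have b := (Function.Bijective.piMap b2).comp (b1.comp b0)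
  convert b using 1
  funext y j
  simp only [LinearMap.pi_apply, Function.comp_apply, Pi.map_apply]
  rw [← LinearMap.comp_apply, ← LinearMap.comp_apply, ← Pair.map1_comp, ← Pair.map1_comp]
  exact congrFun (congrArg DFunLike.coe (Pair.map1_congr rfl rfl)) y

include hx in
theorem evSub_pi_bijective2 [Smooth L ρ] [Finite Ω] [L.SmoothSet Ω] :
    Function.Bijective (LinearMap.pi (fun j =>
      (Pair.evSub L ρ Ω D (W j) (fun v hv => ((hW j v).1 hv).1) (x j)
        (fun v hv => ((hW j v).1 hv).2)).map2) :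
      H2 (L.sub D) (rsub (Fun ρ Ω) D) →ₗ[k] ∀ j, H2 (L.sub (W j)) (rsub ρ (W j))) := by
  have b0 := Mackey.coeff_equiv_bijective2 (L.sub D) (ρ := rsub (Fun ρ Ω) D)
    (σ := Fun (rsub ρ D) Ω) (LinearEquiv.refl k (Ω → X)) (fun _ _ => rfl)
  have b1 := ev_pi_bijective2 (L.sub D) (rsub ρ D) Ω x (fun j => (W j).subgroupOf D)
    (Mackey.hV' Ω D x W hW) (Mackey.hx' Ω D x hx)
  have b2 : ∀ j, Function.Bijective
      (Pair.subOf L ρ (W := W j) (V := D) (fun v hv => ((hW j v).1 hv).1)).map2 :=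
    fun j => (Pair.isDense_subOf L ρ _).bijective2
  have b := (Function.Bijective.piMap b2).comp (b1.comp b0)
  convert b using 1
  funext y j
  simp only [LinearMap.pi_apply, Function.comp_apply, Pi.map_apply]
  rw [← LinearMap.comp_apply, ← LinearMap.comp_apply, ← Pair.map2_comp, ← Pair.map2_comp]
  exact congrFun (congrArg DFunLike.coe (Pair.map2_congr rfl rfl)) y

end Mackey

end Fermat.Agent.S55

end
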