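import Fermat.Agent.S55.Coh.Cores

/-!
# S55 (A7): Euler characteristics, vanishing for finite groups of invertible order
TASK S55/A-Numerics.
-/

set_option autoImplicit false
set_option linter.unusedSectionVars false

noncomputable section

namespace Fermat.Agent.S55

open Module

variable {k : Type} [Field k] {H : Type} [Group H]
variable {X : Type} [AddCommGroup X] [Module k X]
variable {A B C : Type} [AddCommGroup A] [Module k A] [AddCommGroup B] [Module k B]
  [AddCommGroup C] [Module k C]
variable {ρA : Representation k H A} {ρB : Representation k H B} {ρC : Representation k H C}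

namespace Numerics

lemma finrank_of_exact {U V W : Type} [AddCommGroup U] [Module k U] [AddCommGroup V] [Module k V]
    [AddCommGroup W] [Module k W] [FiniteDimensional k V]
    (f : U →ₗ[k] V) (g : V →ₗ[k] W) (h : Function.Exact f g) :
    finrank k V = finrank k (LinearMap.range f) + finrank k (LinearMap.range g) := by
  have h1 := LinearMap.finrank_range_add_finrank_ker g
  rw [LinearMap.exact_iff.mp h] at h1
  omega

lemma finiteDimensional_of_exact {U V W : Type} [AddCommGroup U] [Module k U] [AddCommGroup V]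
    [Module k V] [AddCommGroup W] [Module k W] [FiniteDimensional k U] [FiniteDimensional k W]
    (f : U →ₗ[k] V) (g : V →ₗ[k] W) (h : Function.Exact f g) : FiniteDimensional k V := by
  have h1 : FiniteDimensional k (LinearMap.ker g) := by
    rw [LinearMap.exact_iff.mp h]
    infer_instance
  have h2 : FiniteDimensional k (V ⧸ LinearMap.ker g) :=
    LinearEquiv.finiteDimensional g.quotKerEquivRange.symm
  exact Module.Finite.of_submodule_quotient (LinearMap.ker g)

end Numerics

/-- `χ(X) = h^0 - h^1 + h^2`. -/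
def eulerChar (L : Levels H) (ρ : Representation k H X) : ℤ :=
  (finrank k ↥(H0 ρ) : ℤ) - finrank k (H1 L ρ) + finrank k (H2 L ρ)

/-- pure linear algebra: alternating sum of dimensions along an exact sequence
`0 → V1 → V2 → ... → V9` (not surjective at the end). -/
lemma alternating_sum_of_exact {V1 V2 V3 V4 V5 V6 V7 V8 V9 : Type}
    [AddCommGroup V1] [Module k V1] [AddCommGroup V2] [Module k V2] [AddCommGroup V3] [Module k V3]
    [AddCommGroup V4] [Module k V4] [AddCommGroup V5] [Module k V5] [AddCommGroup V6] [Module k V6]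
    [AddCommGroup V7] [Module k V7] [AddCommGroup V8] [Module k V8] [AddCommGroup V9] [Module k V9]
    [FiniteDimensional k V1] [FiniteDimensional k V2] [FiniteDimensional k V3]
    [FiniteDimensional k V4] [FiniteDimensional k V5] [FiniteDimensional k V6]
    [FiniteDimensional k V7] [FiniteDimensional k V8] [FiniteDimensional k V9]
    (f1 : V1 →ₗ[k] V2) (f2 : V2 →ₗ[k] V3) (f3 : V3 →ₗ[k] V4) (f4 : V4 →ₗ[k] V5)
    (f5 : V5 →ₗ[k] V6) (f6 : V6 →ₗ[k] V7) (f7 : V7 →ₗ[k] V8) (f8 : V8 →ₗ[k] V9)
    (h1 : Function.Injective f1) (h12 : Function.Exact f1 f2) (h23 : Function.Exact f2 f3)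
    (h34 : Function.Exact f3 f4) (h45 : Function.Exact f4 f5) (h56 : Function.Exact f5 f6)
    (h67 : Function.Exact f6 f7) (h78 : Function.Exact f7 f8) :
    (finrank k V1 : ℤ) - finrank k V2 + finrank k V3 - finrank k V4 + finrank k V5
      - finrank k V6 + finrank k V7 - finrank k V8 + finrank k V9
      = finrank k (V9 ⧸ LinearMap.range f8) := by
  have e1 : finrank k V1 = finrank k (LinearMap.range f1) :=
    (LinearMap.finrank_range_of_inj h1).symm
  have e2 := Numerics.finrank_of_exact f1 f2 h12
  have e3 := Numerics.finrank_of_exact f2 f3 h23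
  have e4 := Numerics.finrank_of_exact f3 f4 h34
  have e5 := Numerics.finrank_of_exact f4 f5 h45
  have e6 := Numerics.finrank_of_exact f5 f6 h56
  have e7 := Numerics.finrank_of_exact f6 f7 h67
  have e8 := Numerics.finrank_of_exact f7 f8 h78
  have e9 := Submodule.finrank_quotient_add_finrank (LinearMap.range f8)
  omega

/-- A7: `χ(B) = χ(A) + χ(C) - dim coker (H^2 B → H^2 C)`. -/
theorem eulerChar_ses (L : Levels H) [Smooth L ρB] (E : SES ρA ρB ρC)
    [FiniteDimensional k A] [FiniteDimensional k B] [FiniteDimensional k C]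
    [FiniteDimensional k (H1 L ρA)] [FiniteDimensional k (H1 L ρB)] [FiniteDimensional k (H1 L ρC)]
    [FiniteDimensional k (H2 L ρA)] [FiniteDimensional k (H2 L ρB)]
    [FiniteDimensional k (H2 L ρC)] :
    eulerChar L ρB = eulerChar L ρA + eulerChar L ρC
      - finrank k (H2 L ρC ⧸ LinearMap.range (E.πP L).map2) := by
  have := alternating_sum_of_exact (E.iP L).map0 (E.πP L).map0 (E.δ0 L) (E.iP L).map1
    (E.πP L).map1 (E.δ1 L) (E.iP L).map2 (E.πP L).map2 (E.map0_i_injective L)
    (E.exact_i0_π0 L) (E.exact_π0_δ0 L) (E.exact_δ0_i1 L) (E.exact_i1_π1 L) (E.exact_π1_δ1 L)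
    (E.exact_δ1_i2 L) (E.exact_i2_π2 L)
  unfold eulerChar
  omega

theorem eulerChar_le (L : Levels H) [Smooth L ρB] (E : SES ρA ρB ρC)
    [FiniteDimensional k A] [FiniteDimensional k B] [FiniteDimensional k C]
    [FiniteDimensional k (H1 L ρA)] [FiniteDimensional k (H1 L ρB)] [FiniteDimensional k (H1 L ρC)]
    [FiniteDimensional k (H2 L ρA)] [FiniteDimensional k (H2 L ρB)]
    [FiniteDimensional k (H2 L ρC)] :
    eulerChar L ρB ≤ eulerChar L ρA + eulerChar L ρC := by
  have := eulerChar_ses L E
  omega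

/-- finiteness passes through the LES: middle term. -/
theorem finiteDimensional_H1_mid (L : Levels H) [Smooth L ρB] (E : SES ρA ρB ρC)
    [FiniteDimensional k (H1 L ρA)] [FiniteDimensional k (H1 L ρC)] :
    FiniteDimensional k (H1 L ρB) := by
  exact Numerics.finiteDimensional_of_exact _ _ (E.exact_i1_π1 L)

theorem finiteDimensional_H2_mid (L : Levels H) [Smooth L ρB] (E : SES ρA ρB ρC)
    [FiniteDimensional k (H2 L ρA)] [FiniteDimensional k (H2 L ρC)] :
    FiniteDimensional k (H2 L ρB) := by
  exact Numerics.finiteDimensional_of_exact _ _ (E.exact_i2_π2 L)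

/-- finiteness: sub term (`H^1 A` from `H^0 C`, `H^1 B`; `H^2 A` from `H^1 C`, `H^2 B`). -/
theorem finiteDimensional_H1_left (L : Levels H) [Smooth L ρB] (E : SES ρA ρB ρC)
    [FiniteDimensional k C] [FiniteDimensional k (H1 L ρB)] :
    FiniteDimensional k (H1 L ρA) := by
  exact Numerics.finiteDimensional_of_exact _ _ (E.exact_δ0_i1 L)

theorem finiteDimensional_H2_left (L : Levels H) [Smooth L ρB] (E : SES ρA ρB ρC)
    [FiniteDimensional k (H1 L ρC)] [FiniteDimensional k (H2 L ρB)] :
    FiniteDimensional k (H2 L ρA) := by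
  exact Numerics.finiteDimensional_of_exact _ _ (E.exact_δ1_i2 L)

/-- finiteness: quotient term in degree 1. -/
theorem finiteDimensional_H1_right (L : Levels H) [Smooth L ρB] (E : SES ρA ρB ρC)
    [FiniteDimensional k (H1 L ρB)] [FiniteDimensional k (H2 L ρA)] :
    FiniteDimensional k (H1 L ρC) := by
  exact Numerics.finiteDimensional_of_exact _ _ (E.exact_π1_δ1 L)

end Fermat.Agent.S55

namespace Fermat.Agent.S55

variable {k : Type} [CommRing k] {H : Type} [Group H]
variable {X : Type} [AddCommGroup X] [Module k X]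

/-- `H^1` of a finite group of invertible order vanishes (average the cocycle). -/
theorem H1_subsingleton_of_finite [Finite H] (hu : IsUnit (Nat.card H : k)) (L : Levels H)
    (ρ : Representation k H X) : Subsingleton (H1 L ρ) := by
  classical
  have := Fintype.ofFinite H
  obtain ⟨u, hu⟩ := hu
  have hun : (↑u⁻¹ : k) * (Nat.card H : k) = 1 := by rw [← hu]; exact u.inv_mul
  suffices h : ∀ x : H1 L ρ, x = 0 from ⟨fun a b => (h a).trans (h b).symm⟩
  intro x
  obtain ⟨z, rfl⟩ := H1.mk_surjective L ρ x
  rw [H1.mk_eq_zero_iff]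
  have hz := (mem_Z1.mp z.2).1
  refine ⟨-((↑u⁻¹ : k) • ∑ h : H, (z : H → X) h), fun g => ?_⟩
  have h1 : ∑ h : H, (z : H → X) (g * h) = ∑ h : H, (z : H → X) h :=
    Fintype.sum_equiv (Equiv.mulLeft g) _ _ (fun _ => rfl)
  have h2 : ∑ h : H, (z : H → X) (g * h)
      = ρ g (∑ h : H, (z : H → X) h) + (Nat.card H : k) • (z : H → X) g := by
    simp only [hz, Finset.sum_add_distrib, map_sum, Finset.sum_const, Finset.card_univ,
      Nat.card_eq_fintype_card, Nat.cast_smul_eq_nsmul]
  rw [h1] at h2
  have h3 : (z : H → X) g = (↑u⁻¹ : k) • ((Nat.card H : k) • (z : H → X) g) := by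
    rw [smul_smul, hun, one_smul]
  have h4 : (Nat.card H : k) • (z : H → X) g
      = ∑ h : H, (z : H → X) h - ρ g (∑ h : H, (z : H → X) h) := by
    rw [eq_sub_iff_add_eq, add_comm]; exact h2.symm
  rw [h3, h4, map_neg, map_smul, smul_sub]
  abel

/-- `H^2` of a finite group of invertible order vanishes: `n z = d1 (g ↦ Σ_j z(g,j))`. -/
theorem H2_subsingleton_of_finite [Finite H] (hu : IsUnit (Nat.card H : k)) (L : Levels H)
    (ρ : Representation k H X) : Subsingleton (H2 L ρ) := by
  classical
  have := Fintype.ofFinite H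
  obtain ⟨u, hu⟩ := hu
  have hun : (↑u⁻¹ : k) * (Nat.card H : k) = 1 := by rw [← hu]; exact u.inv_mul
  suffices h : ∀ x : H2 L ρ, x = 0 from ⟨fun a b => (h a).trans (h b).symm⟩
  intro x
  obtain ⟨z, rfl⟩ := H2.mk_surjective L ρ x
  rw [H2.mk_eq_zero_iff]
  obtain ⟨hz, U, hU, hlev⟩ := mem_Z2.mp z.2
  set y : H → X := fun g => ∑ j : H, (z : H × H → X) (g, j) with hy
  have hylev : ∀ g : H, ∀ s ∈ U, y (g * s) = y g := by
    intro g s hs
    refine Finset.sum_congr rfl fun j _ => ?_
    have := hlev g j s hs 1 U.one_mem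
    rwa [mul_one] at this
  have key : ∀ g h : H, (Nat.card H : k) • (z : H × H → X) (g, h)
      = ρ g (y h) - y (g * h) + y g := by
    intro g h
    have h1 : ∑ j : H, (z : H × H → X) (g, h * j) = y g :=
      Fintype.sum_equiv (Equiv.mulLeft h) _ _ (fun _ => rfl)
    have h2 : ∑ j : H, (ρ g ((z : H × H → X) (h, j)) + (z : H × H → X) (g, h * j))
        = ∑ j : H, ((z : H × H → X) (g * h, j) + (z : H × H → X) (g, h)) :=
      Finset.sum_congr rfl fun j _ => hz g h j
    rw [Finset.sum_add_distrib, Finset.sum_add_distrib, h1, ← map_sum, Finset.sum_const,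
      Finset.card_univ, ← Nat.card_eq_fintype_card, ← Nat.cast_smul_eq_nsmul k] at h2
    have h3 : ρ g (y h) + y g = y (g * h) + (Nat.card H : k) • (z : H × H → X) (g, h) := h2
    rw [sub_add_eq_add_sub, h3]
    abel
  refine ⟨(↑u⁻¹ : k) • y, ⟨U, hU, fun g s hs => ?_⟩, fun g h => ?_⟩
  · simp only [Pi.smul_apply, hylev g s hs]
  · simp only [Pi.smul_apply, map_smul]
    rw [← smul_sub, ← smul_add, ← key, smul_smul, hun, one_smul]

end Fermat.Agent.S55

end
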