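import Fermat.Agent.S55.Coh.Cup
import Fermat.Agent.S55.Coh.Mackey
import Fermat.Agent.S55.Coh.Numerics
import Fermat.Agent.S55.Coh.IntCoeff
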