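import Fermat.Agent.S55.Coh.Level

/-!
# S55 (A0b): basic lemmas on smooth representations, cocycles
TASK S55/A-Basic.
-/

set_option autoImplicit false

noncomputable section

namespace Fermat.Agent.S55

variable {k : Type} [CommRing k] {H H' : Type} [Group H] [Group H']
variable {X X' : Type} [AddCommGroup X] [Module k X] [AddCommGroup X'] [Module k X']

section Smooth

variable {L : Levels H} {ρ : Representation k H X}

/-- finitely many vectors of a smooth representation are fixed by a common open normal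
subgroup. -/
lemma Smooth.exists_normal_of_finite [Smooth L ρ] {s : Set X} (hs : s.Finite) :
    ∃ N : Subgroup H, L.IsOpen N ∧ N.Normal ∧ N.FiniteIndex ∧ ∀ x ∈ s, ∀ n ∈ N, ρ n x = x := by
  choose U hU hfix using fun x : X => Smooth.exists_isOpen (L := L) (ρ := ρ) x
  have : Finite s := hs
  have hopen : L.IsOpen (⨅ x : s, U x) := Levels.isOpen_iInf (fun x => hU x)
  obtain ⟨N, hN, hle, hn, hf⟩ := L.exists_normal hopen
  refine ⟨N, hN, hn, hf, fun x hx n hn' => hfix x n ?_⟩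
  have := hle hn'
  rw [Subgroup.mem_iInf] at this
  exact this ⟨x, hx⟩

/-- a finitely generated smooth module is fixed by an open normal subgroup. -/
lemma Smooth.exists_normal_of_fg [Smooth L ρ] [Module.Finite k X] :
    ∃ N : Subgroup H, L.IsOpen N ∧ N.Normal ∧ N.FiniteIndex ∧ ∀ n ∈ N, ρ n = 1 := by
  obtain ⟨S, hS⟩ := (Module.Finite.fg_top : (⊤ : Submodule k X).FG)
  obtain ⟨N, hN, hn, hf, hfix⟩ :=
    Smooth.exists_normal_of_finite (L := L) (ρ := ρ) S.finite_toSet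
  refine ⟨N, hN, hn, hf, fun n hn' => ?_⟩
  exact LinearMap.ext_on hS (fun x hx => hfix x hx n hn')

lemma Smooth.of_forall_eq_one {N : Subgroup H} (hN : L.IsOpen N) (h : ∀ n ∈ N, ρ n = 1) :
    Smooth L ρ :=
  ⟨fun x => ⟨N, hN, fun s hs => by rw [h s hs]; rfl⟩⟩

instance Smooth.comap [Smooth L ρ] (f : H' →* H) : Smooth (L.comap f) (MonoidHom.comp ρ f) := by
  refine ⟨fun x => ?_⟩
  obtain ⟨U, hU, h⟩ := Smooth.exists_isOpen (L := L) (ρ := ρ) x
  exact ⟨U.comap f, ⟨U, hU, le_rfl⟩, fun s hs => h (f s) hs⟩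

instance Smooth.rsub [Smooth L ρ] (V : Subgroup H) : Smooth (L.sub V) (rsub ρ V) :=
  Smooth.comap V.subtype

instance Smooth.trivial : Smooth L (Representation.trivial k H X) :=
  ⟨fun _ => ⟨⊤, L.isOpen_top, fun _ _ => rfl⟩⟩

lemma Smooth.of_injective [Smooth L ρ] {σ : Representation k H X'} (φ : X' →ₗ[k] X)
    (hφ : ∀ h x, φ (σ h x) = ρ h (φ x)) (hinj : Function.Injective φ) : Smooth L σ := by
  refine ⟨fun x => ?_⟩
  obtain ⟨U, hU, h⟩ := Smooth.exists_isOpen (L := L) (ρ := ρ) (φ x)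
  exact ⟨U, hU, fun s hs => hinj (by rw [hφ, h s hs])⟩

lemma Smooth.of_surjective [Smooth L ρ] {σ : Representation k H X'} (φ : X →ₗ[k] X')
    (hφ : ∀ h x, φ (ρ h x) = σ h (φ x)) (hsurj : Function.Surjective φ) : Smooth L σ := by
  refine ⟨fun x' => ?_⟩
  obtain ⟨x, rfl⟩ := hsurj x'
  obtain ⟨U, hU, h⟩ := Smooth.exists_isOpen (L := L) (ρ := ρ) x
  exact ⟨U, hU, fun s hs => by rw [← hφ, h s hs]⟩

instance Smooth.subrepresentation [Smooth L ρ] (W : Submodule k X)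
    (hW : ∀ g, W ≤ W.comap (ρ g)) : Smooth L (ρ.subrepresentation W hW) :=
  Smooth.of_injective (ρ := ρ) W.subtype (fun _ _ => rfl) W.injective_subtype

instance Smooth.quotient [Smooth L ρ] (W : Submodule k X)
    (hW : ∀ g, W ≤ W.comap (ρ g)) : Smooth L (ρ.quotient W hW) :=
  Smooth.of_surjective (ρ := ρ) W.mkQ (fun _ _ => rfl) W.mkQ_surjective

instance Smooth.prod [Smooth L ρ] (σ : Representation k H X') [Smooth L σ] :
    Smooth L (ρ.prod σ) := by
  refine ⟨fun x => ?_⟩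
  obtain ⟨U, hU, h⟩ := Smooth.exists_isOpen (L := L) (ρ := ρ) x.1
  obtain ⟨U', hU', h'⟩ := Smooth.exists_isOpen (L := L) (ρ := σ) x.2
  refine ⟨U ⊓ U', L.isOpen_inf hU hU', fun s hs => ?_⟩
  ext
  · simpa using h s hs.1
  · simpa using h' s hs.2

instance Smooth.Fun [Smooth L ρ] (Ω : Type) [MulAction H Ω] [Finite Ω] [L.SmoothSet Ω] :
    Smooth L (Fun ρ Ω) := by
  refine ⟨fun f => ?_⟩
  obtain ⟨N, hN, -, -, hfix⟩ :=
    Smooth.exists_normal_of_finite (L := L) (ρ := ρ) (Set.finite_range f)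
  have hopen : L.IsOpen (⨅ w : Ω, MulAction.stabilizer H w) :=
    Levels.isOpen_iInf (fun w => Levels.SmoothSet.isOpen_stabilizer w)
  refine ⟨N ⊓ ⨅ w : Ω, MulAction.stabilizer H w, L.isOpen_inf hN hopen, fun s hs => ?_⟩
  ext w
  have h1 : s • w = w := by
    have h2' : s ∈ ⨅ w : Ω, MulAction.stabilizer H w := (Subgroup.mem_inf.mp hs).2
    exact (Subgroup.mem_iInf.mp h2') w
  have h2 : s⁻¹ • w = w := by rw [inv_smul_eq_iff, h1]
  rw [Fun_apply, h2]
  exact hfix _ (Set.mem_range_self w) s hs.1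

lemma Smooth.mono {L' : Levels H} (h : ∀ U, L.IsOpen U → L'.IsOpen U) [Smooth L ρ] :
    Smooth L' ρ := by
  refine ⟨fun x => ?_⟩
  obtain ⟨U, hU, h'⟩ := Smooth.exists_isOpen (L := L) (ρ := ρ) x
  exact ⟨U, h U hU, h'⟩

lemma d0_isLevel [Smooth L ρ] (x : X) : L.IsLevel₁ (d0 ρ x) := by
  obtain ⟨U, hU, h⟩ := Smooth.exists_isOpen (L := L) (ρ := ρ) x
  refine ⟨U, hU, fun g s hs => ?_⟩
  rw [d0_apply, d0_apply, map_mul, Module.End.mul_apply, h s hs]

lemma d1_isLevel [Smooth L ρ] {y : H → X} (hy : L.IsLevel₁ y) : L.IsLevel₂ (d1 ρ y) := by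
  obtain ⟨N, hN, hNn, -, hr, -⟩ := hy.exists_normal
  obtain ⟨N', hN', -, -, hfix⟩ :=
    Smooth.exists_normal_of_finite (L := L) (ρ := ρ) hy.finite_range
  refine ⟨N ⊓ N', L.isOpen_inf hN hN', fun g h s hs s' hs' => ?_⟩
  have e1 : y (h * s') = y h := hr h s' hs'.1
  have e2 : y (g * s) = y g := hr g s hs.1
  have e3 : y (g * s * (h * s')) = y (g * h) := by
    have : g * s * (h * s') = g * h * (h⁻¹ * s * h * s') := by group
    rw [this]
    refine hr _ _ (N.mul_mem ?_ hs'.1)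
    have := hNn.conj_mem s hs.1 h⁻¹
    simpa using this
  simp only [d1_apply, e1, e2, e3, map_mul, Module.End.mul_apply,
    hfix (y h) (Set.mem_range_self h) s hs.2]

lemma d1_d0 (ρ : Representation k H X) (x : X) : d1 ρ (d0 ρ x) = 0 := by
  ext ⟨g, h⟩
  simp only [d1_apply, d0_apply, map_mul, Module.End.mul_apply, map_sub, Pi.zero_apply]
  abel

lemma d2_d1 (ρ : Representation k H X) (y : H → X) : d2 ρ (d1 ρ y) = 0 := by
  ext ⟨g, h, j⟩
  simp only [d2_apply, d1_apply, map_mul, Module.End.mul_apply, map_sub, map_add, Pi.zero_apply,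
    mul_assoc]
  abel

lemma B1_le_Z1 [Smooth L ρ] : B1 ρ ≤ Z1 L ρ := by
  rintro _ ⟨x, rfl⟩
  exact ⟨LinearMap.mem_ker.mpr (d1_d0 ρ x), d0_isLevel x⟩

lemma B2_le_Z2 [Smooth L ρ] : B2 L ρ ≤ Z2 L ρ := by
  rintro _ ⟨y, hy, rfl⟩
  exact ⟨LinearMap.mem_ker.mpr (d2_d1 ρ y), d1_isLevel hy⟩

lemma Z1.map_one {z : H → X} (hz : z ∈ Z1 L ρ) : z 1 = 0 := by
  have := (mem_Z1.mp hz).1 1 1
  simpa using this

lemma Z1.map_inv {z : H → X} (hz : z ∈ Z1 L ρ) (g : H) : z g⁻¹ = - ρ g⁻¹ (z g) := by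
  have := (mem_Z1.mp hz).1 g⁻¹ g
  rw [inv_mul_cancel, Z1.map_one hz] at this
  exact eq_neg_of_add_eq_zero_right this.symm

lemma Z2.map_one_fst {z : H × H → X} (hz : z ∈ Z2 L ρ) (h : H) : z (1, h) = z (1, 1) := by
  have := (mem_Z2.mp hz).1 1 1 h
  simpa using this

lemma Z2.map_one_snd {z : H × H → X} (hz : z ∈ Z2 L ρ) (g : H) : z (g, 1) = ρ g (z (1, 1)) := by
  have := (mem_Z2.mp hz).1 g 1 1
  simpa using this.symm

/-- every class in `H^2` is represented by a normalised cocycle. -/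
lemma H2.exists_normalised (x : H2 L ρ) :
    ∃ z : ↥(Z2 L ρ), H2.mk L ρ z = x ∧ (∀ g, (z : H × H → X) (g, 1) = 0) ∧
      (∀ g, (z : H × H → X) (1, g) = 0) := by
  obtain ⟨z, rfl⟩ := H2.mk_surjective L ρ x
  set c : X := (z : H × H → X) (1, 1) with hc
  have hlev : L.IsLevel₁ (fun _ : H => c) := Levels.isLevel₁_const L c
  have hd : ∀ g h : H, d1 ρ (fun _ : H => c) (g, h) = ρ g c := by
    intro g h
    simp
  have hd2 : L.IsLevel₂ (d1 ρ (fun _ : H => c)) := by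
    obtain ⟨U, hU, h⟩ := (mem_Z2.mp z.2).2
    refine ⟨U, hU, fun g g' s hs s' _ => ?_⟩
    rw [hd, hd, hc, ← Z2.map_one_snd z.2, ← Z2.map_one_snd z.2]
    simpa using h g 1 s hs 1 U.one_mem
  have hmem : d1 ρ (fun _ : H => c) ∈ Z2 L ρ :=
    ⟨LinearMap.mem_ker.mpr (d2_d1 ρ _), hd2⟩
  refine ⟨z - ⟨_, hmem⟩, ?_, fun g => ?_, fun g => ?_⟩
  · rw [map_sub, sub_eq_self, H2.mk_eq_zero_iff]
    exact ⟨fun _ => c, hlev, fun g h => rfl⟩
  · change (z : H × H → X) (g, 1) - d1 ρ (fun _ : H => c) (g, 1) = 0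
    rw [hd, Z2.map_one_snd z.2, sub_self]
  · change (z : H × H → X) (1, g) - d1 ρ (fun _ : H => c) (1, g) = 0
    rw [hd, Z2.map_one_fst z.2, map_one, Module.End.one_apply, sub_self]

/-- if `z` is a 2-cocycle which is right `N`-invariant with `N` normal, its values are fixed
by `N`. -/
lemma Z2.fixed_of_normal {z : H × H → X} (hz : z ∈ Z2 L ρ) {N : Subgroup H} [N.Normal]
    (hN : ∀ g g', ∀ s ∈ N, ∀ s' ∈ N, z (g * s, g' * s') = z (g, g')) (g g' : H) :
    ∀ n ∈ N, ρ n (z (g, g')) = z (g, g') := by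
  intro n hn
  have hN' : N.Normal := inferInstance
  have h := (mem_Z2.mp hz).1 n g g'
  have e1 : z (n * g, g') = z (g, g') := by
    have : n * g = g * (g⁻¹ * n * g) := by group
    rw [this]
    have hmem : g⁻¹ * n * g ∈ N := by simpa using hN'.conj_mem n hn g⁻¹
    simpa using hN g g' _ hmem 1 N.one_mem
  have e2 : ∀ x : H, z (n, x) = z (1, 1) := by
    intro x
    have := hN 1 x n hn 1 N.one_mem
    rw [one_mul, mul_one] at this
    rw [this, Z2.map_one_fst hz]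
  rw [e1, e2, e2] at h
  exact add_right_cancel h

/-- same in degree 1. -/
lemma Z1.fixed_of_normal {z : H → X} (hz : z ∈ Z1 L ρ) {N : Subgroup H} [N.Normal]
    (hN : ∀ g, ∀ s ∈ N, z (g * s) = z g) (g : H) : ∀ n ∈ N, ρ n (z g) = z g := by
  intro n hn
  have hN' : N.Normal := inferInstance
  have h := (mem_Z1.mp hz).1 n g
  have e1 : z (n * g) = z g := by
    have : n * g = g * (g⁻¹ * n * g) := by group
    rw [this]
    exact hN g _ (by simpa using hN'.conj_mem n hn g⁻¹)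
  have e2 : z n = 0 := by
    have := hN 1 n hn
    rw [one_mul] at this
    rw [this, Z1.map_one hz]
  rw [e1, e2, add_zero] at h
  exact h.symm

end Smooth

end Fermat.Agent.S55

end
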