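import Fermat.Agent.S55.Coh.Basic

/-!
# S55 (A1'): comparison theorems ("dense image + pulled back levels ⇒ same cohomology")
TASK S55/A-Compare.

If `f : H' → H` has dense image (`H' → H/U` onto for all open `U`), `L'` is the pull back of `L`
and `φ` is bijective, then level cochains of `H` and `H'` correspond bijectively
(a level function on `H'` is right invariant under `f⁻¹ N`, `N` normal open, hence factors through
`H'/f⁻¹N = H/N`), compatibly with `d`.  So `H^i` are isomorphic.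
-/

set_option autoImplicit false

noncomputable section

namespace Fermat.Agent.S55

variable {k : Type} [CommRing k] {H H' : Type} [Group H] [Group H']
variable {X X' : Type} [AddCommGroup X] [Module k X] [AddCommGroup X'] [Module k X']
variable {L : Levels H} {ρ : Representation k H X} {L' : Levels H'}
  {ρ' : Representation k H' X'}

/-- hypotheses of the comparison theorem. -/
structure Pair.IsDense (P : Pair L ρ L' ρ') : Prop where
  bij : Function.Bijective P.φ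
  levels : ∀ U' : Subgroup H', L'.IsOpen U' → ∃ U : Subgroup H, L.IsOpen U ∧ U.comap P.f ≤ U'
  dense : ∀ U : Subgroup H, L.IsOpen U → ∀ g : H, ∃ h' : H', (P.f h')⁻¹ * g ∈ U

namespace Compare

variable {Y : Type}

lemma congr1 {y : H → Y} {U N : Subgroup H} (hNU : N ≤ U)
    (h : ∀ g, ∀ s ∈ U, y (g * s) = y g) {g a : H} (hga : a⁻¹ * g ∈ N) : y g = y a := by
  have := h a _ (hNU hga)
  rwa [mul_inv_cancel_left] at this

lemma congr2 {z : H × H → Y} {U N : Subgroup H} (hNU : N ≤ U)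
    (h : ∀ g g', ∀ s ∈ U, ∀ s' ∈ U, z (g * s, g' * s') = z (g, g')) {g a g' a' : H}
    (hga : a⁻¹ * g ∈ N) (hga' : a'⁻¹ * g' ∈ N) : z (g, g') = z (a, a') := by
  have := h a a' _ (hNU hga) _ (hNU hga')
  rwa [mul_inv_cancel_left, mul_inv_cancel_left] at this

lemma mul_mem_of {N : Subgroup H} (hN : N.Normal) {g a g' a' : H} (h : a⁻¹ * g ∈ N)
    (h' : a'⁻¹ * g' ∈ N) : (a * a')⁻¹ * (g * g') ∈ N := by
  have : (a * a')⁻¹ * (g * g') = (a'⁻¹ * (a⁻¹ * g) * a'⁻¹⁻¹) * (a'⁻¹ * g') := by group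
  rw [this]
  exact N.mul_mem (hN.conj_mem _ h _) h'

lemma rho_congr {x : X} {U N : Subgroup H} (hNU : N ≤ U) (h : ∀ s ∈ U, ρ s x = x) {g a : H}
    (hga : a⁻¹ * g ∈ N) : ρ g x = ρ a x := by
  have : g = a * (a⁻¹ * g) := by group
  rw [this, map_mul, Module.End.mul_apply, h _ (hNU hga)]

/-- descent of level functions of one variable. -/
lemma exists_desc1 {P : Pair L ρ L' ρ'} (hP : P.IsDense) {y' : H' → Y} (hy' : L'.IsLevel₁ y') :
    ∃ y : H → Y, L.IsLevel₁ y ∧ ∀ h', y (P.f h') = y' h' := by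
  obtain ⟨U', hU', h⟩ := hy'
  obtain ⟨U, hU, hUU'⟩ := hP.levels U' hU'
  choose c hc using hP.dense U hU
  have key : ∀ a b : H', (P.f a)⁻¹ * P.f b ∈ U → y' b = y' a := by
    intro a b hab
    have h1 : a⁻¹ * b ∈ U' := hUU' (by simpa [Subgroup.mem_comap] using hab)
    have := h a _ h1
    rwa [mul_inv_cancel_left] at this
  refine ⟨fun g => y' (c g), ⟨U, hU, fun g s hs => ?_⟩, fun h' => ?_⟩
  · apply key
    have h1 := hc g
    have h2 := hc (g * s)
    have : (P.f (c g))⁻¹ * P.f (c (g * s))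
        = ((P.f (c g))⁻¹ * g) * s * ((P.f (c (g * s)))⁻¹ * (g * s))⁻¹ := by group
    rw [this]
    exact U.mul_mem (U.mul_mem h1 hs) (U.inv_mem h2)
  · apply key
    have h1 := U.inv_mem (hc (P.f h'))
    simpa using h1

/-- descent of level functions of two variables. -/
lemma exists_desc2 {P : Pair L ρ L' ρ'} (hP : P.IsDense) {y' : H' × H' → Y}
    (hy' : L'.IsLevel₂ y') :
    ∃ y : H × H → Y, L.IsLevel₂ y ∧ ∀ h₁ h₂, y (P.f h₁, P.f h₂) = y' (h₁, h₂) := by
  obtain ⟨U', hU', h⟩ := hy'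
  obtain ⟨U, hU, hUU'⟩ := hP.levels U' hU'
  choose c hc using hP.dense U hU
  have key : ∀ a b a' b' : H', (P.f a)⁻¹ * P.f b ∈ U → (P.f a')⁻¹ * P.f b' ∈ U →
      y' (b, b') = y' (a, a') := by
    intro a b a' b' hab hab'
    have h1 : a⁻¹ * b ∈ U' := hUU' (by simpa [Subgroup.mem_comap] using hab)
    have h2 : a'⁻¹ * b' ∈ U' := hUU' (by simpa [Subgroup.mem_comap] using hab')
    have := h a a' _ h1 _ h2
    rwa [mul_inv_cancel_left, mul_inv_cancel_left] at this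
  have aux : ∀ g s : H, s ∈ U → (P.f (c g))⁻¹ * P.f (c (g * s)) ∈ U := by
    intro g s hs
    have h1 := hc g
    have h2 := hc (g * s)
    have : (P.f (c g))⁻¹ * P.f (c (g * s))
        = ((P.f (c g))⁻¹ * g) * s * ((P.f (c (g * s)))⁻¹ * (g * s))⁻¹ := by group
    rw [this]
    exact U.mul_mem (U.mul_mem h1 hs) (U.inv_mem h2)
  have aux' : ∀ h' : H', (P.f h')⁻¹ * P.f (c (P.f h')) ∈ U := by
    intro h'
    have h1 := U.inv_mem (hc (P.f h'))
    simpa using h1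
  refine ⟨fun g => y' (c g.1, c g.2), ⟨U, hU, fun g g' s hs s' hs' => ?_⟩, fun h₁ h₂ => ?_⟩
  · exact key _ _ _ _ (aux g s hs) (aux g' s' hs')
  · exact key _ _ _ _ (aux' h₁) (aux' h₂)

end Compare

open Compare

theorem Pair.IsDense.bijective0 [Smooth L ρ] {P : Pair L ρ L' ρ'} (hP : P.IsDense) :
    Function.Bijective P.map0 := by
  constructor
  · intro x y hxy
    apply Subtype.ext
    apply hP.bij.1
    simpa using congrArg Subtype.val hxy
  · intro x'
    obtain ⟨x, hx⟩ := hP.bij.2 (x' : X')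
    refine ⟨⟨x, fun g => ?_⟩, Subtype.ext hx⟩
    obtain ⟨U, hU, hUx⟩ := Smooth.exists_isOpen (L := L) (ρ := ρ) x
    obtain ⟨h', hh'⟩ := hP.dense U hU g
    rw [rho_congr le_rfl hUx hh']
    apply hP.bij.1
    rw [P.compat, hx]
    exact x'.2 h'

theorem Pair.IsDense.bijective1 [Smooth L ρ] {P : Pair L ρ L' ρ'} (hP : P.IsDense) :
    Function.Bijective P.map1 := by
  constructor
  · rw [injective_iff_map_eq_zero]
    intro c hc
    obtain ⟨z, rfl⟩ := H1.mk_surjective L ρ c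
    rw [Pair.map1_mk, H1.mk_eq_zero_iff] at hc
    obtain ⟨x', hx'⟩ := hc
    obtain ⟨x, rfl⟩ := hP.bij.2 x'
    rw [H1.mk_eq_zero_iff]
    refine ⟨x, fun g => ?_⟩
    obtain ⟨U₁, hU₁, h₁⟩ := (mem_Z1.1 z.2).2
    obtain ⟨U₂, hU₂, h₂⟩ := Smooth.exists_isOpen (L := L) (ρ := ρ) x
    obtain ⟨a, ha⟩ := hP.dense _ (L.isOpen_inf hU₁ hU₂) g
    rw [congr1 inf_le_left h₁ ha, rho_congr inf_le_right h₂ ha]
    apply hP.bij.1
    have := hx' a
    simp only [Pair.z1_coe, Pair.c1_apply] at this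
    rw [this, map_sub, P.compat]
  · intro c'
    obtain ⟨z', rfl⟩ := H1.mk_surjective L' ρ' c'
    let e := LinearEquiv.ofBijective P.φ hP.bij
    have he : ∀ w, P.φ (e.symm w) = w := fun w => e.apply_symm_apply w
    obtain ⟨hz'c, hz'l⟩ := mem_Z1.1 z'.2
    obtain ⟨z, hzl, hz⟩ := exists_desc1 hP (hz'l.comp e.symm)
    have hzZ : z ∈ Z1 L ρ := by
      rw [mem_Z1]
      refine ⟨fun g h => ?_, hzl⟩
      obtain ⟨U₁, hU₁, h₁⟩ := hzl
      obtain ⟨U₂, hU₂, h₂⟩ := Smooth.exists_isOpen (L := L) (ρ := ρ) (z h)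
      obtain ⟨N, hN, hNU, hNn, -⟩ := L.exists_normal (L.isOpen_inf hU₁ hU₂)
      obtain ⟨a, ha⟩ := hP.dense N hN g
      obtain ⟨b, hb⟩ := hP.dense N hN h
      rw [rho_congr (hNU.trans inf_le_right) h₂ ha,
        congr1 (hNU.trans inf_le_left) h₁ (mul_mem_of hNn ha hb),
        congr1 (hNU.trans inf_le_left) h₁ ha, congr1 (hNU.trans inf_le_left) h₁ hb,
        ← map_mul, hz, hz, hz]
      apply hP.bij.1
      simp only [Function.comp_apply, map_add, P.compat, he, hz'c]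
    refine ⟨H1.mk L ρ ⟨z, hzZ⟩, ?_⟩
    rw [Pair.map1_mk]
    congr 1
    apply Subtype.ext
    funext h'
    simp only [Pair.z1_coe, Pair.c1_apply, hz, Function.comp_apply, he]

theorem Pair.IsDense.bijective2 [Smooth L ρ] {P : Pair L ρ L' ρ'} (hP : P.IsDense) :
    Function.Bijective P.map2 := by
  let e := LinearEquiv.ofBijective P.φ hP.bij
  have he : ∀ w, P.φ (e.symm w) = w := fun w => e.apply_symm_apply w
  constructor
  · rw [injective_iff_map_eq_zero]
    intro c hc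
    obtain ⟨z, rfl⟩ := H2.mk_surjective L ρ c
    rw [Pair.map2_mk, H2.mk_eq_zero_iff] at hc
    obtain ⟨y', hy'l, hy'⟩ := hc
    obtain ⟨y, hyl, hy⟩ := exists_desc1 hP (hy'l.comp e.symm)
    rw [H2.mk_eq_zero_iff]
    refine ⟨y, hyl, fun g h => ?_⟩
    obtain ⟨U₁, hU₁, h₁⟩ := (mem_Z2.1 z.2).2
    obtain ⟨U₂, hU₂, h₂⟩ := Smooth.exists_isOpen (L := L) (ρ := ρ) (y h)
    obtain ⟨U₃, hU₃, h₃⟩ := hyl
    obtain ⟨N, hN, hNU, hNn, -⟩ := L.exists_normal (L.isOpen_inf (L.isOpen_inf hU₁ hU₂) hU₃)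
    have hN₁ : N ≤ U₁ := hNU.trans (inf_le_left.trans inf_le_left)
    have hN₂ : N ≤ U₂ := hNU.trans (inf_le_left.trans inf_le_right)
    have hN₃ : N ≤ U₃ := hNU.trans inf_le_right
    obtain ⟨a, ha⟩ := hP.dense N hN g
    obtain ⟨b, hb⟩ := hP.dense N hN h
    rw [rho_congr hN₂ h₂ ha, congr2 hN₁ h₁ ha hb, congr1 hN₃ h₃ (mul_mem_of hNn ha hb),
      congr1 hN₃ h₃ ha, congr1 hN₃ h₃ hb, ← map_mul, hy, hy, hy]
    apply hP.bij.1
    have := hy' a b
    simp only [Pair.z2_coe, Pair.c2_apply] at this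
    simp only [this, Function.comp_apply, map_add, map_sub, P.compat, he]
  · intro c'
    obtain ⟨z', rfl⟩ := H2.mk_surjective L' ρ' c'
    obtain ⟨hz'c, hz'l⟩ := mem_Z2.1 z'.2
    obtain ⟨z, hzl, hz⟩ := exists_desc2 hP (hz'l.comp e.symm)
    have hzZ : z ∈ Z2 L ρ := by
      rw [mem_Z2]
      refine ⟨fun g h j => ?_, hzl⟩
      obtain ⟨U₁, hU₁, h₁⟩ := hzl
      obtain ⟨U₂, hU₂, h₂⟩ := Smooth.exists_isOpen (L := L) (ρ := ρ) (z (h, j))
      obtain ⟨N, hN, hNU, hNn, -⟩ := L.exists_normal (L.isOpen_inf hU₁ hU₂)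
      have hN₁ : N ≤ U₁ := hNU.trans inf_le_left
      have hN₂ : N ≤ U₂ := hNU.trans inf_le_right
      obtain ⟨a, ha⟩ := hP.dense N hN g
      obtain ⟨b, hb⟩ := hP.dense N hN h
      obtain ⟨c, hc⟩ := hP.dense N hN j
      rw [rho_congr hN₂ h₂ ha, congr2 hN₁ h₁ hb hc, congr2 hN₁ h₁ ha (mul_mem_of hNn hb hc),
        congr2 hN₁ h₁ (mul_mem_of hNn ha hb) hc, congr2 hN₁ h₁ ha hb, ← map_mul, ← map_mul,
        hz, hz, hz, hz]
      apply hP.bij.1
      simp only [Function.comp_apply, map_add, P.compat, he, hz'c]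
    refine ⟨H2.mk L ρ ⟨z, hzZ⟩, ?_⟩
    rw [Pair.map2_mk]
    congr 1
    apply Subtype.ext
    funext h'
    simp only [Pair.z2_coe, Pair.c2_apply, hz, Function.comp_apply, he]

end Fermat.Agent.S55

end
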