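import Fermat.Agent.S55.Coh.Compare

/-!
# S55 (A1'): instances of the comparison theorem
TASK S55/A-CompareInst.
-/

set_option autoImplicit false

noncomputable section

namespace Fermat.Agent.S55

variable {k : Type} [CommRing k] {H H' : Type} [Group H] [Group H']
variable {X X' : Type} [AddCommGroup X] [Module k X] [AddCommGroup X'] [Module k X']

/-- surjective homomorphism, pulled back levels. -/
lemma Pair.isDense_pull_of_surjective (L : Levels H) (ρ : Representation k H X) (f : H' →* H)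
    (hf : Function.Surjective f) : (Pair.pull L ρ f).IsDense where
  bij := Function.bijective_id
  levels _ hU' := hU'
  dense U _ g := by
    obtain ⟨h', rfl⟩ := hf g
    exact ⟨h', by
      change (f h')⁻¹ * f h' ∈ U
      rw [inv_mul_cancel]; exact U.one_mem⟩

/-- `H' → range f`: cohomology of `H'` with pulled back levels is the cohomology of the image
subgroup. -/
def Pair.rangePull (L : Levels H) (ρ : Representation k H X) (f : H' →* H) :
    Pair (L.sub f.range) (rsub ρ f.range) (L.comap f) (MonoidHom.comp ρ f) where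
  f := f.rangeRestrict
  φ := LinearMap.id
  cont := by
    rintro U ⟨U0, hU0, hle⟩
    exact ⟨U0, hU0, fun x hx => hle (show ((f.rangeRestrict x : f.range) : H) ∈ U0 from hx)⟩
  compat _ _ := rfl

lemma Pair.isDense_rangePull (L : Levels H) (ρ : Representation k H X) (f : H' →* H) :
    (Pair.rangePull L ρ f).IsDense where
  bij := Function.bijective_id
  levels := by
    rintro U' ⟨U0, hU0, hle⟩
    exact ⟨U0.subgroupOf f.range, ⟨U0, hU0, le_rfl⟩, fun x hx => hle hx⟩
  dense U _ g := by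
    obtain ⟨g, h', rfl⟩ := g
    refine ⟨h', ?_⟩
    have : (Pair.rangePull L ρ f).f h' = ⟨f h', h', rfl⟩ := rfl
    rw [this, inv_mul_cancel]
    exact U.one_mem

/-- dense subgroup `V' ≤ V`. -/
lemma Pair.isDense_resLE (L : Levels H) (ρ : Representation k H X) {V' V : Subgroup H}
    (h : V' ≤ V) (hd : ∀ U : Subgroup H, L.IsOpen U → ∀ g ∈ V, ∃ h' ∈ V', h'⁻¹ * g ∈ U) :
    (Pair.resLE L ρ h).IsDense where
  bij := Function.bijective_id
  levels := by
    rintro U' ⟨U0, hU0, hle⟩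
    exact ⟨U0.subgroupOf V, ⟨U0, hU0, le_rfl⟩, fun x hx => hle hx⟩
  dense := by
    rintro U ⟨U0, hU0, hle⟩ g
    obtain ⟨h', hh', hmem⟩ := hd U0 hU0 g g.2
    exact ⟨⟨h', hh'⟩, hle hmem⟩

/-- subgroup of a subgroup: `W : Subgroup V` versus `W.map V.subtype : Subgroup H`. -/
def Pair.subSub (L : Levels H) (ρ : Representation k H X) (V : Subgroup H) (W : Subgroup V) :
    Pair (L.sub (W.map V.subtype)) (rsub ρ (W.map V.subtype)) ((L.sub V).sub W)
      (rsub (rsub ρ V) W) where
  f :=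
    { toFun := fun w => ⟨((w : V) : H), ⟨(w : V), w.2, rfl⟩⟩
      map_one' := rfl
      map_mul' := fun _ _ => rfl }
  φ := LinearMap.id
  cont := by
    rintro U ⟨U0, hU0, hle⟩
    exact ⟨U0.subgroupOf V, ⟨U0, hU0, le_rfl⟩, fun x hx => hle hx⟩
  compat _ _ := rfl

lemma Pair.isDense_subSub (L : Levels H) (ρ : Representation k H X) (V : Subgroup H)
    (W : Subgroup V) : (Pair.subSub L ρ V W).IsDense where
  bij := Function.bijective_id
  levels := by
    rintro U' ⟨U1, ⟨U0, hU0, hle1⟩, hle⟩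
    exact ⟨U0.subgroupOf (W.map V.subtype), ⟨U0, hU0, le_rfl⟩, fun x hx => hle (hle1 hx)⟩
  dense U _ g := by
    obtain ⟨g, v, hv, rfl⟩ := g
    refine ⟨⟨v, hv⟩, ?_⟩
    have : (Pair.subSub L ρ V W).f ⟨v, hv⟩ = ⟨V.subtype v, v, hv, rfl⟩ := rfl
    rw [this, inv_mul_cancel]
    exact U.one_mem

/-- subgroup of a subgroup, other direction: `W ≤ V` in `H` versus `W.subgroupOf V`. -/
def Pair.subOf (L : Levels H) (ρ : Representation k H X) {W V : Subgroup H} (h : W ≤ V) :
    Pair ((L.sub V).sub (W.subgroupOf V)) (rsub (rsub ρ V) (W.subgroupOf V)) (L.sub W)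
      (rsub ρ W) where
  f :=
    { toFun := fun w => ⟨⟨(w : H), h w.2⟩, w.2⟩
      map_one' := rfl
      map_mul' := fun _ _ => rfl }
  φ := LinearMap.id
  cont := by
    rintro U ⟨U1, ⟨U0, hU0, hle1⟩, hle⟩
    exact ⟨U0, hU0, fun x hx => hle (hle1 hx)⟩
  compat _ _ := rfl

lemma Pair.isDense_subOf (L : Levels H) (ρ : Representation k H X) {W V : Subgroup H}
    (h : W ≤ V) : (Pair.subOf L ρ h).IsDense where
  bij := Function.bijective_id
  levels := by
    rintro U' ⟨U0, hU0, hle⟩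
    exact ⟨(U0.subgroupOf V).subgroupOf (W.subgroupOf V),
      ⟨U0.subgroupOf V, ⟨U0, hU0, le_rfl⟩, le_rfl⟩, fun x hx => hle hx⟩
  dense U _ g := by
    obtain ⟨⟨g, hgV⟩, hgW⟩ := g
    refine ⟨⟨g, hgW⟩, ?_⟩
    have : (Pair.subOf L ρ h).f ⟨g, hgW⟩ = ⟨⟨g, hgV⟩, hgW⟩ := rfl
    rw [this, inv_mul_cancel]
    exact U.one_mem

/-- equal subgroups. -/
lemma Pair.isDense_resLE_of_eq (L : Levels H) (ρ : Representation k H X) {V' V : Subgroup H}
    (h : V' = V) : (Pair.resLE L ρ h.le).IsDense :=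
  Pair.isDense_resLE L ρ h.le (fun U _ g hg => ⟨g, h ▸ hg, by
    rw [inv_mul_cancel]; exact U.one_mem⟩)

/-- the whole group as the subgroup `⊤`. -/
lemma Pair.isDense_res_top (L : Levels H) (ρ : Representation k H X) :
    (Pair.res L ρ ⊤).IsDense :=
  Pair.isDense_pull_of_surjective L ρ (⊤ : Subgroup H).subtype
    (fun g => ⟨⟨g, Subgroup.mem_top g⟩, rfl⟩)

/-- an equivariant linear equivalence. -/
lemma Pair.isDense_coeff (L : Levels H) {ρ : Representation k H X} {σ : Representation k H X'}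
    (e : X ≃ₗ[k] X') (he : ∀ h x, e (ρ h x) = σ h (e x)) :
    (Pair.coeff L e.toLinearMap he).IsDense where
  bij := e.bijective
  levels U' hU' := ⟨U', hU', le_rfl⟩
  dense U _ g := ⟨g, by
    change g⁻¹ * g ∈ U
    rw [inv_mul_cancel]; exact U.one_mem⟩

/-- conjugation by `g` between `V` and `g⁻¹ V g`. -/
lemma Pair.isDense_conj (L : Levels H) (ρ : Representation k H X) (g : H) {V V' : Subgroup H}
    (h : ∀ v, v ∈ V' ↔ g * v * g⁻¹ ∈ V) :
    (Pair.conj L ρ g (fun v hv => (h v).1 hv)).IsDense where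
  bij := by
    change Function.Bijective (ρ g⁻¹)
    refine Function.bijective_iff_has_inverse.2 ⟨ρ g, fun x => ?_, fun x => ?_⟩
    · rw [← Module.End.mul_apply, ← map_mul, mul_inv_cancel, map_one]; rfl
    · rw [← Module.End.mul_apply, ← map_mul, inv_mul_cancel, map_one]; rfl
  levels := by
    rintro U' ⟨U0, hU0, hle⟩
    obtain ⟨N, hN, hNU, hNn, -⟩ := L.exists_normal hU0
    refine ⟨N.subgroupOf V, ⟨N, hN, le_rfl⟩, fun x hx => hle (hNU ?_)⟩
    have h1 : g * (x : H) * g⁻¹ ∈ N := hx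
    have h2 := hNn.conj_mem _ h1 g⁻¹
    have h3 : g⁻¹ * (g * (x : H) * g⁻¹) * g⁻¹⁻¹ = x := by group
    rw [h3] at h2
    exact h2
  dense U _ y := by
    have hy : g⁻¹ * (y : H) * g ∈ V' := by
      rw [h]
      have : g * (g⁻¹ * (y : H) * g) * g⁻¹ = y := by group
      rw [this]; exact y.2
    refine ⟨⟨g⁻¹ * (y : H) * g, hy⟩, ?_⟩
    have : (Pair.conj L ρ g (fun v hv => (h v).1 hv)).f ⟨g⁻¹ * (y : H) * g, hy⟩ = y := by
      apply Subtype.ext
      change g * (g⁻¹ * (y : H) * g) * g⁻¹ = y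
      group
    rw [this, inv_mul_cancel]
    exact U.one_mem

end Fermat.Agent.S55

end
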