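import Fermat.Agent.S55.Coh.Shapiro

/-!
# S55 (A4d): corestriction `cores = Σ_* ∘ sh⁻¹`
TASK S55/A-Cores.
-/

set_option autoImplicit false
set_option linter.unusedSectionVars false
set_option linter.style.haveILetI false

noncomputable section

namespace Fermat.Agent.S55

variable {k : Type} [CommRing k] {H : Type} [Group H]
variable {X X' : Type} [AddCommGroup X] [Module k X] [AddCommGroup X'] [Module k X']

lemma mem_iff_smul_coe_one (V : Subgroup H) (v : H) :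
    v ∈ V ↔ v • ((1 : H) : H ⧸ V) = ((1 : H) : H ⧸ V) := by
  have h : v • ((1 : H) : H ⧸ V) = ((v * 1 : H) : H ⧸ V) := rfl
  rw [h, QuotientGroup.eq]
  simp

section
variable (L : Levels H) (ρ : Representation k H X)

/-- the Shapiro pair for `Ω = H ⧸ V`, at the base point. -/
def Pair.sh (V : Subgroup H) : Pair L (Fun ρ (H ⧸ V)) (L.sub V) (rsub ρ V) :=
  Pair.ev L ρ (H ⧸ V) V ((1 : H) : H ⧸ V) (fun v hv => (mem_iff_smul_coe_one V v).1 hv)

variable [Smooth L ρ] (V : Subgroup H) (hV : L.IsOpen V)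

lemma sh_bijective0 : Function.Bijective (Pair.sh L ρ V).map0 :=
  ev_bijective0 L ρ (H ⧸ V) V _ (mem_iff_smul_coe_one V)

include hV in
lemma sh_bijective1 : Function.Bijective (Pair.sh L ρ V).map1 :=
  haveI := L.finite_quotient hV
  haveI := L.smoothSet_quotient' hV
  ev_bijective1 L ρ (H ⧸ V) V _ (mem_iff_smul_coe_one V)

include hV in
lemma sh_bijective2 : Function.Bijective (Pair.sh L ρ V).map2 :=
  haveI := L.finite_quotient hV
  haveI := L.smoothSet_quotient' hV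
  ev_bijective2 L ρ (H ⧸ V) V _ (mem_iff_smul_coe_one V)

/-- corestriction in degree 0. -/
def cores0 : ↥(H0 (rsub ρ V)) →ₗ[k] ↥(H0 ρ) :=
  haveI := L.finite_quotient hV
  (Pair.sum ρ (H ⧸ V) L).map0 ∘ₗ (LinearEquiv.ofBijective _ (sh_bijective0 L ρ V)).symm.toLinearMap

/-- corestriction in degree 1. -/
def cores1 : H1 (L.sub V) (rsub ρ V) →ₗ[k] H1 L ρ :=
  haveI := L.finite_quotient hV
  (Pair.sum ρ (H ⧸ V) L).map1 ∘ₗ
    (LinearEquiv.ofBijective _ (sh_bijective1 L ρ V hV)).symm.toLinearMap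

/-- corestriction in degree 2. -/
def cores2 : H2 (L.sub V) (rsub ρ V) →ₗ[k] H2 L ρ :=
  haveI := L.finite_quotient hV
  (Pair.sum ρ (H ⧸ V) L).map2 ∘ₗ
    (LinearEquiv.ofBijective _ (sh_bijective2 L ρ V hV)).symm.toLinearMap

lemma cores0_sh [Finite (H ⧸ V)] (y : ↥(H0 (Fun ρ (H ⧸ V)))) :
    cores0 L ρ V hV ((Pair.sh L ρ V).map0 y) = (Pair.sum ρ (H ⧸ V) L).map0 y := by
  unfold cores0
  rw [LinearMap.comp_apply]
  congr 1
  exact (LinearEquiv.ofBijective _ (sh_bijective0 L ρ V)).symm_apply_apply y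

lemma cores1_sh [Finite (H ⧸ V)] (y : H1 L (Fun ρ (H ⧸ V))) :
    cores1 L ρ V hV ((Pair.sh L ρ V).map1 y) = (Pair.sum ρ (H ⧸ V) L).map1 y := by
  unfold cores1
  rw [LinearMap.comp_apply]
  congr 1
  exact (LinearEquiv.ofBijective _ (sh_bijective1 L ρ V hV)).symm_apply_apply y

lemma cores2_sh [Finite (H ⧸ V)] (y : H2 L (Fun ρ (H ⧸ V))) :
    cores2 L ρ V hV ((Pair.sh L ρ V).map2 y) = (Pair.sum ρ (H ⧸ V) L).map2 y := by
  unfold cores2
  rw [LinearMap.comp_apply]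
  congr 1
  exact (LinearEquiv.ofBijective _ (sh_bijective2 L ρ V hV)).symm_apply_apply y

/-- explicit formula in degree 0: the norm/trace. -/
lemma cores0_coe (x : ↥(H0 (rsub ρ V))) :
    ((cores0 L ρ V hV x : ↥(H0 ρ)) : X) = ∑ᶠ q : H ⧸ V, ρ q.out (x : X) := by
  haveI := L.finite_quotient hV
  letI := Fintype.ofFinite (H ⧸ V)
  obtain ⟨f, rfl⟩ := (sh_bijective0 L ρ V).2 x
  rw [cores0_sh, finsum_eq_sum_of_fintype]
  show sumMap k X (H ⧸ V) (f : H ⧸ V → X) = _
  rw [sumMap_apply]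
  refine Finset.sum_congr rfl fun q _ => ?_
  show _ = ρ q.out ((f : H ⧸ V → X) ((1 : H) : H ⧸ V))
  rw [← Shapiro.inv_apply_smul]
  have h : q.out • ((1 : H) : H ⧸ V) = ((q.out * 1 : H) : H ⧸ V) := rfl
  rw [h, mul_one, QuotientGroup.out_eq']

lemma cores0_res (x : ↥(H0 ρ)) : cores0 L ρ V hV ((Pair.res L ρ V).map0 x) = V.index • x := by
  haveI := L.finite_quotient hV
  have h := LinearMap.congr_fun (ev_comp_const0 L ρ (H ⧸ V) V ((1 : H) : H ⧸ V)
    (fun v hv => (mem_iff_smul_coe_one V v).1 hv)) x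
  rw [LinearMap.comp_apply] at h
  rw [← h]
  erw [cores0_sh]
  apply Subtype.ext
  show sumMap k X (H ⧸ V) (constMap k X (H ⧸ V) (x : X)) = _
  rw [sumMap_constMap]
  rfl

lemma cores1_res (x : H1 L ρ) : cores1 L ρ V hV ((Pair.res L ρ V).map1 x) = V.index • x := by
  haveI := L.finite_quotient hV
  have h := LinearMap.congr_fun (ev_comp_const1 L ρ (H ⧸ V) V ((1 : H) : H ⧸ V)
    (fun v hv => (mem_iff_smul_coe_one V v).1 hv)) x
  rw [LinearMap.comp_apply] at h
  rw [← h]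
  erw [cores1_sh]
  obtain ⟨z, rfl⟩ := H1.mk_surjective L ρ x
  rw [Pair.map1_mk, Pair.map1_mk, ← map_nsmul]
  congr 1
  apply Subtype.ext
  funext g
  show sumMap k X (H ⧸ V) (constMap k X (H ⧸ V) ((z : H → X) g)) = _
  rw [sumMap_constMap]
  rfl

lemma cores2_res (x : H2 L ρ) : cores2 L ρ V hV ((Pair.res L ρ V).map2 x) = V.index • x := by
  haveI := L.finite_quotient hV
  have h := LinearMap.congr_fun (ev_comp_const2 L ρ (H ⧸ V) V ((1 : H) : H ⧸ V)
    (fun v hv => (mem_iff_smul_coe_one V v).1 hv)) x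
  rw [LinearMap.comp_apply] at h
  rw [← h]
  erw [cores2_sh]
  obtain ⟨z, rfl⟩ := H2.mk_surjective L ρ x
  rw [Pair.map2_mk, Pair.map2_mk, ← map_nsmul]
  congr 1
  apply Subtype.ext
  funext g
  show sumMap k X (H ⧸ V) (constMap k X (H ⧸ V) ((z : H × H → X) (g.1, g.2))) = _
  rw [sumMap_constMap]
  rfl

include hV in
lemma res_injective1 (hu : IsUnit (V.index : k)) : Function.Injective (Pair.res L ρ V).map1 := by
  rw [injective_iff_map_eq_zero]
  intro x hx
  have h := cores1_res L ρ V hV x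
  rw [hx, map_zero, ← Nat.cast_smul_eq_nsmul k] at h
  obtain ⟨u, hu⟩ := hu
  rw [← hu] at h
  have h2 : (↑u⁻¹ : k) • ((u : k) • x) = x := by rw [smul_smul, u.inv_mul, one_smul]
  rw [← h2, ← h, smul_zero]

include hV in
lemma res_injective2 (hu : IsUnit (V.index : k)) : Function.Injective (Pair.res L ρ V).map2 := by
  rw [injective_iff_map_eq_zero]
  intro x hx
  have h := cores2_res L ρ V hV x
  rw [hx, map_zero, ← Nat.cast_smul_eq_nsmul k] at h
  obtain ⟨u, hu⟩ := hu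
  rw [← hu] at h
  have h2 : (↑u⁻¹ : k) • ((u : k) • x) = x := by rw [smul_smul, u.inv_mul, one_smul]
  rw [← h2, ← h, smul_zero]

lemma cores1_surjective (hu : IsUnit (V.index : k)) :
    Function.Surjective (cores1 L ρ V hV) := by
  intro x
  obtain ⟨u, hu⟩ := hu
  refine ⟨(Pair.res L ρ V).map1 ((↑u⁻¹ : k) • x), ?_⟩
  rw [cores1_res, ← Nat.cast_smul_eq_nsmul k, ← hu, smul_smul, u.mul_inv, one_smul]

lemma cores2_surjective (hu : IsUnit (V.index : k)) :
    Function.Surjective (cores2 L ρ V hV) := by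
  intro x
  obtain ⟨u, hu⟩ := hu
  refine ⟨(Pair.res L ρ V).map2 ((↑u⁻¹ : k) • x), ?_⟩
  rw [cores2_res, ← Nat.cast_smul_eq_nsmul k, ← hu, smul_smul, u.mul_inv, one_smul]

end

/-! ### naturality of corestriction -/

section
variable (L : Levels H) {ρ : Representation k H X} {σ : Representation k H X'}
  [Smooth L ρ] [Smooth L σ] (V : Subgroup H) (hV : L.IsOpen V)
  (φ : X →ₗ[k] X') (hφ : ∀ h x, φ (ρ h x) = σ h (φ x))

/-- a coefficient map, for the subgroup `V`. -/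
def Pair.coeffSub (L : Levels H) {ρ : Representation k H X} {σ : Representation k H X'}
    (V : Subgroup H) (φ : X →ₗ[k] X') (hφ : ∀ h x, φ (ρ h x) = σ h (φ x)) :
    Pair (L.sub V) (rsub ρ V) (L.sub V) (rsub σ V) :=
  Pair.coeff (L.sub V) φ (fun h x => hφ (h : H) x)

lemma cores0_coeff (y : ↥(H0 (rsub ρ V))) :
    cores0 L σ V hV ((Pair.coeffSub L V φ hφ).map0 y) =
      (Pair.coeff L φ hφ).map0 (cores0 L ρ V hV y) := by
  haveI := L.finite_quotient hV
  letI := Fintype.ofFinite (H ⧸ V)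
  obtain ⟨f, rfl⟩ := (sh_bijective0 L ρ V).2 y
  have e : (Pair.coeffSub L V φ hφ).map0 ((Pair.sh L ρ V).map0 f)
      = (Pair.sh L σ V).map0 ((Pair.funMap (H ⧸ V) L φ hφ).map0 f) := rfl
  rw [e, cores0_sh, cores0_sh]
  apply Subtype.ext
  show sumMap k X' (H ⧸ V) (fun w => φ ((f : H ⧸ V → X) w)) = φ (sumMap k X (H ⧸ V) f)
  rw [sumMap_apply, sumMap_apply, map_sum]

lemma cores1_coeff (y : H1 (L.sub V) (rsub ρ V)) :
    cores1 L σ V hV ((Pair.coeffSub L V φ hφ).map1 y) =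
      (Pair.coeff L φ hφ).map1 (cores1 L ρ V hV y) := by
  haveI := L.finite_quotient hV
  letI := Fintype.ofFinite (H ⧸ V)
  obtain ⟨f, rfl⟩ := (sh_bijective1 L ρ V hV).2 y
  have e : (Pair.coeffSub L V φ hφ).map1 ((Pair.sh L ρ V).map1 f)
      = (Pair.sh L σ V).map1 ((Pair.funMap (H ⧸ V) L φ hφ).map1 f) := by
    obtain ⟨z, rfl⟩ := H1.mk_surjective _ _ f
    rfl
  rw [e, cores1_sh, cores1_sh]
  obtain ⟨z, rfl⟩ := H1.mk_surjective _ _ f
  simp only [Pair.map1_mk]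
  congr 1
  apply Subtype.ext
  funext g
  show sumMap k X' (H ⧸ V) (fun w => φ ((z : H → H ⧸ V → X) g w))
    = φ (sumMap k X (H ⧸ V) ((z : H → H ⧸ V → X) g))
  rw [sumMap_apply, sumMap_apply, map_sum]

lemma cores2_coeff (y : H2 (L.sub V) (rsub ρ V)) :
    cores2 L σ V hV ((Pair.coeffSub L V φ hφ).map2 y) =
      (Pair.coeff L φ hφ).map2 (cores2 L ρ V hV y) := by
  haveI := L.finite_quotient hV
  letI := Fintype.ofFinite (H ⧸ V)
  obtain ⟨f, rfl⟩ := (sh_bijective2 L ρ V hV).2 y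
  have e : (Pair.coeffSub L V φ hφ).map2 ((Pair.sh L ρ V).map2 f)
      = (Pair.sh L σ V).map2 ((Pair.funMap (H ⧸ V) L φ hφ).map2 f) := by
    obtain ⟨z, rfl⟩ := H2.mk_surjective _ _ f
    rfl
  rw [e, cores2_sh, cores2_sh]
  obtain ⟨z, rfl⟩ := H2.mk_surjective _ _ f
  simp only [Pair.map2_mk]
  congr 1
  apply Subtype.ext
  funext g
  show sumMap k X' (H ⧸ V) (fun w => φ ((z : H × H → H ⧸ V → X) (g.1, g.2) w))
    = φ (sumMap k X (H ⧸ V) ((z : H × H → H ⧸ V → X) (g.1, g.2)))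
  rw [sumMap_apply, sumMap_apply, map_sum]

end

section
variable {A B C : Type} [AddCommGroup A] [Module k A] [AddCommGroup B] [Module k B]
  [AddCommGroup C] [Module k C]
variable {ρA : Representation k H A} {ρB : Representation k H B} {ρC : Representation k H C}
variable (L : Levels H) [Smooth L ρA] [Smooth L ρB] [Smooth L ρC] (E : SES ρA ρB ρC)
  (V : Subgroup H) (hV : L.IsOpen V)

namespace Cores

/-- summation as a morphism of SES. -/
def sumHom (E : SES ρA ρB ρC) (L : Levels H) (Ω : Type) [MulAction H Ω] [Finite Ω] :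
    SES.Hom (E.funSES Ω) E L L where
  PA := Pair.sum ρA Ω L
  PB := Pair.sum ρB Ω L
  PC := Pair.sum ρC Ω L
  fAB := rfl
  fBC := rfl
  comm_i a := by
    letI := Fintype.ofFinite Ω
    show sumMap k B Ω (fun w => E.i (a w)) = E.i (sumMap k A Ω a)
    rw [sumMap_apply, sumMap_apply, map_sum]
  comm_π b := by
    letI := Fintype.ofFinite Ω
    show sumMap k C Ω (fun w => E.π (b w)) = E.π (sumMap k B Ω b)
    rw [sumMap_apply, sumMap_apply, map_sum]

end Cores

/-- corestriction commutes with the connecting maps. -/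
lemma cores1_δ0 (c : ↥(H0 (rsub ρC V))) :
    cores1 L ρA V hV ((E.sub V).δ0 (L.sub V) c) = E.δ0 L (cores0 L ρC V hV c) := by
  haveI := L.finite_quotient hV
  haveI := L.smoothSet_quotient' hV
  obtain ⟨f, rfl⟩ := (sh_bijective0 L ρC V).2 c
  have h1 := (SES.Hom.ev E L (H ⧸ V) V ((1 : H) : H ⧸ V)
    (fun v hv => (mem_iff_smul_coe_one V v).1 hv)).δ0_comm f
  have h2 := (Cores.sumHom E L (H ⧸ V)).δ0_comm f
  rw [cores0_sh]
  erw [← h1, cores1_sh]
  exact h2

lemma cores2_δ1 (c : H1 (L.sub V) (rsub ρC V)) :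
    cores2 L ρA V hV ((E.sub V).δ1 (L.sub V) c) = E.δ1 L (cores1 L ρC V hV c) := by
  haveI := L.finite_quotient hV
  haveI := L.smoothSet_quotient' hV
  obtain ⟨f, rfl⟩ := (sh_bijective1 L ρC V hV).2 c
  have h1 := (SES.Hom.ev E L (H ⧸ V) V ((1 : H) : H ⧸ V)
    (fun v hv => (mem_iff_smul_coe_one V v).1 hv)).δ1_comm f
  have h2 := (Cores.sumHom E L (H ⧸ V)).δ1_comm f
  rw [cores1_sh]
  erw [← h1, cores2_sh]
  exact h2

end

end Fermat.Agent.S55

end
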