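import Fermat.Agent.S55.Coh.Cores

/-!
# S55 (A6): cup product of a 1-class with a level character `χ : H → k`
TASK S55/A-Cup.
`(y ∪ χ)(g,h) := χ(h) • y(g)`.  `d0 x ∪ χ = d1 (g ↦ χ(g) • x)`.
-/

set_option autoImplicit false

noncomputable section

namespace Fermat.Agent.S55

variable {k : Type} [CommRing k] {H H' : Type} [Group H] [Group H']
variable {X X' : Type} [AddCommGroup X] [Module k X] [AddCommGroup X'] [Module k X']

/-- cup product on cochains. -/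
def cupC (χ : H →* Multiplicative k) : (H → X) →ₗ[k] (H × H → X) where
  toFun y g := (Multiplicative.toAdd (χ g.2)) • y g.1
  map_add' y y' := by ext g; simp
  map_smul' c y := by
    ext g
    simp only [Pi.smul_apply, RingHom.id_apply]
    exact smul_comm _ _ _

@[simp] lemma cupC_apply (χ : H →* Multiplicative k) (y : H → X) (g : H × H) :
    cupC χ y g = (Multiplicative.toAdd (χ g.2)) • y g.1 := rfl

variable (L : Levels H) (ρ : Representation k H X)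

lemma cupC_mem_Z2 (χ : H →* Multiplicative k) (hχ : L.IsLevel₁ χ) {y : H → X}
    (hy : y ∈ Z1 L ρ) : cupC χ y ∈ Z2 L ρ := by
  rw [mem_Z1] at hy
  rw [mem_Z2]
  refine ⟨fun g h j => ?_, ?_⟩
  · simp only [cupC_apply, map_mul, toAdd_mul, hy.1, map_smul, smul_add, add_smul]
    abel
  · obtain ⟨U, hU, h⟩ := hy.2
    obtain ⟨U', hU', h'⟩ := hχ
    exact ⟨U ⊓ U', L.isOpen_inf hU hU', fun g g' s hs s' hs' => by
      simp only [cupC_apply, h g s hs.1, h' g' s' hs'.2]⟩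

lemma cupC_mem_B2 (χ : H →* Multiplicative k) (hχ : L.IsLevel₁ χ) {y : H → X}
    (hy : y ∈ B1 ρ) : cupC χ y ∈ B2 L ρ := by
  rw [mem_B1] at hy
  obtain ⟨x, hx⟩ := hy
  rw [mem_B2]
  refine ⟨fun g => (Multiplicative.toAdd (χ g)) • x, ?_, fun g h => ?_⟩
  · obtain ⟨U', hU', h'⟩ := hχ
    exact ⟨U', hU', fun g s hs => by simp only [h' g s hs]⟩
  · simp only [cupC_apply, hx, map_mul, toAdd_mul, map_smul, smul_sub, add_smul]
    abel

/-- `y ↦ y ∪ χ`, `H^1 → H^2`. -/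
def cup (χ : H →* Multiplicative k) (hχ : L.IsLevel₁ χ) : H1 L ρ →ₗ[k] H2 L ρ :=
  Submodule.mapQ _ _ ((cupC χ).restrict (fun _ hy => cupC_mem_Z2 L ρ χ hχ hy))
    (fun _ hy => cupC_mem_B2 L ρ χ hχ hy)

lemma cup_mk (χ : H →* Multiplicative k) (hχ : L.IsLevel₁ χ) (y : ↥(Z1 L ρ)) :
    cup L ρ χ hχ (H1.mk L ρ y) = H2.mk L ρ ⟨cupC χ y, cupC_mem_Z2 L ρ χ hχ y.2⟩ := rfl

lemma isLevel_mul_char {χ χ' : H →* Multiplicative k} (hχ : L.IsLevel₁ χ)
    (hχ' : L.IsLevel₁ χ') : L.IsLevel₁ (χ * χ') := by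
  obtain ⟨U, hU, h⟩ := hχ
  obtain ⟨U', hU', h'⟩ := hχ'
  exact ⟨U ⊓ U', L.isOpen_inf hU hU', fun g s hs => by
    simp only [MonoidHom.mul_apply, h g s hs.1, h' g s hs.2]⟩

lemma cup_mul_char (χ χ' : H →* Multiplicative k) (hχ : L.IsLevel₁ χ) (hχ' : L.IsLevel₁ χ')
    (y : H1 L ρ) :
    cup L ρ (χ * χ') (isLevel_mul_char L hχ hχ') y = cup L ρ χ hχ y + cup L ρ χ' hχ' y := by
  obtain ⟨z, rfl⟩ := H1.mk_surjective L ρ y
  rw [cup_mk, cup_mk, cup_mk, ← map_add]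
  congr 1
  apply Subtype.ext
  funext g
  simp [add_smul]

variable {L ρ} in
lemma Pair.isLevel_comp_char {L' : Levels H'} {ρ' : Representation k H' X'}
    (P : Pair L ρ L' ρ') {χ : H →* Multiplicative k} (hχ : L.IsLevel₁ χ) :
    L'.IsLevel₁ (χ.comp P.f) := by
  obtain ⟨U, hU, h⟩ := hχ
  exact ⟨U.comap P.f, P.cont U hU, fun g s hs => by
    simp only [MonoidHom.comp_apply, map_mul P.f, h (P.f g) (P.f s) hs]⟩

variable {L ρ} in
/-- the cup product commutes with every compatible pair. -/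
lemma Pair.map2_cup {L' : Levels H'} {ρ' : Representation k H' X'} (P : Pair L ρ L' ρ')
    (χ : H →* Multiplicative k) (hχ : L.IsLevel₁ χ) (y : H1 L ρ) :
    P.map2 (cup L ρ χ hχ y) = cup L' ρ' (χ.comp P.f) (P.isLevel_comp_char hχ) (P.map1 y) := by
  obtain ⟨z, rfl⟩ := H1.mk_surjective L ρ y
  rw [cup_mk, Pair.map2_mk, Pair.map1_mk, cup_mk]
  congr 1
  apply Subtype.ext
  funext g
  simp

/-- PROJECTION FORMULA: `cores (y' ∪ χ|_V) = cores y' ∪ χ`. -/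
lemma cores2_cup [Smooth L ρ] (V : Subgroup H) (hV : L.IsOpen V) (χ : H →* Multiplicative k)
    (hχ : L.IsLevel₁ χ) (y : H1 (L.sub V) (rsub ρ V)) :
    cores2 L ρ V hV (cup (L.sub V) (rsub ρ V) (χ.comp V.subtype)
      ((Pair.res L ρ V).isLevel_comp_char hχ) y) = cup L ρ χ hχ (cores1 L ρ V hV y) := by
  haveI := L.finite_quotient hV
  obtain ⟨y', rfl⟩ := (sh_bijective1 L ρ V hV).2 y
  rw [cores1_sh]
  have h1 := (Pair.sh L ρ V).map2_cup χ hχ y'
  have h2 := (Pair.sum ρ (H ⧸ V) L).map2_cup χ hχ y'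
  have h3 : cup (L.sub V) (rsub ρ V) (χ.comp V.subtype)
      ((Pair.res L ρ V).isLevel_comp_char hχ) ((Pair.sh L ρ V).map1 y') =
      (Pair.sh L ρ V).map2 (cup L (Fun ρ (H ⧸ V)) χ hχ y') := h1.symm
  rw [h3, cores2_sh, h2]
  rfl

end Fermat.Agent.S55

end
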