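import Mathlib

/-!
# S55 (A): abstract level cohomology -- definitions

`H` a group, `L : Levels H` a filter of "open" subgroups having a base of normal subgroups of
finite index.  `ρ : Representation k H X`.  Level cochains are functions `H → X`, `H × H → X`
which are right invariant under an open subgroup.  `H0 ρ`, `H1 L ρ`, `H2 L ρ`.

Everything lives in `Type` (universe 0) on purpose.
-/

set_option autoImplicit false

noncomputable section

namespace Fermat.Agent.S55

/-- A level structure on a group: a filter of subgroups ("open subgroups") with a base of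
normal subgroups of finite index. -/
structure Levels (H : Type) [Group H] where
  IsOpen : Subgroup H → Prop
  isOpen_top : IsOpen ⊤
  isOpen_inf : ∀ {U V : Subgroup H}, IsOpen U → IsOpen V → IsOpen (U ⊓ V)
  isOpen_mono : ∀ {U V : Subgroup H}, IsOpen U → U ≤ V → IsOpen V
  exists_normal : ∀ {U : Subgroup H}, IsOpen U →
    ∃ N : Subgroup H, IsOpen N ∧ N ≤ U ∧ N.Normal ∧ N.FiniteIndex

namespace Levels

variable {H H' H'' : Type} [Group H] [Group H'] [Group H'']

/-- Pull back a level structure along a group homomorphism. -/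
def comap (L : Levels H) (f : H' →* H) : Levels H' where
  IsOpen U' := ∃ U : Subgroup H, L.IsOpen U ∧ U.comap f ≤ U'
  isOpen_top := ⟨⊤, L.isOpen_top, le_top⟩
  isOpen_inf := by
    rintro U' V' ⟨U, hU, hUU'⟩ ⟨V, hV, hVV'⟩
    exact ⟨U ⊓ V, L.isOpen_inf hU hV, by
      rw [Subgroup.comap_inf]; exact inf_le_inf hUU' hVV'⟩
  isOpen_mono := by
    rintro U' V' ⟨U, hU, hUU'⟩ h
    exact ⟨U, hU, hUU'.trans h⟩
  exists_normal := by
    rintro U' ⟨U, hU, hUU'⟩
    obtain ⟨N, hN, hNU, hNn, hNf⟩ := L.exists_normal hU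
    refine ⟨N.comap f, ⟨N, hN, le_rfl⟩, (Subgroup.comap_mono hNU).trans hUU', inferInstance, ?_⟩
    constructor
    rw [Subgroup.index_comap]
    exact Subgroup.FiniteIndex.index_ne_zero (H := N.subgroupOf f.range)

/-- The induced level structure on a subgroup. -/
abbrev sub (L : Levels H) (V : Subgroup H) : Levels V := L.comap V.subtype

/-- The level structure generated by a directed family of subgroups which has enough normal
finite index members. -/
def ofBase (B : Set (Subgroup H)) (hne : B.Nonempty)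
    (hdir : ∀ U ∈ B, ∀ V ∈ B, ∃ W ∈ B, W ≤ U ⊓ V)
    (hnor : ∀ U ∈ B, ∃ N ∈ B, N ≤ U ∧ N.Normal ∧ N.FiniteIndex) : Levels H where
  IsOpen U := ∃ V ∈ B, V ≤ U
  isOpen_top := by obtain ⟨V, hV⟩ := hne; exact ⟨V, hV, le_top⟩
  isOpen_inf := by
    rintro U U' ⟨V, hV, hVU⟩ ⟨V', hV', hVU'⟩
    obtain ⟨W, hW, hWle⟩ := hdir V hV V' hV'
    exact ⟨W, hW, hWle.trans (inf_le_inf hVU hVU')⟩
  isOpen_mono := by
    rintro U U' ⟨V, hV, hVU⟩ h
    exact ⟨V, hV, hVU.trans h⟩
  exists_normal := by
    rintro U ⟨V, hV, hVU⟩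
    obtain ⟨N, hN, hNV, h1, h2⟩ := hnor V hV
    exact ⟨N, ⟨N, hN, le_rfl⟩, hNV.trans hVU, h1, h2⟩

/-- `f : H → Y` is right invariant under an open subgroup. -/
def IsLevel₁ (L : Levels H) {Y : Type} (f : H → Y) : Prop :=
  ∃ U : Subgroup H, L.IsOpen U ∧ ∀ g : H, ∀ s ∈ U, f (g * s) = f g

/-- `f : H × H → Y` is right invariant (in both variables) under an open subgroup. -/
def IsLevel₂ (L : Levels H) {Y : Type} (f : H × H → Y) : Prop :=
  ∃ U : Subgroup H, L.IsOpen U ∧
    ∀ g g' : H, ∀ s ∈ U, ∀ s' ∈ U, f (g * s, g' * s') = f (g, g')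

/-- an `H`-set all of whose stabilisers are open. -/
class SmoothSet (L : Levels H) (Ω : Type) [MulAction H Ω] : Prop where
  isOpen_stabilizer : ∀ w : Ω, L.IsOpen (MulAction.stabilizer H w)

end Levels

variable {k : Type} [CommRing k] {H H' H'' : Type} [Group H] [Group H'] [Group H'']
variable {X X' X'' : Type} [AddCommGroup X] [Module k X] [AddCommGroup X'] [Module k X']
  [AddCommGroup X''] [Module k X'']

/-- every vector is fixed by an open subgroup. -/
class Smooth (L : Levels H) (ρ : Representation k H X) : Prop where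
  exists_isOpen : ∀ x : X, ∃ U : Subgroup H, L.IsOpen U ∧ ∀ s ∈ U, ρ s x = x

/-- restriction of a representation to a subgroup. -/
abbrev rsub (ρ : Representation k H X) (V : Subgroup H) : Representation k V X :=
  MonoidHom.comp ρ V.subtype

/-! ### differentials (same conventions as Mathlib's `d₀₁`, `d₁₂`, `d₂₃`) -/

/-- `d0 x g = g x - x`. -/
def d0 (ρ : Representation k H X) : X →ₗ[k] (H → X) where
  toFun x g := ρ g x - x
  map_add' x y := by ext g; simp; abel
  map_smul' c x := by ext g; simp [smul_sub]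

/-- `d1 f (g,h) = g f(h) - f(gh) + f(g)`. -/
def d1 (ρ : Representation k H X) : (H → X) →ₗ[k] (H × H → X) where
  toFun f g := ρ g.1 (f g.2) - f (g.1 * g.2) + f g.1
  map_add' x y := by ext g; simp; abel
  map_smul' c x := by ext g; simp [smul_sub, smul_add]

/-- `d2 f (g,h,j) = g f(h,j) - f(gh,j) + f(g,hj) - f(g,h)`. -/
def d2 (ρ : Representation k H X) : (H × H → X) →ₗ[k] (H × H × H → X) where
  toFun f g := ρ g.1 (f (g.2.1, g.2.2)) - f (g.1 * g.2.1, g.2.2) + f (g.1, g.2.1 * g.2.2)
    - f (g.1, g.2.1)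
  map_add' x y := by ext g; simp; abel
  map_smul' c x := by ext g; simp [smul_sub, smul_add]

@[simp] lemma d0_apply (ρ : Representation k H X) (x : X) (g : H) : d0 ρ x g = ρ g x - x := rfl

@[simp] lemma d1_apply (ρ : Representation k H X) (f : H → X) (g : H × H) :
    d1 ρ f g = ρ g.1 (f g.2) - f (g.1 * g.2) + f g.1 := rfl

@[simp] lemma d2_apply (ρ : Representation k H X) (f : H × H → X) (g : H × H × H) :
    d2 ρ f g = ρ g.1 (f (g.2.1, g.2.2)) - f (g.1 * g.2.1, g.2.2) + f (g.1, g.2.1 * g.2.2)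
      - f (g.1, g.2.1) := rfl

/-! ### level cochains, cocycles, coboundaries -/

variable (k X) in
/-- level 1-cochains. -/
def C1 (L : Levels H) : Submodule k (H → X) where
  carrier := {f | L.IsLevel₁ f}
  add_mem' := by
    rintro f f' ⟨U, hU, h⟩ ⟨U', hU', h'⟩
    exact ⟨U ⊓ U', L.isOpen_inf hU hU', fun g s hs => by
      simp only [Pi.add_apply, h g s hs.1, h' g s hs.2]⟩
  zero_mem' := ⟨⊤, L.isOpen_top, fun _ _ _ => rfl⟩
  smul_mem' := by
    rintro c f ⟨U, hU, h⟩
    exact ⟨U, hU, fun g s hs => by simp only [Pi.smul_apply, h g s hs]⟩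

variable (k X) in
/-- level 2-cochains. -/
def C2 (L : Levels H) : Submodule k (H × H → X) where
  carrier := {f | L.IsLevel₂ f}
  add_mem' := by
    rintro f f' ⟨U, hU, h⟩ ⟨U', hU', h'⟩
    exact ⟨U ⊓ U', L.isOpen_inf hU hU', fun g g' s hs s' hs' => by
      simp only [Pi.add_apply, h g g' s hs.1 s' hs'.1, h' g g' s hs.2 s' hs'.2]⟩
  zero_mem' := ⟨⊤, L.isOpen_top, fun _ _ _ _ _ _ => rfl⟩
  smul_mem' := by
    rintro c f ⟨U, hU, h⟩
    exact ⟨U, hU, fun g g' s hs s' hs' => by simp only [Pi.smul_apply, h g g' s hs s' hs']⟩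

/-- level 1-cocycles. -/
def Z1 (L : Levels H) (ρ : Representation k H X) : Submodule k (H → X) :=
  LinearMap.ker (d1 ρ) ⊓ C1 k X L

/-- level 2-cocycles. -/
def Z2 (L : Levels H) (ρ : Representation k H X) : Submodule k (H × H → X) :=
  LinearMap.ker (d2 ρ) ⊓ C2 k X L

/-- 1-coboundaries. -/
def B1 (ρ : Representation k H X) : Submodule k (H → X) := LinearMap.range (d0 ρ)

/-- level 2-coboundaries: `d1` of level 1-cochains. -/
def B2 (L : Levels H) (ρ : Representation k H X) : Submodule k (H × H → X) :=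
  (C1 k X L).map (d1 ρ)

/-- `H^0`. -/
abbrev H0 (ρ : Representation k H X) : Submodule k X := ρ.invariants

/-- `H^1` of level cochains. -/
abbrev H1 (L : Levels H) (ρ : Representation k H X) : Type :=
  ↥(Z1 L ρ) ⧸ (B1 ρ).comap (Z1 L ρ).subtype

/-- `H^2` of level cochains. -/
abbrev H2 (L : Levels H) (ρ : Representation k H X) : Type :=
  ↥(Z2 L ρ) ⧸ (B2 L ρ).comap (Z2 L ρ).subtype

/-- the class of a level 1-cocycle. -/
abbrev H1.mk (L : Levels H) (ρ : Representation k H X) : ↥(Z1 L ρ) →ₗ[k] H1 L ρ :=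
  Submodule.mkQ _

/-- the class of a level 2-cocycle. -/
abbrev H2.mk (L : Levels H) (ρ : Representation k H X) : ↥(Z2 L ρ) →ₗ[k] H2 L ρ :=
  Submodule.mkQ _

lemma mem_C1 {L : Levels H} {f : H → X} : f ∈ C1 k X L ↔ L.IsLevel₁ f := Iff.rfl

lemma mem_C2 {L : Levels H} {f : H × H → X} : f ∈ C2 k X L ↔ L.IsLevel₂ f := Iff.rfl

lemma mem_Z1 {L : Levels H} {ρ : Representation k H X} {f : H → X} :
    f ∈ Z1 L ρ ↔ (∀ g h : H, f (g * h) = ρ g (f h) + f g) ∧ L.IsLevel₁ f := by
  refine and_congr ?_ Iff.rfl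
  rw [SetLike.mem_coe, LinearMap.mem_ker]
  constructor
  · intro h g g'
    have := congrFun h (g, g')
    simp only [d1_apply, Pi.zero_apply] at this
    rw [← sub_eq_zero, ← neg_eq_zero, ← this]; abel
  · intro h
    ext ⟨g, g'⟩
    simp only [d1_apply, Pi.zero_apply, h g g']; abel

lemma mem_Z2 {L : Levels H} {ρ : Representation k H X} {f : H × H → X} :
    f ∈ Z2 L ρ ↔ (∀ g h j : H, ρ g (f (h, j)) + f (g, h * j) = f (g * h, j) + f (g, h)) ∧
      L.IsLevel₂ f := by
  refine and_congr ?_ Iff.rfl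
  rw [SetLike.mem_coe, LinearMap.mem_ker]
  constructor
  · intro h g g' g''
    have := congrFun h (g, g', g'')
    simp only [d2_apply, Pi.zero_apply] at this
    rw [← sub_eq_zero, ← this]; abel
  · intro h
    ext ⟨g, g', g''⟩
    have := h g g' g''
    simp only [d2_apply, Pi.zero_apply]
    rw [← sub_eq_zero] at this
    rw [← this]; abel

lemma mem_B1 {ρ : Representation k H X} {f : H → X} :
    f ∈ B1 ρ ↔ ∃ x : X, ∀ g, f g = ρ g x - x := by
  constructor
  · rintro ⟨x, rfl⟩; exact ⟨x, fun _ => rfl⟩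
  · rintro ⟨x, hx⟩; exact ⟨x, by ext g; simp [hx g]⟩

lemma mem_B2 {L : Levels H} {ρ : Representation k H X} {f : H × H → X} :
    f ∈ B2 L ρ ↔ ∃ y : H → X, L.IsLevel₁ y ∧ ∀ g h, f (g, h) = ρ g (y h) - y (g * h) + y g := by
  constructor
  · rintro ⟨y, hy, rfl⟩; exact ⟨y, hy, fun _ _ => rfl⟩
  · rintro ⟨y, hy, h⟩; exact ⟨y, hy, by ext ⟨g, g'⟩; simp [h g g']⟩

lemma H1.mk_surjective (L : Levels H) (ρ : Representation k H X) :
    Function.Surjective (H1.mk L ρ) := Submodule.mkQ_surjective _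

lemma H2.mk_surjective (L : Levels H) (ρ : Representation k H X) :
    Function.Surjective (H2.mk L ρ) := Submodule.mkQ_surjective _

lemma H1.mk_eq_zero_iff {L : Levels H} {ρ : Representation k H X} (z : ↥(Z1 L ρ)) :
    H1.mk L ρ z = 0 ↔ ∃ x : X, ∀ g, (z : H → X) g = ρ g x - x := by
  rw [Submodule.mkQ_apply, Submodule.Quotient.mk_eq_zero, Submodule.mem_comap]
  exact mem_B1

lemma H2.mk_eq_zero_iff {L : Levels H} {ρ : Representation k H X} (z : ↥(Z2 L ρ)) :
    H2.mk L ρ z = 0 ↔ ∃ y : H → X, L.IsLevel₁ y ∧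
      ∀ g h, (z : H × H → X) (g, h) = ρ g (y h) - y (g * h) + y g := by
  rw [Submodule.mkQ_apply, Submodule.Quotient.mk_eq_zero, Submodule.mem_comap]
  exact mem_B2

/-! ### compatible pairs -/

/-- A compatible pair `(f : H' → H, φ : X → X')`: induces maps `H^i(H;X) → H^i(H';X')`. -/
structure Pair (L : Levels H) (ρ : Representation k H X) (L' : Levels H')
    (ρ' : Representation k H' X') where
  f : H' →* H
  φ : X →ₗ[k] X'
  cont : ∀ U : Subgroup H, L.IsOpen U → L'.IsOpen (U.comap f)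
  compat : ∀ (h : H') (x : X), φ (ρ (f h) x) = ρ' h (φ x)

/-- A short exact sequence of representations of `H`. -/
structure SES {A B C : Type} [AddCommGroup A] [Module k A] [AddCommGroup B] [Module k B]
    [AddCommGroup C] [Module k C] (ρA : Representation k H A) (ρB : Representation k H B)
    (ρC : Representation k H C) where
  i : A →ₗ[k] B
  π : B →ₗ[k] C
  i_comm : ∀ (h : H) (a : A), i (ρA h a) = ρB h (i a)
  π_comm : ∀ (h : H) (b : B), π (ρB h b) = ρC h (π b)
  inj : Function.Injective i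
  surj : Function.Surjective π
  exact : Function.Exact i π

/-- The representation on functions `Ω → X`: `(g f)(w) = g f(g⁻¹ w)`. -/
def Fun (ρ : Representation k H X) (Ω : Type) [MulAction H Ω] : Representation k H (Ω → X) where
  toFun g :=
    { toFun := fun f w => ρ g (f (g⁻¹ • w))
      map_add' := fun f f' => by ext w; simp
      map_smul' := fun c f => by ext w; simp }
  map_one' := by ext f w; simp
  map_mul' g h := by ext f w; simp [mul_smul]

@[simp] lemma Fun_apply (ρ : Representation k H X) (Ω : Type) [MulAction H Ω] (g : H)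
    (f : Ω → X) (w : Ω) : Fun ρ Ω g f w = ρ g (f (g⁻¹ • w)) := rfl

end Fermat.Agent.S55

end
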