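import Fermat.Agent.S55.Coh.Efface

/-!
# S55 (A4b'): effaceability of level classes of a SUBGROUP `V ≤ H` in `Fun(H/N, X)`
TASK S55/A-EffaceSub.

(3) of blueprint part 1, A4: for a subgroup `V ≤ H` choose a `V`-equivariant map
`r : H/N → V/(V ∩ N)` (representatives of `V \ H / N`; `v t N ↦ v (V ∩ N)` is well defined since
`N` is normal) and pull back the formulas (1), (2) for the group `V`; or write the formulas
directly: `F (v t N) := c v`, `Y g (v t N) := v • z (v⁻¹, g)`.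
-/

set_option autoImplicit false

noncomputable section

namespace Fermat.Agent.S55

variable {k : Type} [CommRing k] {H : Type} [Group H]
variable {X : Type} [AddCommGroup X] [Module k X]
variable {L : Levels H} {ρ : Representation k H X}

/-- `const : X → Fun(Ω,X)` as a pair for the subgroup `V`. -/
def Pair.constSub (ρ : Representation k H X) (Ω : Type) [MulAction H Ω] (L : Levels H)
    (V : Subgroup H) : Pair (L.sub V) (rsub ρ V) (L.sub V) (rsub (Fun ρ Ω) V) :=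
  Pair.coeff (L.sub V) (constMap k X Ω) (fun h x => constMap_comm ρ Ω (h : H) x)

namespace EffaceSub

/-- the stabiliser of any point of `H ⧸ N` is `N` when `N` is normal. -/
lemma mem_of_smul_eq (N : Subgroup H) [N.Normal] (h : H) (w : H ⧸ N) (hw : h • w = w) :
    h ∈ N := by
  induction w using QuotientGroup.induction_on with
  | H t =>
    have h1 : ((h * t : H) : H ⧸ N) = (t : H ⧸ N) := hw
    rw [QuotientGroup.eq] at h1
    have h2 : t⁻¹ * h⁻¹ * t ∈ N := by
      have : (h * t)⁻¹ * t = t⁻¹ * h⁻¹ * t := by group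
      rwa [this] at h1
    have h3 := (inferInstance : N.Normal).conj_mem _ h2 t
    have h4 : t * (t⁻¹ * h⁻¹ * t) * t⁻¹ = h⁻¹ := by group
    rw [h4] at h3
    exact (Subgroup.inv_mem_iff N).1 h3

/-- A "`V`-equivariant modulo `N`" selector `H ⧸ N → V`. -/
lemma exists_sel (V N : Subgroup H) [N.Normal] :
    ∃ sel : H ⧸ N → V, ∀ (v : V) (w : H ⧸ N),
      ∃ s : V, (s : H) ∈ N ∧ v * sel w = sel ((v : H) • w) * s := by
  classical
  -- the orbit relation of `V` on `H ⧸ N`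
  let rel : Setoid (H ⧸ N) := MulAction.orbitRel V (H ⧸ N)
  let base : H ⧸ N → H ⧸ N := fun w => (Quotient.out (Quotient.mk rel w))
  have hbase : ∀ w, ∃ v : V, v • base w = w := by
    intro w
    have h1 : rel w (base w) := by
      have := Quotient.mk_out (s := rel) w
      exact Setoid.symm' rel this
    exact h1
  have hbase_smul : ∀ (v : V) (w : H ⧸ N), base (v • w) = base w := by
    intro v w
    have : Quotient.mk rel (v • w) = Quotient.mk rel w :=
      Quotient.sound (s := rel) ⟨v, rfl⟩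
    simp only [base, this]
  refine ⟨fun w => (hbase w).choose, fun v w => ?_⟩
  have h1 := (hbase w).choose_spec
  have h2 := (hbase (v • w)).choose_spec
  set a := (hbase w).choose with ha
  set b := (hbase (v • w)).choose with hb
  refine ⟨b⁻¹ * (v * a), ?_, by
    show v * a = b * (b⁻¹ * (v * a))
    group⟩
  apply mem_of_smul_eq N _ (base w)
  have h3 : (b⁻¹ * (v * a)) • base w = base w := by
    rw [mul_smul, mul_smul, h1, inv_smul_eq_iff, ← hbase_smul v w, h2]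
  exact h3

end EffaceSub

open EffaceSub in
theorem efface1_sub (V N : Subgroup H) [N.Normal] (z : ↥(Z1 (L.sub V) (rsub ρ V)))
    (hz : ∀ g s : V, (s : H) ∈ N → (z : V → X) (g * s) = (z : V → X) g) :
    (Pair.constSub ρ (H ⧸ N) L V).map1 (H1.mk (L.sub V) (rsub ρ V) z) = 0 := by
  obtain ⟨sel, hsel⟩ := exists_sel V N
  have hz1 := (mem_Z1.1 z.2).1
  rw [Pair.map1_mk, H1.mk_eq_zero_iff]
  have key : ∀ (v : V) (w : H ⧸ N),
      (z : V → X) (sel ((v : H) • w)) = ρ v ((z : V → X) (sel w)) + (z : V → X) v := by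
    intro v w
    obtain ⟨s, hs, h⟩ := hsel v w
    rw [← hz _ s hs, ← h, hz1]
    rfl
  refine ⟨fun w => - (z : V → X) (sel w), fun v => ?_⟩
  ext w
  have h1 := key v ((v : H)⁻¹ • w)
  rw [smul_inv_smul] at h1
  show (z : V → X) v = ρ v (- (z : V → X) (sel ((v : H)⁻¹ • w))) - - (z : V → X) (sel w)
  rw [h1, map_neg]
  abel

open EffaceSub in
theorem efface2_sub (V N : Subgroup H) [N.Normal] (hN : L.IsOpen N)
    (z : ↥(Z2 (L.sub V) (rsub ρ V)))
    (hz : ∀ g g' s s' : V, (s : H) ∈ N → (s' : H) ∈ N →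
      (z : V × V → X) (g * s, g' * s') = (z : V × V → X) (g, g')) :
    (Pair.constSub ρ (H ⧸ N) L V).map2 (H2.mk (L.sub V) (rsub ρ V) z) = 0 := by
  obtain ⟨sel, hsel⟩ := exists_sel V N
  have hz1 := (mem_Z2.1 z.2).1
  have : (N.subgroupOf V).Normal := inferInstance
  have hfix : ∀ (g g' n : V), (n : H) ∈ N →
      ρ n ((z : V × V → X) (g, g')) = (z : V × V → X) (g, g') := by
    intro g g' n hn
    exact Z2.fixed_of_normal (N := N.subgroupOf V) z.2
      (fun g g' s hs s' hs' => hz g g' s s' (Subgroup.mem_subgroupOf.1 hs)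
        (Subgroup.mem_subgroupOf.1 hs')) g g' n (Subgroup.mem_subgroupOf.2 hn)
  -- invariance of `u ↦ u z(u⁻¹, h)`
  have hinv : ∀ (u s h : V), (s : H) ∈ N →
      ρ (u * s : V) ((z : V × V → X) ((u * s)⁻¹, h)) = ρ u ((z : V × V → X) (u⁻¹, h)) := by
    intro u s h hs
    have e1 : (u * s)⁻¹ = u⁻¹ * (u * s⁻¹ * u⁻¹) := by group
    have hmem : ((u * s⁻¹ * u⁻¹ : V) : H) ∈ N := by
      have := (inferInstance : N.Normal).conj_mem _ (N.inv_mem hs) (u : H)
      simpa using this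
    have e2 : (z : V × V → X) ((u * s)⁻¹, h) = (z : V × V → X) (u⁻¹, h) := by
      rw [e1]
      have := hz u⁻¹ h (u * s⁻¹ * u⁻¹) 1 hmem N.one_mem
      rwa [mul_one] at this
    rw [e2]
    have e3 : ρ ((u * s : V) : H) = ρ (u : H) * ρ (s : H) := by
      rw [← map_mul]; rfl
    rw [e3, Module.End.mul_apply, hfix _ _ s hs]
  rw [Pair.map2_mk, H2.mk_eq_zero_iff]
  refine ⟨fun g w => ρ (sel w) ((z : V × V → X) ((sel w)⁻¹, g)), ?_, fun g h => ?_⟩
  · refine ⟨N.subgroupOf V, hN.subgroupOf V, fun g s hs => ?_⟩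
    ext w
    have := hz (sel w)⁻¹ g 1 s N.one_mem (Subgroup.mem_subgroupOf.1 hs)
    rw [mul_one] at this
    show ρ (sel w) ((z : V × V → X) ((sel w)⁻¹, g * s)) = ρ (sel w) ((z : V × V → X) ((sel w)⁻¹, g))
    rw [this]
  · ext w
    set x := sel w with hx
    obtain ⟨s, hs, hsx⟩ := hsel g⁻¹ w
    have e1 : sel ((g : H)⁻¹ • w) = g⁻¹ * x * s⁻¹ := by
      have : ((g⁻¹ : V) : H) = (g : H)⁻¹ := rfl
      rw [this] at hsx
      rw [hsx]; group
    have e2 : ρ (sel ((g : H)⁻¹ • w)) ((z : V × V → X) ((sel ((g : H)⁻¹ • w))⁻¹, h)) =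
        ρ (g⁻¹ * x : V) ((z : V × V → X) ((g⁻¹ * x)⁻¹, h)) := by
      rw [e1]
      exact hinv (g⁻¹ * x) s⁻¹ h (N.inv_mem hs)
    have e3 := hz1 x⁻¹ g h
    show (z : V × V → X) (g, h) =
      ρ g (ρ (sel ((g : H)⁻¹ • w)) ((z : V × V → X) ((sel ((g : H)⁻¹ • w))⁻¹, h)))
        - ρ x ((z : V × V → X) (x⁻¹, g * h)) + ρ x ((z : V × V → X) (x⁻¹, g))
    rw [e2]
    have e4 : ρ (g : H) (ρ ((g⁻¹ * x : V) : H) ((z : V × V → X) ((g⁻¹ * x)⁻¹, h))) =
        ρ (x : H) ((z : V × V → X) (x⁻¹ * g, h)) := by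
      rw [← Module.End.mul_apply, ← map_mul]
      have a1 : (g : H) * ((g⁻¹ * x : V) : H) = (x : H) := by simp
      have a2 : (g⁻¹ * x)⁻¹ = x⁻¹ * g := by group
      rw [a1, a2]
    rw [e4, ← map_sub, ← map_add]
    have e5 : (z : V × V → X) (x⁻¹ * g, h) - (z : V × V → X) (x⁻¹, g * h) +
        (z : V × V → X) (x⁻¹, g) = ρ ((x⁻¹ : V) : H) ((z : V × V → X) (g, h)) := by
      have : (rsub ρ V) x⁻¹ ((z : V × V → X) (g, h)) = ρ ((x⁻¹ : V) : H) ((z : V × V → X) (g, h)) :=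
        rfl
      rw [← this]
      rw [eq_comm, ← sub_eq_zero]
      rw [← sub_eq_zero] at e3
      rw [← e3]; abel
    rw [e5, ← Module.End.mul_apply, ← map_mul]
    simp

theorem exists_efface1_sub (V : Subgroup H) (x : H1 (L.sub V) (rsub ρ V)) :
    ∃ N : Subgroup H, L.IsOpen N ∧ ∀ N' : Subgroup H, N' ≤ N → N'.Normal → L.IsOpen N' →
      (Pair.constSub ρ (H ⧸ N') L V).map1 x = 0 := by
  obtain ⟨z, rfl⟩ := H1.mk_surjective _ _ x
  obtain ⟨U, ⟨U0, hU0, hle⟩, hU⟩ := (mem_Z1.1 z.2).2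
  refine ⟨U0, hU0, fun N' hN' hn _ => ?_⟩
  have := hn
  exact efface1_sub V N' z (fun g s hs => hU g s (hle (hN' hs)))

theorem exists_efface2_sub (V : Subgroup H) (x : H2 (L.sub V) (rsub ρ V)) :
    ∃ N : Subgroup H, L.IsOpen N ∧ ∀ N' : Subgroup H, N' ≤ N → N'.Normal → L.IsOpen N' →
      (Pair.constSub ρ (H ⧸ N') L V).map2 x = 0 := by
  obtain ⟨z, rfl⟩ := H2.mk_surjective _ _ x
  obtain ⟨U, ⟨U0, hU0, hle⟩, hU⟩ := (mem_Z2.1 z.2).2
  refine ⟨U0, hU0, fun N' hN' hn ho => ?_⟩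
  have := hn
  exact efface2_sub V N' ho z
    (fun g g' s s' hs hs' => hU g g' s (hle (hN' hs)) s' (hle (hN' hs')))

end Fermat.Agent.S55

end
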