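import Fermat.Agent.S55.Coh.LES

/-!
# S55 (A2b): the long exact sequence `H^0 A → ... → H^2 C` (9 terms, 7 exactness statements)
TASK S55/A-Exact.   Use only the API `δ0_eq`, `exists_δ0`, `δ1_eq`, `exists_lift₁`, `exists_δ1`.
-/

set_option autoImplicit false
set_option linter.unusedSectionVars false

noncomputable section

namespace Fermat.Agent.S55

variable {k : Type} [CommRing k] {H : Type} [Group H]
variable {A B C : Type} [AddCommGroup A] [Module k A] [AddCommGroup B] [Module k B]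
  [AddCommGroup C] [Module k C]
variable {ρA : Representation k H A} {ρB : Representation k H B} {ρC : Representation k H C}

namespace Exact

variable {X : Type} [AddCommGroup X] [Module k X] {L : Levels H} {ρ : Representation k H X}

lemma H1_mk_eq_mk_iff (z z' : ↥(Z1 L ρ)) : H1.mk L ρ z = H1.mk L ρ z' ↔
    ∃ x : X, ∀ g, (z : H → X) g - (z' : H → X) g = ρ g x - x := by
  rw [← sub_eq_zero, ← map_sub, H1.mk_eq_zero_iff]
  rfl

lemma H2_mk_eq_mk_iff (z z' : ↥(Z2 L ρ)) : H2.mk L ρ z = H2.mk L ρ z' ↔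
    ∃ y : H → X, L.IsLevel₁ y ∧ ∀ g h, (z : H × H → X) (g, h) - (z' : H × H → X) (g, h) =
      ρ g (y h) - y (g * h) + y g := by
  rw [← sub_eq_zero, ← map_sub, H2.mk_eq_zero_iff]
  rfl

/-- a function with values in `ker π` factors through `i`. -/
lemma exists_factor (E : SES ρA ρB ρC) {α : Type} (f : α → B) (hf : ∀ a, E.π (f a) = 0) :
    ∃ z : α → A, ∀ a, E.i (z a) = f a := by
  choose z hz using fun a => (E.exact (f a)).mp (hf a)
  exact ⟨z, hz⟩

lemma π_i (E : SES ρA ρB ρC) (a : A) : E.π (E.i a) = 0 := (E.exact _).mpr ⟨a, rfl⟩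

end Exact

open Exact

namespace SES

variable (E : SES ρA ρB ρC) (L : Levels H) [Smooth L ρB]

lemma map0_i_injective : Function.Injective (E.iP L).map0 := by
  intro x y h
  apply Subtype.ext
  apply E.inj
  exact congrArg Subtype.val h

lemma exact_i0_π0 : Function.Exact (E.iP L).map0 (E.πP L).map0 := by
  intro b
  constructor
  · intro h
    have h0 : E.π (b : B) = 0 := congrArg Subtype.val h
    obtain ⟨a, ha⟩ := (E.exact _).mp h0
    refine ⟨⟨a, fun g => ?_⟩, Subtype.ext ha⟩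
    apply E.inj
    rw [E.i_comm, ha]
    exact b.2 g
  · rintro ⟨a, rfl⟩
    apply Subtype.ext
    exact π_i E _

lemma exact_π0_δ0 : Function.Exact (E.πP L).map0 (E.δ0 L) := by
  intro c
  constructor
  · intro h
    obtain ⟨b, hb⟩ := E.surj (c : C)
    obtain ⟨z, hz⟩ := E.exists_δ0 L c b hb
    rw [E.δ0_eq L c b hb z hz, H1.mk_eq_zero_iff] at h
    obtain ⟨a, ha⟩ := h
    refine ⟨⟨b - E.i a, fun g => ?_⟩, Subtype.ext ?_⟩
    · have h1 := hz g
      rw [ha g, map_sub, E.i_comm] at h1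
      rw [map_sub, ← sub_eq_zero]
      have : ρB g b - ρB g (E.i a) - (b - E.i a) = (ρB g b - b) - (ρB g (E.i a) - E.i a) := by abel
      rw [this, ← h1, sub_self]
    · show E.π (b - E.i a) = c
      rw [map_sub, π_i, sub_zero, hb]
  · rintro ⟨b, rfl⟩
    rw [E.δ0_eq L _ (b : B) rfl 0 (fun g => by
      rw [b.2 g, sub_self]; exact map_zero _), map_zero]

lemma exact_δ0_i1 : Function.Exact (E.δ0 L) (E.iP L).map1 := by
  intro x
  obtain ⟨z, rfl⟩ := H1.mk_surjective L ρA x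
  constructor
  · intro h
    rw [Pair.map1_mk, H1.mk_eq_zero_iff] at h
    obtain ⟨b, hb⟩ := h
    have hb' : ∀ g, E.i ((z : H → A) g) = ρB g b - b := hb
    refine ⟨⟨E.π b, fun g => ?_⟩, ?_⟩
    · rw [← E.π_comm, ← sub_eq_zero, ← map_sub, ← hb' g, π_i]
    · exact E.δ0_eq L _ b rfl z hb'
  · rintro ⟨c, hc⟩
    obtain ⟨b, hb⟩ := E.surj (c : C)
    obtain ⟨z', hz'⟩ := E.exists_δ0 L c b hb
    rw [← hc, E.δ0_eq L c b hb z' hz', Pair.map1_mk, H1.mk_eq_zero_iff]
    exact ⟨b, hz'⟩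

lemma exact_i1_π1 : Function.Exact (E.iP L).map1 (E.πP L).map1 := by
  intro x
  obtain ⟨y, rfl⟩ := H1.mk_surjective L ρB x
  constructor
  · intro h
    rw [Pair.map1_mk, H1.mk_eq_zero_iff] at h
    obtain ⟨c, hc⟩ := h
    have hc' : ∀ g, E.π ((y : H → B) g) = ρC g c - c := hc
    obtain ⟨b, rfl⟩ := E.surj c
    obtain ⟨z, hz⟩ := exists_factor E (fun g => (y : H → B) g - (ρB g b - b)) (fun g => by
      rw [map_sub, hc' g, map_sub, E.π_comm, sub_self])
    have hy := mem_Z1.mp y.2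
    have hzZ : z ∈ Z1 L ρA := by
      rw [mem_Z1]
      refine ⟨fun g h => ?_, ?_⟩
      · apply E.inj
        rw [map_add, E.i_comm, hz, hz, hz, hy.1 g h, map_sub, map_sub, map_mul,
          Module.End.mul_apply]
        abel
      · apply Levels.IsLevel₁.of_comp E.inj
        have h1 : (E.i ∘ z) = (y : H → B) - d0 ρB b := by
          funext g
          exact hz g
        rw [h1]
        exact (C1 k B L).sub_mem hy.2 (d0_isLevel b)
    refine ⟨H1.mk L ρA ⟨z, hzZ⟩, ?_⟩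
    rw [Pair.map1_mk, H1_mk_eq_mk_iff]
    refine ⟨-b, fun g => ?_⟩
    show E.i (z g) - (y : H → B) g = _
    rw [hz g, map_neg]
    abel
  · rintro ⟨x, hx⟩
    obtain ⟨z, rfl⟩ := H1.mk_surjective L ρA x
    rw [← hx, Pair.map1_mk, Pair.map1_mk, H1.mk_eq_zero_iff]
    refine ⟨0, fun g => ?_⟩
    show E.π (E.i ((z : H → A) g)) = _
    rw [π_i, map_zero, sub_zero]

lemma exact_π1_δ1 : Function.Exact (E.πP L).map1 (E.δ1 L) := by
  intro x
  obtain ⟨c, rfl⟩ := H1.mk_surjective L ρC x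
  have hc := mem_Z1.mp c.2
  constructor
  · intro h
    obtain ⟨y, hy, hyc⟩ := E.exists_lift₁ L (c : H → C) hc.2
    obtain ⟨z, hz⟩ := E.exists_δ1 L c y hy hyc
    rw [E.δ1_eq L c y hy hyc z hz, H2.mk_eq_zero_iff] at h
    obtain ⟨w, hw, hzw⟩ := h
    have hy'Z : (y - E.i ∘ w) ∈ Z1 L ρB := by
      rw [mem_Z1]
      refine ⟨fun g h => ?_, (C1 k B L).sub_mem hy (hw.comp E.i)⟩
      have h1 := hz g h
      rw [hzw g h, map_add, map_sub, E.i_comm] at h1
      simp only [Pi.sub_apply, Function.comp_apply, map_sub]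
      rw [← sub_eq_zero]
      have : y (g * h) - E.i (w (g * h)) - (ρB g (y h) - ρB g (E.i (w h)) + (y g - E.i (w g))) =
          (ρB g (E.i (w h)) - E.i (w (g * h)) + E.i (w g)) -
            (ρB g (y h) - y (g * h) + y g) := by abel
      rw [this, h1, sub_self]
    refine ⟨H1.mk L ρB ⟨_, hy'Z⟩, ?_⟩
    rw [Pair.map1_mk]
    congr 1
    apply Subtype.ext
    funext g
    show E.π (y g - E.i (w g)) = _
    rw [map_sub, π_i, sub_zero, hyc]
  · rintro ⟨x, hx⟩
    obtain ⟨y, rfl⟩ := H1.mk_surjective L ρB x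
    have hy := mem_Z1.mp y.2
    rw [← hx, Pair.map1_mk, E.δ1_eq L _ (y : H → B) hy.2 (fun g => rfl) 0 (fun g h => by
      rw [hy.1 g h]
      have : ((0 : ↥(Z2 L ρA)) : H × H → A) (g, h) = 0 := rfl
      rw [this, map_zero]
      abel), map_zero]

lemma exact_δ1_i2 : Function.Exact (E.δ1 L) (E.iP L).map2 := by
  intro x
  obtain ⟨z, rfl⟩ := H2.mk_surjective L ρA x
  constructor
  · intro h
    rw [Pair.map2_mk, H2.mk_eq_zero_iff] at h
    obtain ⟨y, hy, hyz⟩ := h
    have hyz' : ∀ g h, E.i ((z : H × H → A) (g, h)) = ρB g (y h) - y (g * h) + y g := hyz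
    have hcZ : (E.π ∘ y) ∈ Z1 L ρC := by
      rw [mem_Z1]
      refine ⟨fun g h => ?_, hy.comp E.π⟩
      have h1 := congrArg E.π (hyz' g h)
      rw [π_i, map_add, map_sub, E.π_comm] at h1
      simp only [Function.comp_apply]
      rw [← sub_eq_zero, ← neg_eq_zero, h1]
      abel
    exact ⟨H1.mk L ρC ⟨_, hcZ⟩, E.δ1_eq L ⟨_, hcZ⟩ y hy (fun g => rfl) z hyz'⟩
  · rintro ⟨x, hx⟩
    obtain ⟨c, rfl⟩ := H1.mk_surjective L ρC x
    have hc := mem_Z1.mp c.2
    obtain ⟨y, hy, hyc⟩ := E.exists_lift₁ L (c : H → C) hc.2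
    obtain ⟨z', hz'⟩ := E.exists_δ1 L c y hy hyc
    rw [← hx, E.δ1_eq L c y hy hyc z' hz', Pair.map2_mk, H2.mk_eq_zero_iff]
    exact ⟨y, hy, hz'⟩

lemma exact_i2_π2 : Function.Exact (E.iP L).map2 (E.πP L).map2 := by
  intro x
  obtain ⟨u, rfl⟩ := H2.mk_surjective L ρB x
  have hu := mem_Z2.mp u.2
  constructor
  · intro h
    rw [Pair.map2_mk, H2.mk_eq_zero_iff] at h
    obtain ⟨c, hc, huc⟩ := h
    have huc' : ∀ g h, E.π ((u : H × H → B) (g, h)) = ρC g (c h) - c (g * h) + c g := huc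
    obtain ⟨y, hy, hyc⟩ := E.exists_lift₁ L c hc
    obtain ⟨z, hz⟩ := exists_factor E (fun p : H × H => (u : H × H → B) p - d1 ρB y p) (by
      rintro ⟨g, h⟩
      rw [map_sub, huc' g h, d1_apply, map_add, map_sub, E.π_comm, hyc, hyc, hyc, sub_self])
    have hcomp : (E.i ∘ z) = (u : H × H → B) - d1 ρB y := funext hz
    have hsubZ : (u : H × H → B) - d1 ρB y ∈ Z2 L ρB :=
      (Z2 L ρB).sub_mem u.2 (B2_le_Z2 ⟨y, hy, rfl⟩)
    have hzZ : z ∈ Z2 L ρA := by
      rw [mem_Z2]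
      have h2 := mem_Z2.mp hsubZ
      rw [← hcomp] at h2
      refine ⟨fun g h j => ?_, Levels.IsLevel₂.of_comp E.inj h2.2⟩
      apply E.inj
      have h3 := h2.1 g h j
      simp only [Function.comp_apply] at h3
      rw [map_add, map_add, E.i_comm]
      exact h3
    refine ⟨H2.mk L ρA ⟨z, hzZ⟩, ?_⟩
    rw [Pair.map2_mk, H2_mk_eq_mk_iff]
    refine ⟨-y, (C1 k B L).neg_mem hy, fun g h => ?_⟩
    show E.i (z (g, h)) - (u : H × H → B) (g, h) = _
    rw [hz (g, h), d1_apply]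
    simp only [Pi.neg_apply, map_neg]
    abel
  · rintro ⟨x, hx⟩
    obtain ⟨z, rfl⟩ := H2.mk_surjective L ρA x
    rw [← hx, Pair.map2_mk, Pair.map2_mk, H2.mk_eq_zero_iff]
    refine ⟨0, L.isLevel₁_const 0, fun g h => ?_⟩
    show E.π (E.i ((z : H × H → A) (g, h))) = _
    rw [π_i]
    simp

end SES

end Fermat.Agent.S55

end
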