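import Fermat.Agent.S55.Coh.LES

/-!
# S55 (A4a): constructions of short exact sequences, the modules `Fun ρ Ω`
TASK S55/A-FunMod.
-/

set_option autoImplicit false

noncomputable section

namespace Fermat.Agent.S55

variable {k : Type} [CommRing k] {H H' : Type} [Group H] [Group H']
variable {A B C : Type} [AddCommGroup A] [Module k A] [AddCommGroup B] [Module k B]
  [AddCommGroup C] [Module k C]
variable {A' B' C' : Type} [AddCommGroup A'] [Module k A'] [AddCommGroup B'] [Module k B']
  [AddCommGroup C'] [Module k C']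
variable {X X' : Type} [AddCommGroup X] [Module k X] [AddCommGroup X'] [Module k X']

/-! ### kernels, images, constructions of SES -/

/-- the kernel of an equivariant map is stable. -/
lemma ker_le_comap {ρB : Representation k H B} {ρC : Representation k H C} (π : B →ₗ[k] C)
    (hπ : ∀ h b, π (ρB h b) = ρC h (π b)) (g : H) :
    LinearMap.ker π ≤ (LinearMap.ker π).comap (ρB g) := by
  intro b hb
  rw [Submodule.mem_comap, LinearMap.mem_ker, hπ, LinearMap.mem_ker.1 hb, map_zero]

/-- the range of an equivariant map is stable. -/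
lemma range_le_comap {ρA : Representation k H A} {ρB : Representation k H B} (i : A →ₗ[k] B)
    (hi : ∀ h a, i (ρA h a) = ρB h (i a)) (g : H) :
    LinearMap.range i ≤ (LinearMap.range i).comap (ρB g) := by
  rintro _ ⟨a, rfl⟩
  exact ⟨ρA g a, hi g a⟩

/-- the representation on the kernel of an equivariant map. -/
abbrev kerRep {ρB : Representation k H B} {ρC : Representation k H C} (π : B →ₗ[k] C)
    (hπ : ∀ h b, π (ρB h b) = ρC h (π b)) : Representation k H (LinearMap.ker π) :=
  ρB.subrepresentation (LinearMap.ker π) (ker_le_comap π hπ)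

/-- the representation on the cokernel of an equivariant map. -/
abbrev cokerRep {ρA : Representation k H A} {ρB : Representation k H B} (i : A →ₗ[k] B)
    (hi : ∀ h a, i (ρA h a) = ρB h (i a)) : Representation k H (B ⧸ LinearMap.range i) :=
  ρB.quotient (LinearMap.range i) (range_le_comap i hi)

namespace SES

/-- `0 → W → X → X/W → 0`. -/
def ofSub (ρ : Representation k H X) (W : Submodule k X) (hW : ∀ g, W ≤ W.comap (ρ g)) :
    SES (ρ.subrepresentation W hW) ρ (ρ.quotient W hW) where
  i := W.subtype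
  π := W.mkQ
  i_comm _ _ := rfl
  π_comm _ _ := rfl
  inj := W.injective_subtype
  surj := W.mkQ_surjective
  exact := by
    intro x
    rw [Submodule.mkQ_apply, Submodule.Quotient.mk_eq_zero]
    simp

/-- `0 → ker π → B → C → 0` for an equivariant surjection `π`. -/
def ofSurj {ρB : Representation k H B} {ρC : Representation k H C} (π : B →ₗ[k] C)
    (hπ : ∀ h b, π (ρB h b) = ρC h (π b)) (hs : Function.Surjective π) :
    SES (kerRep π hπ) ρB ρC where
  i := (LinearMap.ker π).subtype
  π := π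
  i_comm _ _ := rfl
  π_comm := hπ
  inj := (LinearMap.ker π).injective_subtype
  surj := hs
  exact := by
    intro x
    simp

/-- `0 → A → B → coker i → 0` for an equivariant injection `i`. -/
def ofInj {ρA : Representation k H A} {ρB : Representation k H B} (i : A →ₗ[k] B)
    (hi : ∀ h a, i (ρA h a) = ρB h (i a)) (hinj : Function.Injective i) :
    SES ρA ρB (cokerRep i hi) where
  i := i
  π := (LinearMap.range i).mkQ
  i_comm := hi
  π_comm _ _ := rfl
  inj := hinj
  surj := (LinearMap.range i).mkQ_surjective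
  exact := by
    intro x
    rw [Submodule.mkQ_apply, Submodule.Quotient.mk_eq_zero]
    simp

variable {ρA : Representation k H A} {ρB : Representation k H B} {ρC : Representation k H C}

/-- restriction of a SES along a homomorphism. -/
def pull (E : SES ρA ρB ρC) (f : H' →* H) :
    SES (MonoidHom.comp ρA f) (MonoidHom.comp ρB f) (MonoidHom.comp ρC f) where
  i := E.i
  π := E.π
  i_comm h a := E.i_comm (f h) a
  π_comm h b := E.π_comm (f h) b
  inj := E.inj
  surj := E.surj
  exact := E.exact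

/-- restriction of a SES to a subgroup. -/
abbrev sub (E : SES ρA ρB ρC) (V : Subgroup H) : SES (rsub ρA V) (rsub ρB V) (rsub ρC V) :=
  E.pull V.subtype

/-- `Fun(Ω, -)` is exact. -/
def funSES (E : SES ρA ρB ρC) (Ω : Type) [MulAction H Ω] :
    SES (Fun ρA Ω) (Fun ρB Ω) (Fun ρC Ω) where
  i := E.i.compLeft Ω
  π := E.π.compLeft Ω
  i_comm h a := by ext w; simp [E.i_comm]
  π_comm h b := by ext w; simp [E.π_comm]
  inj := fun a a' h => by
    ext w; exact E.inj (congrFun h w)
  surj := fun c => ⟨fun w => (E.surj (c w)).choose, by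
    ext w; exact (E.surj (c w)).choose_spec⟩
  exact := by
    intro b
    constructor
    · intro hb
      have : ∀ w, ∃ a, E.i a = b w := fun w => (E.exact (b w)).1 (congrFun hb w)
      exact ⟨fun w => (this w).choose, by ext w; exact (this w).choose_spec⟩
    · rintro ⟨a, rfl⟩
      ext w
      exact (E.exact _).2 ⟨a w, rfl⟩

/-- split SES `0 → X → X × X' → X' → 0`. -/
def prodSES (ρ : Representation k H X) (σ : Representation k H X') : SES ρ (ρ.prod σ) σ where
  i := LinearMap.inl k X X'
  π := LinearMap.snd k X X'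
  i_comm h a := by simp
  π_comm h b := by simp
  inj := LinearMap.inl_injective
  surj := LinearMap.snd_surjective
  exact := by
    intro x
    constructor
    · intro hx
      exact ⟨x.1, by ext <;> simp_all⟩
    · rintro ⟨a, rfl⟩; simp

end SES

/-! ### `Fun ρ Ω` -/

section FunMod

variable (ρ : Representation k H X) (Ω Ω' : Type) [MulAction H Ω] [MulAction H Ω']

variable (k X) in
/-- constant functions. -/
def constMap : X →ₗ[k] (Ω → X) := LinearMap.pi (fun _ => LinearMap.id)

variable (k X) in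
/-- sum of the values. -/
def sumMap [Finite Ω] : (Ω → X) →ₗ[k] X :=
  letI := Fintype.ofFinite Ω
  ∑ w : Ω, LinearMap.proj w

@[simp] lemma constMap_apply (x : X) (w : Ω) : constMap k X Ω x w = x := rfl

@[simp] lemma sumMap_apply [Fintype Ω] (f : Ω → X) : sumMap k X Ω f = ∑ w, f w := by
  simp only [sumMap, LinearMap.coe_sum, Finset.sum_apply, LinearMap.proj_apply]
  exact Finset.sum_congr (by ext; simp) (fun _ _ => rfl)

lemma constMap_comm (h : H) (x : X) : constMap k X Ω (ρ h x) = Fun ρ Ω h (constMap k X Ω x) := by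
  ext w; simp

lemma sumMap_comm [Finite Ω] (h : H) (f : Ω → X) :
    sumMap k X Ω (Fun ρ Ω h f) = ρ h (sumMap k X Ω f) := by
  let _ := Fintype.ofFinite Ω
  simp only [sumMap_apply, Fun_apply, map_sum]
  exact Fintype.sum_equiv (MulAction.toPerm h⁻¹) _ _ (fun _ => rfl)

lemma constMap_injective [Nonempty Ω] : Function.Injective (constMap k X Ω) := by
  intro x y h
  exact congrFun h (Classical.arbitrary Ω)

lemma sumMap_surjective [Finite Ω] [Nonempty Ω] : Function.Surjective (sumMap k X Ω) := by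
  classical
  let _ := Fintype.ofFinite Ω
  intro x
  refine ⟨Pi.single (Classical.arbitrary Ω) x, ?_⟩
  simp

lemma sumMap_constMap [Finite Ω] (x : X) :
    sumMap k X Ω (constMap k X Ω x) = Nat.card Ω • x := by
  let _ := Fintype.ofFinite Ω
  simp [Nat.card_eq_fintype_card]

/-- the pair `const : X → Fun(Ω,X)`. -/
def Pair.const (L : Levels H) : Pair L ρ L (Fun ρ Ω) :=
  Pair.coeff L (constMap k X Ω) (constMap_comm ρ Ω)

/-- the pair `Σ : Fun(Ω,X) → X`. -/
def Pair.sum (L : Levels H) [Finite Ω] : Pair L (Fun ρ Ω) L ρ :=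
  Pair.coeff L (sumMap k X Ω) (sumMap_comm ρ Ω)

/-- post-composition with an equivariant map. -/
def Pair.funMap (L : Levels H) {ρ : Representation k H X} {σ : Representation k H X'}
    (φ : X →ₗ[k] X') (hφ : ∀ h x, φ (ρ h x) = σ h (φ x)) : Pair L (Fun ρ Ω) L (Fun σ Ω) :=
  Pair.coeff L (φ.compLeft Ω) (fun h f => by ext w; simp [hφ])

/-- pull back along an equivariant map of `H`-sets `r : Ω → Ω'`. -/
def Pair.funPull (L : Levels H) {Ω Ω' : Type} [MulAction H Ω] [MulAction H Ω'] (r : Ω → Ω')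
    (hr : ∀ (h : H) (w : Ω), r (h • w) = h • r w) : Pair L (Fun ρ Ω') L (Fun ρ Ω) :=
  Pair.coeff L (LinearMap.funLeft k X r) (fun h f => by ext w; simp [LinearMap.funLeft, hr])

/-- swap of the two variables, `Fun(Ω,Fun(Ω',X)) ≃ Fun(Ω',Fun(Ω,X))`. -/
def swapEquiv : (Ω → Ω' → X) ≃ₗ[k] (Ω' → Ω → X) where
  toFun f w' w := f w w'
  invFun f w w' := f w' w
  map_add' _ _ := rfl
  map_smul' _ _ := rfl
  left_inv _ := rfl
  right_inv _ := rfl

lemma swapEquiv_comm (h : H) (f : Ω → Ω' → X) :
    swapEquiv (k := k) Ω Ω' (Fun (Fun ρ Ω') Ω h f) =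
      Fun (Fun ρ Ω) Ω' h (swapEquiv (k := k) Ω Ω' f) := by
  ext w' w; rfl

/-- the swap pair. -/
def Pair.swap (L : Levels H) : Pair L (Fun (Fun ρ Ω') Ω) L (Fun (Fun ρ Ω) Ω') :=
  Pair.coeff L (swapEquiv Ω Ω').toLinearMap (swapEquiv_comm ρ Ω Ω')

/-- `0 → X → Fun(Ω,X) → Fun(Ω,X)/X → 0`. -/
def constSES [Nonempty Ω] : SES ρ (Fun ρ Ω) (cokerRep (constMap k X Ω) (constMap_comm ρ Ω)) :=
  SES.ofInj (constMap k X Ω) (constMap_comm ρ Ω) (constMap_injective Ω)

/-- `0 → ker Σ → Fun(Ω,X) → X → 0`. -/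
def sumSES [Finite Ω] [Nonempty Ω] : SES (kerRep (sumMap k X Ω) (sumMap_comm ρ Ω)) (Fun ρ Ω) ρ :=
  SES.ofSurj (sumMap k X Ω) (sumMap_comm ρ Ω) (sumMap_surjective Ω)

/-- If `U` acts trivially on `X`, then `Fun(H/U,X)` is isomorphic to
`Fun(H/U, X with trivial action)`, via `f ↦ (x ↦ x⁻¹ f(x))`. -/
lemma exists_untwist' (U : Subgroup H) (hU : ∀ n ∈ U, ρ n = 1) :
    ∃ e : (H ⧸ U → X) ≃ₗ[k] (H ⧸ U → X),
      (∀ h f, e (Fun ρ (H ⧸ U) h f) = Fun (Representation.trivial k H X) (H ⧸ U) h (e f)) ∧
      (∀ (f : H ⧸ U → X) (g : H), e f (g : H ⧸ U) = ρ g⁻¹ (f g)) := by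
  have key : ∀ g : H, ρ ((g : H ⧸ U).out) = ρ g := by
    intro g
    obtain ⟨u, hu⟩ := QuotientGroup.mk_out_eq_mul U g
    rw [hu, map_mul, hU u u.2, mul_one]
  have key' : ∀ g : H, ρ ((g : H ⧸ U).out)⁻¹ = ρ g⁻¹ := by
    intro g
    obtain ⟨u, hu⟩ := QuotientGroup.mk_out_eq_mul U g
    rw [hu, mul_inv_rev, map_mul, hU _ (U.inv_mem u.2), one_mul]
  let e : (H ⧸ U → X) ≃ₗ[k] (H ⧸ U → X) :=
    { toFun := fun f q => ρ (q.out)⁻¹ (f q)
      invFun := fun f q => ρ (q.out) (f q)
      map_add' := fun f f' => by ext q; simp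
      map_smul' := fun c f => by ext q; simp
      left_inv := fun f => by
        ext q
        simp only
        rw [← Module.End.mul_apply, ← map_mul, mul_inv_cancel, map_one, Module.End.one_apply]
      right_inv := fun f => by
        ext q
        simp only
        rw [← Module.End.mul_apply, ← map_mul, inv_mul_cancel, map_one, Module.End.one_apply] }
  have he : ∀ (f : H ⧸ U → X) (g : H), e f (g : H ⧸ U) = ρ g⁻¹ (f g) := by
    intro f g
    change ρ ((g : H ⧸ U).out)⁻¹ (f g) = _
    rw [key']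
  refine ⟨e, ?_, he⟩
  intro h f
  ext q
  obtain ⟨g, rfl⟩ := QuotientGroup.mk_surjective q
  rw [he]
  simp only [Fun_apply, Representation.trivial_apply]
  have : h⁻¹ • (g : H ⧸ U) = ((h⁻¹ * g : H) : H ⧸ U) := rfl
  rw [this, he, ← Module.End.mul_apply, ← map_mul]
  congr 2
  group

/-- the same statement for a normal subgroup. -/
lemma exists_untwist (N : Subgroup H) [N.Normal] (hN : ∀ n ∈ N, ρ n = 1) :
    ∃ e : (H ⧸ N → X) ≃ₗ[k] (H ⧸ N → X),
      (∀ h f, e (Fun ρ (H ⧸ N) h f) = Fun (Representation.trivial k H X) (H ⧸ N) h (e f)) ∧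
      (∀ (f : H ⧸ N → X) (g : H), e f (g : H ⧸ N) = ρ g⁻¹ (f g)) :=
  exists_untwist' ρ N hN

end FunMod

end Fermat.Agent.S55

end
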