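import Fermat.Agent.S55.Coh.Basic

/-!
# S55 (A2a): the connecting maps `δ0`, `δ1` and their key API
TASK S55/A-LES.   (exactness statements: `Exact.lean`)
-/

set_option autoImplicit false

noncomputable section

namespace Fermat.Agent.S55

variable {k : Type} [CommRing k] {H : Type} [Group H]
variable {A B C : Type} [AddCommGroup A] [Module k A] [AddCommGroup B] [Module k B]
  [AddCommGroup C] [Module k C]
variable {ρA : Representation k H A} {ρB : Representation k H B} {ρC : Representation k H C}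

namespace LES

/-- a linear map killing the kernel of a surjection factors through it. -/
lemma exists_factor {P Q R : Type} [AddCommGroup P] [Module k P] [AddCommGroup Q] [Module k Q]
    [AddCommGroup R] [Module k R] (p : P →ₗ[k] Q) (hp : Function.Surjective p) (Φ : P →ₗ[k] R)
    (h : LinearMap.ker p ≤ LinearMap.ker Φ) : ∃ δ : Q →ₗ[k] R, ∀ x, δ (p x) = Φ x := by
  refine ⟨(Submodule.liftQ _ Φ h) ∘ₗ (p.quotKerEquivOfSurjective hp).symm.toLinearMap,
    fun x => ?_⟩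
  have : (p.quotKerEquivOfSurjective hp).symm (p x) = Submodule.Quotient.mk x := by
    rw [LinearEquiv.symm_apply_eq]; rfl
  simp [this]

/-- a linear family of functions with values in the range of an injective map lifts linearly. -/
lemma exists_lin_lift {P T : Type} [AddCommGroup P] [Module k P] (i : A →ₗ[k] B)
    (hi : Function.Injective i) (D : P →ₗ[k] (T → B))
    (h : ∀ x t, D x t ∈ LinearMap.range i) :
    ∃ ψ : P →ₗ[k] (T → A), ∀ x t, i (ψ x t) = D x t := by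
  refine ⟨LinearMap.pi fun t => (LinearEquiv.ofInjective i hi).symm.toLinearMap ∘ₗ
    (LinearMap.codRestrict (LinearMap.range i) (LinearMap.proj t ∘ₗ D) (fun x => h x t)),
    fun x t => ?_⟩
  simp only [LinearMap.pi_apply, LinearMap.comp_apply, LinearEquiv.coe_coe]
  have := (LinearEquiv.ofInjective i hi).apply_symm_apply
    ((LinearMap.codRestrict (LinearMap.range i) (LinearMap.proj t ∘ₗ D) (fun x => h x t)) x)
  exact congrArg Subtype.val this

end LES

namespace SES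

/-- the coefficient pair of `i`. -/
def iP (E : SES ρA ρB ρC) (L : Levels H) : Pair L ρA L ρB := Pair.coeff L E.i E.i_comm

/-- the coefficient pair of `π`. -/
def πP (E : SES ρA ρB ρC) (L : Levels H) : Pair L ρB L ρC := Pair.coeff L E.π E.π_comm

lemma mem_range_i (E : SES ρA ρB ρC) {b : B} (hb : E.π b = 0) : b ∈ LinearMap.range E.i :=
  (E.exact b).mp hb

lemma π_i (E : SES ρA ρB ρC) (a : A) : E.π (E.i a) = 0 := (E.exact _).mpr ⟨a, rfl⟩

/-- a function `z : H → A` with `i ∘ z = d0 b` is a level cocycle. -/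
lemma mem_Z1_of_i_eq (E : SES ρA ρB ρC) (L : Levels H) [Smooth L ρB] {z : H → A} {b : B}
    (hz : ∀ g, E.i (z g) = ρB g b - b) : z ∈ Z1 L ρA := by
  rw [mem_Z1]
  refine ⟨fun g h => E.inj ?_, ?_⟩
  · rw [map_add, E.i_comm, hz, hz, hz, map_mul, Module.End.mul_apply, map_sub]
    abel
  · apply Levels.IsLevel₁.of_comp E.inj
    have : E.i ∘ z = d0 ρB b := by ext g; simp [hz]
    rw [this]
    exact d0_isLevel b

/-- a function `z : H × H → A` with `i ∘ z = d1 y`, `y` level, is a level cocycle. -/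
lemma mem_Z2_of_i_eq (E : SES ρA ρB ρC) (L : Levels H) [Smooth L ρB] {z : H × H → A} {y : H → B}
    (hy : L.IsLevel₁ y) (hz : ∀ g h, E.i (z (g, h)) = ρB g (y h) - y (g * h) + y g) :
    z ∈ Z2 L ρA := by
  have hzy : E.i ∘ z = d1 ρB y := by ext ⟨g, h⟩; simp [hz]
  rw [mem_Z2]
  refine ⟨fun g h j => E.inj ?_, ?_⟩
  · have := congrFun (d2_d1 ρB y) (g, h, j)
    simp only [d2_apply, Pi.zero_apply, ← hzy, Function.comp_apply] at this
    rw [map_add, map_add, E.i_comm, ← sub_eq_zero, ← this]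
    abel
  · apply Levels.IsLevel₂.of_comp E.inj
    rw [hzy]
    exact d1_isLevel hy

/-- existence of the connecting map `H^0(C) → H^1(A)`, characterised by: `δ c` is computed by
ANY lift `b` of `c`. -/
theorem exists_δ0_map (E : SES ρA ρB ρC) (L : Levels H) [Smooth L ρB] :
    ∃ δ : ↥(H0 ρC) →ₗ[k] H1 L ρA, ∀ (c : ↥(H0 ρC)) (b : B) (z : ↥(Z1 L ρA)), E.π b = c →
      (∀ g, E.i ((z : H → A) g) = ρB g b - b) → δ c = H1.mk L ρA z := by
  -- `P` = lifts of invariants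
  let P : Submodule k B := (H0 ρC).comap E.π
  let p : ↥P →ₗ[k] ↥(H0 ρC) := E.π.restrict (fun _ hb => hb)
  have hp : Function.Surjective p := by
    rintro ⟨c, hc⟩
    obtain ⟨b, rfl⟩ := E.surj c
    exact ⟨⟨b, hc⟩, rfl⟩
  obtain ⟨ψ, hψ⟩ := LES.exists_lin_lift (P := ↥P) (T := H) E.i E.inj (d0 ρB ∘ₗ P.subtype) (by
    rintro ⟨b, hb⟩ g
    apply E.mem_range_i
    have : ρC g (E.π b) = E.π b := hb g
    simp [E.π_comm, this])
  have hψ' : ∀ (x : ↥P) (g : H), E.i (ψ x g) = ρB g (x : B) - x := hψ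
  let Φ : ↥P →ₗ[k] H1 L ρA :=
    H1.mk L ρA ∘ₗ LinearMap.codRestrict (Z1 L ρA) ψ (fun x => E.mem_Z1_of_i_eq L (hψ' x))
  obtain ⟨δ, hδ⟩ := LES.exists_factor p hp Φ (by
    intro x hx
    rw [LinearMap.mem_ker] at hx ⊢
    have hx0 : E.π (x : B) = 0 := congrArg Subtype.val hx
    obtain ⟨a, ha⟩ := E.mem_range_i hx0
    show H1.mk L ρA _ = 0
    rw [H1.mk_eq_zero_iff]
    refine ⟨a, fun g => E.inj ?_⟩
    show E.i (ψ x g) = _
    rw [hψ', map_sub, E.i_comm, ha])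
  refine ⟨δ, fun c b z hb hz => ?_⟩
  have hbP : b ∈ P := by
    show E.π b ∈ H0 ρC
    rw [hb]; exact c.2
  have hc : c = p ⟨b, hbP⟩ := Subtype.ext hb.symm
  rw [hc, hδ]
  show H1.mk L ρA _ = _
  congr 1
  apply Subtype.ext
  funext g
  apply E.inj
  show E.i (ψ ⟨b, hbP⟩ g) = _
  rw [hψ', hz]

/-- level lifts exist (no smoothness needed). -/
lemma exists_lift₁' (E : SES ρA ρB ρC) (L : Levels H) (c : H → C) (hc : L.IsLevel₁ c) :
    ∃ y : H → B, L.IsLevel₁ y ∧ ∀ g, E.π (y g) = c g :=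
  ⟨Function.surjInv E.surj ∘ c, hc.comp _, fun g => Function.surjInv_eq E.surj (c g)⟩

/-- existence of the connecting map `H^1(C) → H^2(A)`, characterised by: `δ [c]` is computed by
ANY level cochain `y` lifting `c`. -/
theorem exists_δ1_map (E : SES ρA ρB ρC) (L : Levels H) [Smooth L ρB] :
    ∃ δ : H1 L ρC →ₗ[k] H2 L ρA, ∀ (c : ↥(Z1 L ρC)) (y : H → B) (z : ↥(Z2 L ρA)),
      L.IsLevel₁ y → (∀ g, E.π (y g) = (c : H → C) g) →
      (∀ g h, E.i ((z : H × H → A) (g, h)) = ρB g (y h) - y (g * h) + y g) →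
      δ (H1.mk L ρC c) = H2.mk L ρA z := by
  -- `P` = level cochains lifting cocycles
  let πc : (H → B) →ₗ[k] (H → C) := E.π.compLeft H
  let P : Submodule k (H → B) := C1 k B L ⊓ (Z1 L ρC).comap πc
  let p0 : ↥P →ₗ[k] ↥(Z1 L ρC) := πc.restrict (fun _ hy => hy.2)
  let p : ↥P →ₗ[k] H1 L ρC := H1.mk L ρC ∘ₗ p0
  have hp : Function.Surjective p := by
    intro x
    obtain ⟨c, rfl⟩ := H1.mk_surjective L ρC x
    obtain ⟨y, hy, hyc⟩ := E.exists_lift₁' L c (mem_Z1.mp c.2).2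
    have hπy : πc y = c := funext hyc
    refine ⟨⟨y, hy, ?_⟩, ?_⟩
    · show πc y ∈ Z1 L ρC
      rw [hπy]; exact c.2
    · show H1.mk L ρC _ = _
      congr 1
      exact Subtype.ext hπy
  obtain ⟨ψ, hψ⟩ := LES.exists_lin_lift (P := ↥P) (T := H × H) E.i E.inj (d1 ρB ∘ₗ P.subtype) (by
    rintro ⟨y, hy1, hy2⟩ ⟨g, h⟩
    apply E.mem_range_i
    have h1 := (mem_Z1.mp hy2).1 g h
    have h2 : ∀ g, πc y g = E.π (y g) := fun _ => rfl
    simp only [h2] at h1
    simp [E.π_comm, h1])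
  have hψ' : ∀ (x : ↥P) (g h : H),
      E.i (ψ x (g, h)) = ρB g ((x : H → B) h) - (x : H → B) (g * h) + (x : H → B) g :=
    fun x g h => hψ x (g, h)
  let Φ : ↥P →ₗ[k] H2 L ρA :=
    H2.mk L ρA ∘ₗ LinearMap.codRestrict (Z2 L ρA) ψ
      (fun x => E.mem_Z2_of_i_eq L x.2.1 (hψ' x))
  obtain ⟨δ, hδ⟩ := LES.exists_factor p hp Φ (by
    intro x hx
    rw [LinearMap.mem_ker] at hx ⊢
    have hx0 : H1.mk L ρC (p0 x) = 0 := hx
    rw [H1.mk_eq_zero_iff] at hx0
    obtain ⟨c₀, hc₀⟩ := hx0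
    have hc₀' : ∀ g, E.π ((x : H → B) g) = ρC g c₀ - c₀ := hc₀
    obtain ⟨b₀, rfl⟩ := E.surj c₀
    -- `x - d0 b₀ = i ∘ a`
    have hker : ∀ g, (x : H → B) g - (ρB g b₀ - b₀) ∈ LinearMap.range E.i := by
      intro g
      apply E.mem_range_i
      rw [map_sub, hc₀', map_sub, E.π_comm, sub_self]
    choose a ha using hker
    have halev : L.IsLevel₁ a := by
      apply Levels.IsLevel₁.of_comp E.inj
      have : E.i ∘ a = (x : H → B) - d0 ρB b₀ := by ext g; simp [ha]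
      rw [this]
      exact (C1 k B L).sub_mem x.2.1 (d0_isLevel b₀)
    show H2.mk L ρA _ = 0
    rw [H2.mk_eq_zero_iff]
    refine ⟨a, halev, fun g h => E.inj ?_⟩
    show E.i (ψ x (g, h)) = _
    rw [hψ', map_add, map_sub, E.i_comm, ha, ha, ha, map_sub, map_sub, map_mul,
      Module.End.mul_apply]
    abel)
  refine ⟨δ, fun c y z hy hyc hz => ?_⟩
  have hπy : πc y = c := funext hyc
  have hyP : y ∈ P := ⟨hy, by show πc y ∈ Z1 L ρC; rw [hπy]; exact c.2⟩
  have hc : H1.mk L ρC c = p ⟨y, hyP⟩ := by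
    show _ = H1.mk L ρC _
    congr 1
    exact Subtype.ext hπy.symm
  rw [hc, hδ]
  show H2.mk L ρA _ = _
  congr 1
  apply Subtype.ext
  funext ⟨g, h⟩
  apply E.inj
  show E.i (ψ ⟨y, hyP⟩ (g, h)) = _
  rw [hψ', hz]

/-- connecting map `H^0(C) → H^1(A)`. -/
def δ0 (E : SES ρA ρB ρC) (L : Levels H) [Smooth L ρB] : ↥(H0 ρC) →ₗ[k] H1 L ρA :=
  Classical.choose (E.exists_δ0_map L)

/-- connecting map `H^1(C) → H^2(A)`. -/
def δ1 (E : SES ρA ρB ρC) (L : Levels H) [Smooth L ρB] : H1 L ρC →ₗ[k] H2 L ρA :=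
  Classical.choose (E.exists_δ1_map L)

variable (E : SES ρA ρB ρC) (L : Levels H) [Smooth L ρB]

/-- KEY API: `δ0 c` is computed by ANY lift `b` of `c`. -/
lemma δ0_eq (c : ↥(H0 ρC)) (b : B) (hb : E.π b = c) (z : ↥(Z1 L ρA))
    (hz : ∀ g, E.i ((z : H → A) g) = ρB g b - b) : E.δ0 L c = H1.mk L ρA z :=
  Classical.choose_spec (E.exists_δ0_map L) c b z hb hz

/-- such data exist. -/
lemma exists_δ0 (c : ↥(H0 ρC)) (b : B) (hb : E.π b = c) :
    ∃ z : ↥(Z1 L ρA), ∀ g, E.i ((z : H → A) g) = ρB g b - b := by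
  have hker : ∀ g, ρB g b - b ∈ LinearMap.range E.i := by
    intro g
    apply E.mem_range_i
    have : ρC g (c : C) = c := c.2 g
    rw [map_sub, E.π_comm, hb, this, sub_self]
  choose z hz using hker
  exact ⟨⟨z, E.mem_Z1_of_i_eq L hz⟩, hz⟩

/-- KEY API: `δ1 [c]` is computed by ANY level cochain `y` lifting `c`. -/
lemma δ1_eq (c : ↥(Z1 L ρC)) (y : H → B) (hy : L.IsLevel₁ y)
    (hyc : ∀ g, E.π (y g) = (c : H → C) g) (z : ↥(Z2 L ρA))
    (hz : ∀ g h, E.i ((z : H × H → A) (g, h)) = ρB g (y h) - y (g * h) + y g) :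
    E.δ1 L (H1.mk L ρC c) = H2.mk L ρA z :=
  Classical.choose_spec (E.exists_δ1_map L) c y z hy hyc hz

/-- level lifts exist. -/
lemma exists_lift₁ (c : H → C) (hc : L.IsLevel₁ c) :
    ∃ y : H → B, L.IsLevel₁ y ∧ ∀ g, E.π (y g) = c g :=
  E.exists_lift₁' L c hc

lemma exists_δ1 (c : ↥(Z1 L ρC)) (y : H → B) (hy : L.IsLevel₁ y)
    (hyc : ∀ g, E.π (y g) = (c : H → C) g) :
    ∃ z : ↥(Z2 L ρA), ∀ g h, E.i ((z : H × H → A) (g, h)) = ρB g (y h) - y (g * h) + y g := by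
  have hker : ∀ gh : H × H, ρB gh.1 (y gh.2) - y (gh.1 * gh.2) + y gh.1 ∈ LinearMap.range E.i := by
    rintro ⟨g, h⟩
    apply E.mem_range_i
    have h1 := (mem_Z1.mp c.2).1 g h
    simp only [map_add, map_sub, E.π_comm, hyc, h1]
    abel
  choose z hz using hker
  have hz' : ∀ g h, E.i (z (g, h)) = ρB g (y h) - y (g * h) + y g := fun g h => hz (g, h)
  exact ⟨⟨z, E.mem_Z2_of_i_eq L hy hz'⟩, hz'⟩

end SES

end Fermat.Agent.S55

end
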