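import Fermat.Agent.S55.Coh.FunMod
import Fermat.Agent.S55.Coh.Exact

/-!
# S55 (A3): naturality of the connecting maps
TASK S55/A-Natural.
-/

set_option autoImplicit false
set_option linter.unusedSectionVars false

noncomputable section

namespace Fermat.Agent.S55

variable {k : Type} [CommRing k] {H H' : Type} [Group H] [Group H']
variable {A B C : Type} [AddCommGroup A] [Module k A] [AddCommGroup B] [Module k B]
  [AddCommGroup C] [Module k C]
variable {A' B' C' : Type} [AddCommGroup A'] [Module k A'] [AddCommGroup B'] [Module k B']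
  [AddCommGroup C'] [Module k C']

/-! ### naturality of the connecting maps (A3) -/

section Natural

variable {ρA : Representation k H A} {ρB : Representation k H B} {ρC : Representation k H C}
variable {σA : Representation k H' A'} {σB : Representation k H' B'}
  {σC : Representation k H' C'}
variable {L : Levels H} {L' : Levels H'}

/-- a morphism of short exact sequences over a group homomorphism. -/
structure SES.Hom (E : SES ρA ρB ρC) (E' : SES σA σB σC) (L : Levels H) (L' : Levels H') where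
  PA : Pair L ρA L' σA
  PB : Pair L ρB L' σB
  PC : Pair L ρC L' σC
  fAB : PA.f = PB.f
  fBC : PB.f = PC.f
  comm_i : ∀ a, PB.φ (E.i a) = E'.i (PA.φ a)
  comm_π : ∀ b, PC.φ (E.π b) = E'.π (PB.φ b)

variable {E : SES ρA ρB ρC} {E' : SES σA σB σC} [Smooth L ρB] [Smooth L' σB]

lemma SES.Hom.δ0_comm (T : SES.Hom E E' L L') (c : ↥(H0 ρC)) :
    T.PA.map1 (E.δ0 L c) = E'.δ0 L' (T.PC.map0 c) := by
  obtain ⟨b, hb⟩ := E.surj (c : C)
  obtain ⟨z, hz⟩ := E.exists_δ0 L c b hb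
  rw [E.δ0_eq L c b hb z hz, Pair.map1_mk]
  symm
  refine E'.δ0_eq L' _ (T.PB.φ b) ?_ _ fun h => ?_
  · rw [← T.comm_π, hb]; rfl
  · show E'.i (T.PA.φ ((z : H → A) (T.PA.f h))) = _
    rw [← T.comm_i, hz, map_sub, T.fAB, T.PB.compat]

lemma SES.Hom.δ1_comm (T : SES.Hom E E' L L') (c : H1 L ρC) :
    T.PA.map2 (E.δ1 L c) = E'.δ1 L' (T.PC.map1 c) := by
  obtain ⟨c, rfl⟩ := H1.mk_surjective L ρC c
  have hc := mem_Z1.mp c.2
  obtain ⟨y, hy, hyc⟩ := E.exists_lift₁ L (c : H → C) hc.2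
  obtain ⟨z, hz⟩ := E.exists_δ1 L c y hy hyc
  rw [E.δ1_eq L c y hy hyc z hz, Pair.map2_mk, Pair.map1_mk]
  symm
  refine E'.δ1_eq L' _ (T.PB.c1 y) (T.PB.c1_isLevel hy) (fun h => ?_) _ fun g h => ?_
  · show E'.π (T.PB.φ (y (T.PB.f h))) = T.PC.φ ((c : H → C) (T.PC.f h))
    rw [← T.comm_π, hyc, T.fBC]
  · show E'.i (T.PA.φ ((z : H × H → A) (T.PA.f g, T.PA.f h))) = _
    rw [← T.comm_i, hz, map_add, map_sub, T.fAB, T.PB.compat, ← map_mul]
    rfl

lemma SES.Hom.i_comm0 (T : SES.Hom E E' L L') (a : ↥(H0 ρA)) :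
    T.PB.map0 ((E.iP L).map0 a) = (E'.iP L').map0 (T.PA.map0 a) := by
  exact Subtype.ext (T.comm_i _)

lemma SES.Hom.i_comm1 (T : SES.Hom E E' L L') (a : H1 L ρA) :
    T.PB.map1 ((E.iP L).map1 a) = (E'.iP L').map1 (T.PA.map1 a) := by
  obtain ⟨z, rfl⟩ := H1.mk_surjective L ρA a
  simp only [Pair.map1_mk]
  congr 1
  apply Subtype.ext
  funext h
  show T.PB.φ (E.i ((z : H → A) (T.PB.f h))) = E'.i (T.PA.φ ((z : H → A) (T.PA.f h)))
  rw [T.comm_i, T.fAB]

lemma SES.Hom.i_comm2 (T : SES.Hom E E' L L') (a : H2 L ρA) :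
    T.PB.map2 ((E.iP L).map2 a) = (E'.iP L').map2 (T.PA.map2 a) := by
  obtain ⟨z, rfl⟩ := H2.mk_surjective L ρA a
  simp only [Pair.map2_mk]
  congr 1
  apply Subtype.ext
  funext h
  show T.PB.φ (E.i ((z : H × H → A) (T.PB.f h.1, T.PB.f h.2))) =
    E'.i (T.PA.φ ((z : H × H → A) (T.PA.f h.1, T.PA.f h.2)))
  rw [T.comm_i, T.fAB]

lemma SES.Hom.π_comm0 (T : SES.Hom E E' L L') (b : ↥(H0 ρB)) :
    T.PC.map0 ((E.πP L).map0 b) = (E'.πP L').map0 (T.PB.map0 b) := by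
  exact Subtype.ext (T.comm_π _)

lemma SES.Hom.π_comm1 (T : SES.Hom E E' L L') (b : H1 L ρB) :
    T.PC.map1 ((E.πP L).map1 b) = (E'.πP L').map1 (T.PB.map1 b) := by
  obtain ⟨z, rfl⟩ := H1.mk_surjective L ρB b
  simp only [Pair.map1_mk]
  congr 1
  apply Subtype.ext
  funext h
  show T.PC.φ (E.π ((z : H → B) (T.PC.f h))) = E'.π (T.PB.φ ((z : H → B) (T.PB.f h)))
  rw [T.comm_π, T.fBC]

lemma SES.Hom.π_comm2 (T : SES.Hom E E' L L') (b : H2 L ρB) :
    T.PC.map2 ((E.πP L).map2 b) = (E'.πP L').map2 (T.PB.map2 b) := by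
  obtain ⟨z, rfl⟩ := H2.mk_surjective L ρB b
  simp only [Pair.map2_mk]
  congr 1
  apply Subtype.ext
  funext h
  show T.PC.φ (E.π ((z : H × H → B) (T.PC.f h.1, T.PC.f h.2))) =
    E'.π (T.PB.φ ((z : H × H → B) (T.PB.f h.1, T.PB.f h.2)))
  rw [T.comm_π, T.fBC]

/-- restriction along `f` as a morphism of SES. -/
def SES.Hom.pull (E : SES ρA ρB ρC) (L : Levels H) (f : H' →* H) :
    SES.Hom E (E.pull f) L (L.comap f) where
  PA := Pair.pull L ρA f
  PB := Pair.pull L ρB f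
  PC := Pair.pull L ρC f
  fAB := rfl
  fBC := rfl
  comm_i _ := rfl
  comm_π _ := rfl

/-- evaluation (Shapiro) as a morphism of SES. -/
def SES.Hom.ev (E : SES ρA ρB ρC) (L : Levels H) (Ω : Type) [MulAction H Ω] (V : Subgroup H)
    (x : Ω) (hx : ∀ v ∈ V, v • x = x) : SES.Hom (E.funSES Ω) (E.sub V) L (L.sub V) where
  PA := Pair.ev L ρA Ω V x hx
  PB := Pair.ev L ρB Ω V x hx
  PC := Pair.ev L ρC Ω V x hx
  fAB := rfl
  fBC := rfl
  comm_i _ := rfl
  comm_π _ := rfl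

/-- conjugation as a morphism of SES. -/
def SES.Hom.conj (E : SES ρA ρB ρC) (L : Levels H) (g : H) {V V' : Subgroup H}
    (h : ∀ v ∈ V', g * v * g⁻¹ ∈ V) : SES.Hom (E.sub V) (E.sub V') (L.sub V) (L.sub V') where
  PA := Pair.conj L ρA g h
  PB := Pair.conj L ρB g h
  PC := Pair.conj L ρC g h
  fAB := rfl
  fBC := rfl
  comm_i a := (E.i_comm g⁻¹ a).symm
  comm_π b := (E.π_comm g⁻¹ b).symm

end Natural

end Fermat.Agent.S55

end
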