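import Fermat.Agent.S55.Coh.FunMod

/-!
# S55 (A5b): level cohomology commutes with finite products
TASK S55/A-Prod.
-/

set_option autoImplicit false

noncomputable section

namespace Fermat.Agent.S55

variable {k : Type} [CommRing k] {H : Type} [Group H]
variable {X X' : Type} [AddCommGroup X] [Module k X] [AddCommGroup X'] [Module k X']

/-- product of a family of representations. -/
def piRep {ι : Type} {Y : ι → Type} [∀ j, AddCommGroup (Y j)] [∀ j, Module k (Y j)]
    (σ : ∀ j, Representation k H (Y j)) : Representation k H (∀ j, Y j) where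
  toFun g := LinearMap.pi (fun j => (σ j g).comp (LinearMap.proj j))
  map_one' := by ext f j; simp
  map_mul' g h := by ext f j; simp

@[simp] lemma piRep_apply {ι : Type} {Y : ι → Type} [∀ j, AddCommGroup (Y j)]
    [∀ j, Module k (Y j)] (σ : ∀ j, Representation k H (Y j)) (g : H) (f : ∀ j, Y j) (j : ι) :
    piRep σ g f j = σ j g (f j) := rfl

namespace Prod

lemma isLevel₁_pi {L : Levels H} {ι : Type} [Finite ι] {Y : ι → Type} {f : H → ∀ j, Y j}
    (hf : ∀ j, L.IsLevel₁ (fun g => f g j)) : L.IsLevel₁ f := by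
  choose U hU h using hf
  exact ⟨⨅ j, U j, Levels.isOpen_iInf hU, fun g s hs => by
    ext j
    exact h j g s ((Subgroup.mem_iInf.1 hs) j)⟩

lemma isLevel₂_pi {L : Levels H} {ι : Type} [Finite ι] {Y : ι → Type} {f : H × H → ∀ j, Y j}
    (hf : ∀ j, L.IsLevel₂ (fun g => f g j)) : L.IsLevel₂ f := by
  choose U hU h using hf
  exact ⟨⨅ j, U j, Levels.isOpen_iInf hU, fun g g' s hs s' hs' => by
    ext j
    exact h j g g' s ((Subgroup.mem_iInf.1 hs) j) s' ((Subgroup.mem_iInf.1 hs') j)⟩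

end Prod

section Pi
variable (L : Levels H) {ι : Type} {Y : ι → Type} [∀ j, AddCommGroup (Y j)]
  [∀ j, Module k (Y j)] (σ : ∀ j, Representation k H (Y j))

instance Smooth.piRep [Finite ι] [∀ j, Smooth L (σ j)] : Smooth L (piRep σ) := by
  constructor
  intro x
  have : ∀ j, ∃ U : Subgroup H, L.IsOpen U ∧ ∀ s ∈ U, σ j s (x j) = x j :=
    fun j => Smooth.exists_isOpen (x j)
  choose U hU h using this
  exact ⟨⨅ j, U j, Levels.isOpen_iInf hU, fun s hs => by
    ext j
    exact h j s ((Subgroup.mem_iInf.1 hs) j)⟩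

/-- the projection pair. -/
def Pair.proj (j : ι) : Pair L (piRep σ) L (σ j) :=
  Pair.coeff L (LinearMap.proj j) (fun _ _ => rfl)

theorem pi_bijective0 :
    Function.Bijective (LinearMap.pi (fun j => (Pair.proj L σ j).map0) :
      ↥(H0 (piRep σ)) →ₗ[k] ∀ j, ↥(H0 (σ j))) := by
  constructor
  · intro x y h
    ext j
    exact congrArg Subtype.val (congrFun h j)
  · intro y
    refine ⟨⟨fun j => (y j : Y j), fun g => ?_⟩, ?_⟩
    · ext j
      exact (y j).2 g
    · ext j
      rfl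

theorem pi_bijective1 [Finite ι] :
    Function.Bijective (LinearMap.pi (fun j => (Pair.proj L σ j).map1) :
      H1 L (piRep σ) →ₗ[k] ∀ j, H1 L (σ j)) := by
  constructor
  · refine (injective_iff_map_eq_zero _).2 ?_
    intro x hx
    obtain ⟨z, rfl⟩ := H1.mk_surjective L (piRep σ) x
    have h : ∀ j, ∃ x : Y j, ∀ g, (z : H → ∀ j, Y j) g j = σ j g x - x := by
      intro j
      have := congrFun hx j
      simp only [LinearMap.pi_apply, Pair.map1_mk, Pi.zero_apply] at this
      exact (H1.mk_eq_zero_iff _).1 this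
    choose x hx' using h
    rw [H1.mk_eq_zero_iff]
    exact ⟨x, fun g => by ext j; exact hx' j g⟩
  · intro y
    have h : ∀ j, ∃ z : ↥(Z1 L (σ j)), H1.mk L (σ j) z = y j :=
      fun j => H1.mk_surjective L (σ j) (y j)
    choose z hz using h
    have hmem : (fun g j => (z j : H → Y j) g) ∈ Z1 L (piRep σ) := by
      rw [mem_Z1]
      refine ⟨fun g h => ?_, Prod.isLevel₁_pi (fun j => (mem_Z1.1 (z j).2).2)⟩
      ext j
      exact (mem_Z1.1 (z j).2).1 g h
    refine ⟨H1.mk L (piRep σ) ⟨_, hmem⟩, ?_⟩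
    ext j
    rw [← hz j]
    rfl

theorem pi_bijective2 [Finite ι] :
    Function.Bijective (LinearMap.pi (fun j => (Pair.proj L σ j).map2) :
      H2 L (piRep σ) →ₗ[k] ∀ j, H2 L (σ j)) := by
  constructor
  · refine (injective_iff_map_eq_zero _).2 ?_
    intro x hx
    obtain ⟨z, rfl⟩ := H2.mk_surjective L (piRep σ) x
    have h : ∀ j, ∃ y : H → Y j, L.IsLevel₁ y ∧
        ∀ g h, (z : H × H → ∀ j, Y j) (g, h) j = σ j g (y h) - y (g * h) + y g := by
      intro j
      have := congrFun hx j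
      simp only [LinearMap.pi_apply, Pair.map2_mk, Pi.zero_apply] at this
      exact (H2.mk_eq_zero_iff _).1 this
    choose y hy hy' using h
    rw [H2.mk_eq_zero_iff]
    exact ⟨fun g j => y j g, Prod.isLevel₁_pi hy, fun g h => by ext j; exact hy' j g h⟩
  · intro y
    have h : ∀ j, ∃ z : ↥(Z2 L (σ j)), H2.mk L (σ j) z = y j :=
      fun j => H2.mk_surjective L (σ j) (y j)
    choose z hz using h
    have hmem : (fun g j => (z j : H × H → Y j) g) ∈ Z2 L (piRep σ) := by
      rw [mem_Z2]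
      refine ⟨fun g h i => ?_, Prod.isLevel₂_pi (fun j => (mem_Z2.1 (z j).2).2)⟩
      ext j
      exact (mem_Z2.1 (z j).2).1 g h i
    refine ⟨H2.mk L (piRep σ) ⟨_, hmem⟩, ?_⟩
    ext j
    rw [← hz j]
    rfl

end Pi

section Prod
variable (L : Levels H) (ρ : Representation k H X) (σ : Representation k H X')

/-- first projection. -/
def Pair.fst : Pair L (ρ.prod σ) L ρ := Pair.coeff L (LinearMap.fst k X X') (fun _ _ => rfl)

/-- second projection. -/
def Pair.snd : Pair L (ρ.prod σ) L σ := Pair.coeff L (LinearMap.snd k X X') (fun _ _ => rfl)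

theorem prod_bijective0 :
    Function.Bijective ((Pair.fst L ρ σ).map0.prod (Pair.snd L ρ σ).map0) := by
  constructor
  · intro x y h
    have h1 := congrArg (fun t => (t.1 : X)) h
    have h2 := congrArg (fun t => (t.2 : X')) h
    exact Subtype.ext (Prod.ext h1 h2)
  · rintro ⟨y, y'⟩
    refine ⟨⟨((y : X), (y' : X')), fun g => ?_⟩, rfl⟩
    exact Prod.ext (y.2 g) (y'.2 g)

theorem prod_bijective1 :
    Function.Bijective ((Pair.fst L ρ σ).map1.prod (Pair.snd L ρ σ).map1) := by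
  constructor
  · rw [← LinearMap.ker_eq_bot, LinearMap.ker_eq_bot']
    intro x hx
    obtain ⟨z, rfl⟩ := H1.mk_surjective L (ρ.prod σ) x
    have h1 := congrArg Prod.fst hx
    have h2 := congrArg Prod.snd hx
    simp only [LinearMap.prod_apply, Prod.fst_zero, Prod.snd_zero] at h1 h2
    obtain ⟨a, ha⟩ := (H1.mk_eq_zero_iff _).1 h1
    obtain ⟨b, hb⟩ := (H1.mk_eq_zero_iff _).1 h2
    rw [H1.mk_eq_zero_iff]
    exact ⟨(a, b), fun g => Prod.ext (ha g) (hb g)⟩
  · rintro ⟨y, y'⟩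
    obtain ⟨z, rfl⟩ := H1.mk_surjective L ρ y
    obtain ⟨z', rfl⟩ := H1.mk_surjective L σ y'
    have hmem : (fun g => ((z : H → X) g, (z' : H → X') g)) ∈ Z1 L (ρ.prod σ) := by
      rw [mem_Z1]
      refine ⟨fun g h => ?_, (mem_Z1.1 z.2).2.prodMk (mem_Z1.1 z'.2).2⟩
      exact Prod.ext ((mem_Z1.1 z.2).1 g h) ((mem_Z1.1 z'.2).1 g h)
    exact ⟨H1.mk L (ρ.prod σ) ⟨_, hmem⟩, rfl⟩

theorem prod_bijective2 :
    Function.Bijective ((Pair.fst L ρ σ).map2.prod (Pair.snd L ρ σ).map2) := by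
  constructor
  · rw [← LinearMap.ker_eq_bot, LinearMap.ker_eq_bot']
    intro x hx
    obtain ⟨z, rfl⟩ := H2.mk_surjective L (ρ.prod σ) x
    have h1 := congrArg Prod.fst hx
    have h2 := congrArg Prod.snd hx
    simp only [LinearMap.prod_apply, Prod.fst_zero, Prod.snd_zero] at h1 h2
    obtain ⟨a, ha, ha'⟩ := (H2.mk_eq_zero_iff _).1 h1
    obtain ⟨b, hb, hb'⟩ := (H2.mk_eq_zero_iff _).1 h2
    rw [H2.mk_eq_zero_iff]
    exact ⟨fun g => (a g, b g), ha.prodMk hb, fun g h => Prod.ext (ha' g h) (hb' g h)⟩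
  · rintro ⟨y, y'⟩
    obtain ⟨z, rfl⟩ := H2.mk_surjective L ρ y
    obtain ⟨z', rfl⟩ := H2.mk_surjective L σ y'
    have hmem : (fun g => ((z : H × H → X) g, (z' : H × H → X') g)) ∈ Z2 L (ρ.prod σ) := by
      rw [mem_Z2]
      refine ⟨fun g h i => ?_, (mem_Z2.1 z.2).2.prodMk (mem_Z2.1 z'.2).2⟩
      exact Prod.ext ((mem_Z2.1 z.2).1 g h i) ((mem_Z2.1 z'.2).1 g h i)
    exact ⟨H2.mk L (ρ.prod σ) ⟨_, hmem⟩, rfl⟩

end Prod

end Fermat.Agent.S55

end
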