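import Fermat.Agent.S55.Coh.EffaceSub
import Fermat.Agent.S55.Coh.CompareInst

/-!
# S55 (A4c): Shapiro's lemma in degrees 0,1,2 by dimension shifting per class
TASK S55/A-Shapiro.   (blueprint part 1, A4 SHAPIRO)

`sh_x = (Pair.ev L ρ Ω V x _).map_i : H^i(H; Fun(Ω,X)) → H^i(V; X)`, `V` = stabiliser of `x`,
`Ω` finite transitive with open stabilisers.  i = 0 direct.  i → i+1: for a class `z` choose `N`
(`exists_efface*`, `exists_efface*_sub`), `J = Fun ρ (H ⧸ N)`, `X1 = J/X` (`constSES`), the ladder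
`SES.Hom.ev ((constSES ρ (H ⧸ N)))` between the LES of `(constSES ..).funSES Ω` and of
`(constSES ..).sub V`; `z` dies in `Fun (Fun ρ (H⧸N)) Ω` because of `Pair.swap` and `efface`.
-/

set_option autoImplicit false

noncomputable section

namespace Fermat.Agent.S55

variable {k : Type} [CommRing k] {H : Type} [Group H]
variable {X : Type} [AddCommGroup X] [Module k X]

/-- abstract dimension shifting, injectivity part. Rows exact, `s` = vertical maps. -/
lemma shift_injective {F1 F2 F3 F4 G1 G2 G3 : Type}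
    [AddCommGroup F1] [AddCommGroup F2] [AddCommGroup F3] [AddCommGroup F4]
    [AddCommGroup G1] [AddCommGroup G2] [AddCommGroup G3]
    (a : F1 →+ F2) (b : F2 →+ F3) (c : F3 →+ F4) (a' : G1 →+ G2) (b' : G2 →+ G3)
    (s1 : F1 →+ G1) (s2 : F2 →+ G2) (s3 : F3 →+ G3)
    (hab : ∀ y, b (a y) = 0) (hbc : Function.Exact b c) (hab' : Function.Exact a' b')
    (h1 : ∀ y, s2 (a y) = a' (s1 y)) (h2 : ∀ y, s3 (b y) = b' (s2 y))
    (hs1 : Function.Surjective s1) (hs2 : Function.Injective s2)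
    (z : F3) (hz : c z = 0) (hsz : s3 z = 0) : z = 0 := by
  obtain ⟨y, rfl⟩ := (hbc z).1 hz
  rw [h2] at hsz
  obtain ⟨y', hy'⟩ := (hab' _).1 hsz
  obtain ⟨y'', rfl⟩ := hs1 y'
  rw [← h1] at hy'
  rw [← hs2 hy', hab]

/-- abstract dimension shifting, surjectivity part. -/
lemma shift_surjective {F2 F3 G2 G3 G4 : Type}
    [AddCommGroup F2] [AddCommGroup F3] [AddCommGroup G2] [AddCommGroup G3] [AddCommGroup G4]
    (b : F2 →+ F3) (b' : G2 →+ G3) (c' : G3 →+ G4)
    (s2 : F2 →+ G2) (s3 : F3 →+ G3)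
    (hbc' : Function.Exact b' c') (h2 : ∀ y, s3 (b y) = b' (s2 y))
    (hs2 : Function.Surjective s2) (w : G3) (hw : c' w = 0) : ∃ z, s3 z = w := by
  obtain ⟨y', rfl⟩ := (hbc' w).1 hw
  obtain ⟨y, rfl⟩ := hs2 y'
  exact ⟨b y, h2 y⟩

variable (L : Levels H) (ρ : Representation k H X) (Ω : Type) [MulAction H Ω]

namespace Shapiro

/-- an invariant function is determined by equivariance. -/
lemma inv_apply_smul (f : ↥(H0 (Fun ρ Ω))) (g : H) (x : Ω) :
    (f : Ω → X) (g • x) = ρ g ((f : Ω → X) x) := by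
  have h := congrFun (f.2 g) (g • x)
  rw [Fun_apply, inv_smul_smul] at h
  exact h.symm

variable (Ω' : Type) [MulAction H Ω'] [Nonempty Ω']

/-- `i_*` for `Fun(Ω, const)` is `swap ∘ const_*`. -/
lemma i_funSES_map1 (z : H1 L (Fun ρ Ω)) (h : (Pair.const (Fun ρ Ω) Ω' L).map1 z = 0) :
    (((constSES ρ Ω').funSES Ω).iP L).map1 z = 0 := by
  have e : (((constSES ρ Ω').funSES Ω).iP L).map1 =
      ((Pair.swap ρ Ω' Ω L).comp (Pair.const (Fun ρ Ω) Ω' L)).map1 :=
    Pair.map1_congr rfl rfl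
  rw [e, Pair.map1_comp, LinearMap.comp_apply, h, map_zero]

lemma i_funSES_map2 (z : H2 L (Fun ρ Ω)) (h : (Pair.const (Fun ρ Ω) Ω' L).map2 z = 0) :
    (((constSES ρ Ω').funSES Ω).iP L).map2 z = 0 := by
  have e : (((constSES ρ Ω').funSES Ω).iP L).map2 =
      ((Pair.swap ρ Ω' Ω L).comp (Pair.const (Fun ρ Ω) Ω' L)).map2 :=
    Pair.map2_congr rfl rfl
  rw [e, Pair.map2_comp, LinearMap.comp_apply, h, map_zero]

lemma i_sub_map1 (V : Subgroup H) (w : H1 (L.sub V) (rsub ρ V))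
    (h : (Pair.constSub ρ Ω' L V).map1 w = 0) :
    (((constSES ρ Ω').sub V).iP (L.sub V)).map1 w = 0 := by
  have e : (((constSES ρ Ω').sub V).iP (L.sub V)).map1 = (Pair.constSub ρ Ω' L V).map1 :=
    Pair.map1_congr rfl rfl
  rw [e, h]

lemma i_sub_map2 (V : Subgroup H) (w : H2 (L.sub V) (rsub ρ V))
    (h : (Pair.constSub ρ Ω' L V).map2 w = 0) :
    (((constSES ρ Ω').sub V).iP (L.sub V)).map2 w = 0 := by
  have e : (((constSES ρ Ω').sub V).iP (L.sub V)).map2 = (Pair.constSub ρ Ω' L V).map2 :=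
    Pair.map2_congr rfl rfl
  rw [e, h]

end Shapiro

theorem ev_bijective0 [MulAction.IsPretransitive H Ω] (V : Subgroup H) (x : Ω)
    (hx : ∀ v, v ∈ V ↔ v • x = x) :
    Function.Bijective (Pair.ev L ρ Ω V x (fun v hv => (hx v).1 hv)).map0 := by
  constructor
  · intro f f' h
    have hxx : (f : Ω → X) x = (f' : Ω → X) x := congrArg Subtype.val h
    ext w
    obtain ⟨g, rfl⟩ := MulAction.exists_smul_eq H x w
    rw [Shapiro.inv_apply_smul ρ Ω f g x, Shapiro.inv_apply_smul ρ Ω f' g x, hxx]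
  · intro y
    have hy : ∀ v ∈ V, ρ v (y : X) = y := fun v hv => y.2 ⟨v, hv⟩
    let F : Ω → X := fun w => ρ (MulAction.exists_smul_eq H x w).choose y
    have hF : ∀ g : H, F (g • x) = ρ g y := by
      intro g
      have h1 : (MulAction.exists_smul_eq H x (g • x)).choose • x = g • x :=
        (MulAction.exists_smul_eq H x (g • x)).choose_spec
      set g' := (MulAction.exists_smul_eq H x (g • x)).choose with hg'
      have h2 : g⁻¹ * g' ∈ V := by
        rw [hx, mul_smul, h1, inv_smul_smul]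
      have h3 := hy _ h2
      change ρ g' y = ρ g y
      calc ρ g' (y : X) = ρ (g * (g⁻¹ * g')) y := by rw [mul_inv_cancel_left]
        _ = ρ g (ρ (g⁻¹ * g') y) := by rw [map_mul]; rfl
        _ = ρ g y := by rw [h3]
    refine ⟨⟨F, ?_⟩, ?_⟩
    · intro h
      ext w
      obtain ⟨g, rfl⟩ := MulAction.exists_smul_eq H x w
      rw [Fun_apply, ← mul_smul, hF, hF, ← Module.End.mul_apply, ← map_mul, mul_inv_cancel_left]
    · apply Subtype.ext
      change F x = y
      have := hF 1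
      rwa [one_smul, map_one] at this

theorem ev_bijective1 [Smooth L ρ] [Finite Ω] [L.SmoothSet Ω] [MulAction.IsPretransitive H Ω]
    (V : Subgroup H) (x : Ω) (hx : ∀ v, v ∈ V ↔ v • x = x) :
    Function.Bijective (Pair.ev L ρ Ω V x (fun v hv => (hx v).1 hv)).map1 := by
  have hx' : ∀ v ∈ V, v • x = x := fun v hv => (hx v).1 hv
  constructor
  · rw [injective_iff_map_eq_zero]
    intro z hz
    obtain ⟨N0, hN0, hN0z⟩ := exists_efface1 z
    obtain ⟨N, hN, hNle, hNn, hNf⟩ := L.exists_normal hN0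
    have hz0 := hN0z N hNle hNn hN
    have : Finite (H ⧸ N) := Levels.finite_quotient hN
    have : L.SmoothSet (H ⧸ N) := Levels.smoothSet_quotient' hN
    let E := constSES ρ (H ⧸ N)
    let T := SES.Hom.ev E L Ω V x hx'
    exact shift_injective
      ((E.funSES Ω).πP L).map0.toAddMonoidHom ((E.funSES Ω).δ0 L).toAddMonoidHom
      ((E.funSES Ω).iP L).map1.toAddMonoidHom
      ((E.sub V).πP (L.sub V)).map0.toAddMonoidHom ((E.sub V).δ0 (L.sub V)).toAddMonoidHom
      T.PB.map0.toAddMonoidHom T.PC.map0.toAddMonoidHom T.PA.map1.toAddMonoidHom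
      (fun y => ((E.funSES Ω).exact_π0_δ0 L).apply_apply_eq_zero y)
      ((E.funSES Ω).exact_δ0_i1 L) ((E.sub V).exact_π0_δ0 (L.sub V))
      (fun y => T.π_comm0 y) (fun y => T.δ0_comm y)
      (ev_bijective0 L _ Ω V x hx).2 (ev_bijective0 L _ Ω V x hx).1
      z (Shapiro.i_funSES_map1 L ρ Ω (H ⧸ N) z hz0) hz
  · intro w
    obtain ⟨N0, hN0, hN0w⟩ := exists_efface1_sub V w
    obtain ⟨N, hN, hNle, hNn, hNf⟩ := L.exists_normal hN0
    have hw0 := hN0w N hNle hNn hN
    have : Finite (H ⧸ N) := Levels.finite_quotient hN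
    have : L.SmoothSet (H ⧸ N) := Levels.smoothSet_quotient' hN
    let E := constSES ρ (H ⧸ N)
    let T := SES.Hom.ev E L Ω V x hx'
    exact shift_surjective
      ((E.funSES Ω).δ0 L).toAddMonoidHom
      ((E.sub V).δ0 (L.sub V)).toAddMonoidHom ((E.sub V).iP (L.sub V)).map1.toAddMonoidHom
      T.PC.map0.toAddMonoidHom T.PA.map1.toAddMonoidHom
      ((E.sub V).exact_δ0_i1 (L.sub V)) (fun y => T.δ0_comm y)
      (ev_bijective0 L _ Ω V x hx).2 w (Shapiro.i_sub_map1 L ρ (H ⧸ N) V w hw0)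

theorem ev_bijective2 [Smooth L ρ] [Finite Ω] [L.SmoothSet Ω] [MulAction.IsPretransitive H Ω]
    (V : Subgroup H) (x : Ω) (hx : ∀ v, v ∈ V ↔ v • x = x) :
    Function.Bijective (Pair.ev L ρ Ω V x (fun v hv => (hx v).1 hv)).map2 := by
  have hx' : ∀ v ∈ V, v • x = x := fun v hv => (hx v).1 hv
  constructor
  · rw [injective_iff_map_eq_zero]
    intro z hz
    obtain ⟨N0, hN0, hN0z⟩ := exists_efface2 z
    obtain ⟨N, hN, hNle, hNn, hNf⟩ := L.exists_normal hN0
    have hz0 := hN0z N hNle hNn hN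
    have : Finite (H ⧸ N) := Levels.finite_quotient hN
    have : L.SmoothSet (H ⧸ N) := Levels.smoothSet_quotient' hN
    let E := constSES ρ (H ⧸ N)
    let T := SES.Hom.ev E L Ω V x hx'
    exact shift_injective
      ((E.funSES Ω).πP L).map1.toAddMonoidHom ((E.funSES Ω).δ1 L).toAddMonoidHom
      ((E.funSES Ω).iP L).map2.toAddMonoidHom
      ((E.sub V).πP (L.sub V)).map1.toAddMonoidHom ((E.sub V).δ1 (L.sub V)).toAddMonoidHom
      T.PB.map1.toAddMonoidHom T.PC.map1.toAddMonoidHom T.PA.map2.toAddMonoidHom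
      (fun y => ((E.funSES Ω).exact_π1_δ1 L).apply_apply_eq_zero y)
      ((E.funSES Ω).exact_δ1_i2 L) ((E.sub V).exact_π1_δ1 (L.sub V))
      (fun y => T.π_comm1 y) (fun y => T.δ1_comm y)
      (ev_bijective1 L _ Ω V x hx).2 (ev_bijective1 L _ Ω V x hx).1
      z (Shapiro.i_funSES_map2 L ρ Ω (H ⧸ N) z hz0) hz
  · intro w
    obtain ⟨N0, hN0, hN0w⟩ := exists_efface2_sub V w
    obtain ⟨N, hN, hNle, hNn, hNf⟩ := L.exists_normal hN0
    have hw0 := hN0w N hNle hNn hN
    have : Finite (H ⧸ N) := Levels.finite_quotient hN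
    have : L.SmoothSet (H ⧸ N) := Levels.smoothSet_quotient' hN
    let E := constSES ρ (H ⧸ N)
    let T := SES.Hom.ev E L Ω V x hx'
    exact shift_surjective
      ((E.funSES Ω).δ1 L).toAddMonoidHom
      ((E.sub V).δ1 (L.sub V)).toAddMonoidHom ((E.sub V).iP (L.sub V)).map2.toAddMonoidHom
      T.PC.map1.toAddMonoidHom T.PA.map2.toAddMonoidHom
      ((E.sub V).exact_δ1_i2 (L.sub V)) (fun y => T.δ1_comm y)
      (ev_bijective1 L _ Ω V x hx).2 w (Shapiro.i_sub_map2 L ρ (H ⧸ N) V w hw0)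

/-- `sh_x ∘ const_* = res`, on the nose. -/
lemma ev_comp_const0 (V : Subgroup H) (x : Ω) (hx : ∀ v ∈ V, v • x = x) :
    (Pair.ev L ρ Ω V x hx).map0 ∘ₗ (Pair.const ρ Ω L).map0 = (Pair.res L ρ V).map0 := by
  rw [← Pair.map0_comp]; exact Pair.map0_congr rfl rfl

lemma ev_comp_const1 (V : Subgroup H) (x : Ω) (hx : ∀ v ∈ V, v • x = x) :
    (Pair.ev L ρ Ω V x hx).map1 ∘ₗ (Pair.const ρ Ω L).map1 = (Pair.res L ρ V).map1 := by
  rw [← Pair.map1_comp]; exact Pair.map1_congr rfl rfl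

lemma ev_comp_const2 (V : Subgroup H) (x : Ω) (hx : ∀ v ∈ V, v • x = x) :
    (Pair.ev L ρ Ω V x hx).map2 ∘ₗ (Pair.const ρ Ω L).map2 = (Pair.res L ρ V).map2 := by
  rw [← Pair.map2_comp]; exact Pair.map2_congr rfl rfl

end Fermat.Agent.S55

end
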